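/-
Programme MW (S17), block A (divisibility of `JZero N`), brick AutExt2 (helper2) - pure field theory,
Mathlib only.

* `exists_algEquiv_of_transcendenceBasis` : two algebraically closed fields over a field `R` with
  equipotent transcendence bases are `R`-isomorphic (the `R`-linear form of
  `IsAlgClosed.equivOfTranscendenceBasis`).
* `exists_algEquiv_complex` : for a countable field `M`, any two `M`-algebra structures on `ℂ`
  are isomorphic.
* `exists_ringEquiv_comp_eq` (EXT) : two ring homomorphisms `phi phi' : M →+* ℂ` from a countable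
  field are conjugate under a ring automorphism of `ℂ`.
* `exists_algEquiv_comp_eq` : the same over a countable base field `L` (`tau : ℂ ≃ₐ[L] ℂ`).
-/
import Mathlib

set_option autoImplicit false
set_option linter.style.haveILetI false

noncomputable section

open Cardinal

namespace Fermat.Agent.MW.A.AutExt2

/-- Two algebraically closed fields over a field `R` with equipotent transcendence bases are
isomorphic as `R`-algebras. -/
theorem exists_algEquiv_of_transcendenceBasis {R K L : Type*} [Field R] [Field K] [Field L]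
    [Algebra R K] [Algebra R L] [IsAlgClosed K] [IsAlgClosed L]
    {ι κ : Type*} {v : ι → K} {w : κ → L} (e : ι ≃ κ)
    (hv : IsTranscendenceBasis R v) (hw : IsTranscendenceBasis R w) :
    Nonempty (K ≃ₐ[R] L) := by
  letI := IsAlgClosed.isAlgClosure_of_transcendence_basis v hv
  letI := IsAlgClosed.isAlgClosure_of_transcendence_basis w hw
  let e' : Algebra.adjoin R (Set.range v) ≃ₐ[R] Algebra.adjoin R (Set.range w) :=
    hv.1.aevalEquiv.symm.trans ((MvPolynomial.renameEquiv R e).trans hw.1.aevalEquiv)
  let E : K ≃+* L := IsAlgClosure.equivOfEquiv K L e'.toRingEquiv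
  refine ⟨AlgEquiv.ofRingEquiv (f := E) ?_⟩
  intro r
  have h1 : algebraMap R K r
      = algebraMap (Algebra.adjoin R (Set.range v)) K
          (algebraMap R (Algebra.adjoin R (Set.range v)) r) := rfl
  have h2 : algebraMap R L r
      = algebraMap (Algebra.adjoin R (Set.range w)) L
          (algebraMap R (Algebra.adjoin R (Set.range w)) r) := rfl
  rw [h1, h2]
  show IsAlgClosure.equivOfEquiv K L e'.toRingEquiv _ = _
  rw [IsAlgClosure.equivOfEquiv_algebraMap]
  congr 1
  exact e'.commutes r


/-- For a countable field `M`, any two `M`-algebra structures on an uncountable algebraically closed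
field `K` are isomorphic. (Stated with explicit instances.) -/
theorem exists_algEquiv_of_countable {M K : Type} [Field M] [Countable M] [Field K] [IsAlgClosed K]
    (hK : ℵ₀ < #K) (a₁ a₂ : Algebra M K) :
    Nonempty (@AlgEquiv M K K _ _ _ a₁ a₂) := by
  have hM : #M ≤ ℵ₀ := Cardinal.mk_le_aleph0
  -- transcendence bases for both structures
  obtain ⟨ι, v, hv⟩ := @exists_isTranscendenceBasis' M K _ _ a₁
    ((@faithfulSMul_iff_algebraMap_injective M K _ _ a₁).mpr (@algebraMap M K _ _ a₁).injective)
  obtain ⟨κ, w, hw⟩ := @exists_isTranscendenceBasis' M K _ _ a₂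
    ((@faithfulSMul_iff_algebraMap_injective M K _ _ a₂).mpr (@algebraMap M K _ _ a₂).injective)
  have h1 : #K = #ι :=
    @IsAlgClosed.cardinal_eq_cardinal_transcendence_basis_of_aleph0_lt' M _ K _ a₁ _ ι v _ hv hM hK
  have h2 : #K = #κ :=
    @IsAlgClosed.cardinal_eq_cardinal_transcendence_basis_of_aleph0_lt' M _ K _ a₂ _ κ w _ hw hM hK
  obtain ⟨e⟩ := Cardinal.eq.1 (h1.symm.trans h2)
  exact @exists_algEquiv_of_transcendenceBasis M K K _ _ _ a₁ a₂ _ _ ι κ v w e hv hw

/-- **(EXT)** Two ring homomorphisms from a countable field into `ℂ` are conjugate under a ring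
automorphism of `ℂ`. -/
theorem exists_ringEquiv_comp_eq {M : Type} [Field M] [Countable M] (phi phi' : M →+* ℂ) :
    ∃ tau : ℂ ≃+* ℂ, ∀ a, tau (phi a) = phi' a := by
  have hC : ℵ₀ < #ℂ := by rw [Cardinal.mk_complex]; exact Cardinal.aleph0_lt_continuum
  obtain ⟨E⟩ := exists_algEquiv_of_countable hC phi.toAlgebra phi'.toAlgebra
  refine ⟨@AlgEquiv.toRingEquiv M ℂ ℂ _ _ _ phi.toAlgebra phi'.toAlgebra E, fun a => ?_⟩
  exact @AlgEquiv.commutes M ℂ ℂ _ _ _ phi.toAlgebra phi'.toAlgebra E a


/-- (EXT) over a base field `L`: two `L`-algebra homomorphisms from a countable field `M` into `ℂ`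
are conjugate under an `L`-automorphism of `ℂ`. -/
theorem exists_algEquiv_comp_eq {L M : Type} [Field L] [Field M] [Countable M] [Algebra L M]
    [Algebra L ℂ] (phi phi' : M →ₐ[L] ℂ) :
    ∃ tau : ℂ ≃ₐ[L] ℂ, ∀ a, tau (phi a) = phi' a := by
  obtain ⟨t, ht⟩ := exists_ringEquiv_comp_eq (phi : M →+* ℂ) (phi' : M →+* ℂ)
  refine ⟨AlgEquiv.ofRingEquiv (f := t) fun l => ?_, fun a => ht a⟩
  have h1 : algebraMap L ℂ l = phi (algebraMap L M l) := (phi.commutes l).symm
  have h2 : algebraMap L ℂ l = phi' (algebraMap L M l) := (phi'.commutes l).symm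
  calc t (algebraMap L ℂ l) = t (phi (algebraMap L M l)) := by rw [← h1]
    _ = phi' (algebraMap L M l) := ht _
    _ = algebraMap L ℂ l := h2.symm

/-- Variant for a subfield: if `phi phi' : M →+* ℂ` agree on a subset `S` of the countable field `M`,
the conjugating automorphism fixes `phi '' S` pointwise (trivially, from the conjugation formula). -/
theorem exists_ringEquiv_comp_eq_fix {M : Type} [Field M] [Countable M] (phi phi' : M →+* ℂ)
    (S : Set M) (hS : ∀ a ∈ S, phi a = phi' a) :
    ∃ tau : ℂ ≃+* ℂ, (∀ a, tau (phi a) = phi' a) ∧ ∀ a ∈ S, tau (phi a) = phi a := by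
  obtain ⟨t, ht⟩ := exists_ringEquiv_comp_eq phi phi'
  exact ⟨t, ht, fun a ha => (ht a).trans (hS a ha).symm⟩

end Fermat.Agent.MW.A.AutExt2
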