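/-
Programme MW (S17), block A, brick CountableFF2 (helper2): countability of the function fields
`F_L = laurentBaseChange L F₀` for a countable field `L`.

* `countable_adjoin` : `IntermediateField.adjoin F s` is countable if `F` and `s` are;
* `countable_modularFunctionFieldFull` : `ℚ(j(q^d) : d ∣ N)` is countable;
* `countable_laurentBaseChange` : `laurentBaseChange L F₀` is countable for countable `L`, `F₀`;
* `countable_modularFunctionFieldL` : the case `F₀ = modularFunctionFieldFull N`;
* `countable_JZero_field` : `modularFunctionFieldBar N` (over `AlgebraicClosure ℚ`) is countable.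
-/
import Mathlib
import Fermat.Prelude.Def_ModularCurve_ArithmeticGalois

set_option autoImplicit false

noncomputable section

open Cardinal Set ModularCurve

namespace Fermat.Agent.MW.A.CountableFF2

universe u

/-- A field generated over a countable field by a countable set is countable. -/
theorem countable_adjoin (F : Type u) [Field F] {E : Type u} [Field E] [Algebra F E]
    [Countable F] {s : Set E} (hs : s.Countable) :
    Countable (IntermediateField.adjoin F s) := by
  rw [← Cardinal.mk_le_aleph0_iff]
  refine (IntermediateField.cardinalMk_adjoin_le F s).trans ?_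
  have h1 : #F ≤ ℵ₀ := Cardinal.mk_le_aleph0
  have h2 : #s ≤ ℵ₀ := by
    rw [Cardinal.mk_le_aleph0_iff]; exact hs.to_subtype
  exact sup_le (sup_le h1 h2) le_rfl

/-- The set of generators `j(q^d)`, `d ∣ N`, is countable. -/
theorem countable_divisorExpansions (N : ℕ) : (divisorExpansions N).Countable := by
  classical
  have : divisorExpansions N ⊆
      Set.range (fun d : {d : ℕ // d ≠ 0} =>
        (@qExpand ℚ _ d.1 ⟨d.2⟩ jq : LaurentSeries ℚ)) := by
    rintro x ⟨d, hd, -, rfl⟩
    exact ⟨⟨d, hd.out⟩, rfl⟩
  exact (Set.countable_range _).mono this

/-- `ℚ(j(q^d) : d ∣ N)` is countable. -/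
instance countable_modularFunctionFieldFull (N : ℕ) :
    Countable (modularFunctionFieldFull N) :=
  countable_adjoin ℚ (countable_divisorExpansions N)

/-- `laurentBaseChange L F₀` is countable for countable `L` and `F₀`. -/
theorem countable_laurentBaseChange (L : Type u) [Field L] [Algebra ℚ L] [Countable L]
    (F₀ : IntermediateField ℚ (LaurentSeries ℚ)) [Countable F₀] :
    Countable (laurentBaseChange L F₀) := by
  have hs : (⇑(coeffEmb L) '' (F₀ : Set (LaurentSeries ℚ))).Countable := by
    have : (F₀ : Set (LaurentSeries ℚ)).Countable := Set.countable_coe_iff.mp ‹Countable F₀›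
    exact this.image _
  exact countable_adjoin L hs

/-- The function field `L · F_N` is countable for countable `L`. -/
instance countable_modularFunctionFieldL (L : Type u) [Field L] [Algebra ℚ L] [Countable L]
    (N : ℕ) : Countable (laurentBaseChange L (modularFunctionFieldFull N)) :=
  countable_laurentBaseChange L (modularFunctionFieldFull N)

/-- An algebraic field extension of a countable field is countable. -/
theorem countable_of_isAlgebraic (R : Type u) (A : Type u) [Field R] [Field A] [Algebra R A]
    [Algebra.IsAlgebraic R A] [Countable R] : Countable A := by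
  rw [← Cardinal.mk_le_aleph0_iff]
  refine (Algebra.IsAlgebraic.cardinalMk_le_max R A).trans ?_
  exact max_le Cardinal.mk_le_aleph0 le_rfl

/-- The relative algebraic closure (inside any field `E`) of a countable field is countable. -/
instance countable_algebraicClosure_in (R : Type u) (E : Type u) [Field R] [Field E] [Algebra R E]
    [Countable R] : Countable (algebraicClosure R E) :=
  countable_of_isAlgebraic R (algebraicClosure R E)

/-- `ℚbar` is countable. -/
instance countable_algebraicClosure_rat : Countable (AlgebraicClosure ℚ) := by
  rw [← Cardinal.mk_le_aleph0_iff]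
  have : Algebra.IsAlgebraic ℚ (AlgebraicClosure ℚ) := AlgebraicClosure.isAlgebraic ℚ
  refine (Algebra.IsAlgebraic.cardinalMk_le_max ℚ (AlgebraicClosure ℚ)).trans ?_
  exact max_le Cardinal.mk_le_aleph0 le_rfl

/-- The function field of `X₀(N)` over `ℚbar` is countable. -/
instance countable_modularFunctionFieldBar (N : ℕ) : Countable (modularFunctionFieldBar N) :=
  countable_modularFunctionFieldL (AlgebraicClosure ℚ) N

end Fermat.Agent.MW.A.CountableFF2
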