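/-
Programme MW (S17), block A (divisibility of `JZero N`), brick Tower2 (helper2):
intermediate algebraically closed fields `ℚbar ⊆ L ⊆ ℂ` as TYPES and the `J/DESC` package for the
pair `(L, ℂ)`.

(Tw1) `cl S : IntermediateField Qb ℂ` = elements of `ℂ` algebraic over `ℚbar(S)`; instances
      `IsAlgClosed`, `CharZero`, `Countable` (for countable `S`), lemmas `subset_cl`, `cl_mono`,
      `mem_cl_iff`, `algebraMap_mem_cl`.
(Tw2) for any algebraically closed `L` of characteristic zero with `Algebra L ℂ`: `FL`, `bcL`,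
      `isConstExt_bcL`, `rhoL`, `baseAut_rhoL`, `rhoL_smul_bcL`, `mem_range_bcL_of_fixed`,
      `extPlaceL`.
(Tw3) compatibility with the `ℚbar`-level objects of `J/DESC/DescentFinal24`.
(Tw4) rationality criterion: a place of `F_ℂ` whose `j`-residue lies in `L` is rational over `L`.
(Tw5) rational places are fixed by `Aut(ℂ/L)`.
-/
import Mathlib
import Fermat.Agent.J.DESC.DescentFinal24
import Fermat.Agent.J.DESC.FiniteOrbit22
import Fermat.Agent.MW.A.CountableFF2

set_option autoImplicit false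
set_option linter.unusedSectionVars false
set_option linter.style.longLine false

namespace Fermat.Agent.MW.A.Tower2

open ModularCurve HahnSeries AlgebraicCurve Fermat.Agent.X0
open Fermat.Agent.J.DESC.ConstExt24 Fermat.Agent.J.DESC.LaurentExt24
open Fermat.Agent.J.DESC.DescentC24 Fermat.Agent.J.DESC.ExtPic22
open Fermat.Agent.J.DESC.DescentFinal24
open Fermat.Agent.ES.KUM.FieldL25

noncomputable section

attribute [local instance] instAlgebraQbarComplex instTowerQbarComplex

/-! ### (Tw1) the algebraically closed subfield generated by a set -/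

/-- `cl S`: the elements of `ℂ` algebraic over `ℚbar(S)`. -/
def cl (S : Set ℂ) : IntermediateField Qb ℂ :=
  (algebraicClosure (IntermediateField.adjoin Qb S) ℂ).restrictScalars Qb

theorem mem_cl_iff {S : Set ℂ} {z : ℂ} :
    z ∈ cl S ↔ IsAlgebraic (IntermediateField.adjoin Qb S) z := by
  rw [cl, IntermediateField.mem_restrictScalars, mem_algebraicClosure_iff]

theorem adjoin_le_cl (S : Set ℂ) : IntermediateField.adjoin Qb S ≤ cl S := by
  intro z hz
  rw [mem_cl_iff]
  exact isAlgebraic_algebraMap (⟨z, hz⟩ : IntermediateField.adjoin Qb S)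

theorem subset_cl (S : Set ℂ) : S ⊆ cl S := fun _ hz =>
  adjoin_le_cl S (IntermediateField.subset_adjoin Qb S hz)

theorem algebraMap_mem_cl (S : Set ℂ) (c : Qb) : algebraMap Qb ℂ c ∈ cl S :=
  (cl S).algebraMap_mem c

theorem cl_mono {S T : Set ℂ} (h : S ⊆ T) : cl S ≤ cl T := by
  intro z hz
  rw [mem_cl_iff] at hz ⊢
  have hle : IntermediateField.adjoin Qb S ≤ IntermediateField.adjoin Qb T :=
    IntermediateField.adjoin.mono Qb S T h
  obtain ⟨p, hp0, hp⟩ := hz
  refine ⟨p.map (IntermediateField.inclusion hle).toRingHom, ?_, ?_⟩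
  · exact (Polynomial.map_ne_zero_iff (IntermediateField.inclusion hle).toRingHom.injective).mpr hp0
  · rw [Polynomial.aeval_def, Polynomial.eval₂_map] at *
    exact hp

instance isAlgClosed_cl (S : Set ℂ) : IsAlgClosed ↥(cl S) :=
  (inferInstance : IsAlgClosure (IntermediateField.adjoin Qb S)
    (algebraicClosure (IntermediateField.adjoin Qb S) ℂ)).isAlgClosed

instance charZero_cl (S : Set ℂ) : CharZero ↥(cl S) :=
  charZero_of_injective_algebraMap (algebraMap Qb ↥(cl S)).injective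

theorem countable_cl {S : Set ℂ} (hS : S.Countable) : Countable ↥(cl S) := by
  have : Countable ↥(IntermediateField.adjoin Qb S) := CountableFF2.countable_adjoin Qb hS
  exact CountableFF2.countable_algebraicClosure_in (IntermediateField.adjoin Qb S) ℂ

/-- An algebraically independent family: `c i` is not in `cl` of the other members. -/
theorem notMem_cl_of_algebraicIndependent {ι : Type*} {c : ι → ℂ}
    (hc : AlgebraicIndependent Qb c) {T : Set ι} {i : ι} (hi : i ∉ T) : c i ∉ cl (c '' T) := by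
  intro hmem
  rw [mem_cl_iff, IntermediateField.isAlgebraic_adjoin_iff] at hmem
  exact hc.transcendental_adjoin hi hmem

/-- `cl` is compatible with automorphisms of `ℂ` over `ℚbar`. -/
theorem map_mem_cl {S : Set ℂ} (σ : ℂ ≃ₐ[Qb] ℂ) {z : ℂ} (hz : z ∈ cl S) : σ z ∈ cl (σ '' S) := by
  rw [mem_cl_iff, IntermediateField.isAlgebraic_adjoin_iff] at hz ⊢
  have himg : (Algebra.adjoin Qb S).map σ.toAlgHom = Algebra.adjoin Qb (σ '' S) :=
    AlgHom.map_adjoin σ.toAlgHom S
  -- the algebra hom `adjoin Qb S → adjoin Qb (σ '' S)` induced by `σ`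
  let φ : Algebra.adjoin Qb S →ₐ[Qb] Algebra.adjoin Qb (σ '' S) :=
    AlgHom.codRestrict (σ.toAlgHom.comp (Algebra.adjoin Qb S).val) (Algebra.adjoin Qb (σ '' S))
      (fun a => by
        rw [← himg]
        exact ⟨a, a.2, rfl⟩)
  have hφ : Function.Injective φ := by
    intro a b hab
    apply Subtype.ext
    apply σ.injective
    exact congrArg Subtype.val hab
  exact hz.ringHom_of_comp_eq (φ : Algebra.adjoin Qb S →+* Algebra.adjoin Qb (σ '' S))
    (σ : ℂ →+* ℂ) hφ (RingHom.ext fun a => rfl)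

theorem map_mem_cl_iff {S : Set ℂ} (σ : ℂ ≃ₐ[Qb] ℂ) {z : ℂ} : σ z ∈ cl (σ '' S) ↔ z ∈ cl S := by
  refine ⟨fun h => ?_, map_mem_cl σ⟩
  have := map_mem_cl σ.symm h
  rw [Set.image_image] at this
  simpa using this

/-! ### (Tw2) the `J/DESC` package for the pair `(L, ℂ)` -/

section Generic

variable (L : Type) [Field L] [Algebra ℚ L] [Algebra L ℂ] (N : ℕ) [NeZero N]

/-- `F_L = L · F_N ⊂ L((q))`. -/
abbrev FL : Type := ↥(laurentBaseChange L (modularFunctionFieldFull N))

/-- Base change of modular functions `F_L → F_ℂ`. -/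
def bcL : FL L N →+* FCx N := bc (k := L) (K := ℂ) (modularFunctionFieldFull N)

theorem coe_bcL (f : FL L N) :
    ((bcL L N f : FCx N) : LaurentSeries ℂ) = coeffMap (algebraMap L ℂ) (f : LaurentSeries L) := rfl

theorem bcL_injective : Function.Injective (bcL L N) := bc_injective _

theorem isConstExt_bcL : IsConstExt (k := L) (K := ℂ) (bcL L N) :=
  isConstExt_bc (k := L) (K := ℂ) (modularFunctionFieldFull N)

theorem bcL_jL : bcL L N (jL L N) = jL ℂ N := bc_jL L ℂ N

theorem bcL_algebraMap (c : L) :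
    bcL L N (algebraMap L (FL L N) c) = algebraMap ℂ (FCx N) (algebraMap L ℂ c) :=
  (isConstExt_bcL L N).comm c

/-- The action of `Aut(ℂ/L)` on `F_ℂ`. -/
def rhoL : (ℂ ≃ₐ[L] ℂ) →* SemilinearAut ℂ (FCx N) :=
  rho (k := L) (K := ℂ) (modularFunctionFieldFull N)

theorem baseAut_rhoL (σ : ℂ ≃ₐ[L] ℂ) (c : ℂ) : SemilinearAut.baseAut (rhoL L N σ) c = σ c := rfl

theorem rhoL_smul_bcL (σ : ℂ ≃ₐ[L] ℂ) (f : FL L N) : rhoL L N σ • bcL L N f = bcL L N f :=
  rho_smul_bc (modularFunctionFieldFull N) σ f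

theorem mem_range_bcL_of_fixed [IsAlgClosed L] (h : FCx N)
    (hfix : ∀ σ : ℂ ≃ₐ[L] ℂ, rhoL L N σ • h = h) : h ∈ Set.range (bcL L N) :=
  mem_range_bc_of_fixed (k := L) (K := ℂ) (modularFunctionFieldFull N) h hfix

variable [IsAlgClosed L] [CharZero L]

/-- Extension of places of `F_L` to `F_ℂ`. -/
def extPlaceL : Place L (FL L N) → Place ℂ (FCx N) :=
  extPlace (bcL L N) (isConstExt_bcL L N) (isGen_jL ℂ N)

theorem ord_extPlaceL (w : Place L (FL L N)) (f : FL L N) :
    (extPlaceL L N w).ord (bcL L N f) = w.ord f :=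
  ord_extPlace (isConstExt_bcL L N) (isGen_jL L N) (isGen_jL ℂ N) w f

theorem extPlaceL_injective : Function.Injective (extPlaceL L N) :=
  extPlace_injective (isConstExt_bcL L N) (isGen_jL ℂ N)

/-- Characterisation of the places of `F_ℂ` that are rational over `L`. -/
theorem mem_range_extPlaceL_iff (v : Place ℂ (FCx N)) :
    v ∈ Set.range (extPlaceL L N) ↔ ∃ f : FL L N, f ≠ 0 ∧ 0 < v.ord (bcL L N f) :=
  mem_range_extPlace_iff (isConstExt_bcL L N) (isGen_jL L N) (isGen_jL ℂ N) v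

/-- (Tw5) places rational over `L` are fixed by `Aut(ℂ/L)`. -/
theorem rhoL_smul_extPlaceL (σ : ℂ ≃ₐ[L] ℂ) (w : Place L (FL L N)) :
    rhoL L N σ • extPlaceL L N w = extPlaceL L N w :=
  smul_extPlace (isConstExt_bcL L N) (isGen_jL L N) (isGen_jL ℂ N) (rhoL L N σ)
    (rhoL_smul_bcL L N σ) w

/-- (Tw5), membership form. -/
theorem rhoL_smul_eq_of_mem_range {v : Place ℂ (FCx N)} (hv : v ∈ Set.range (extPlaceL L N))
    (σ : ℂ ≃ₐ[L] ℂ) : rhoL L N σ • v = v := by
  obtain ⟨w, rfl⟩ := hv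
  exact rhoL_smul_extPlaceL L N σ w

/-! ### (Tw4) the rationality criterion -/

theorem jL_sub_ne_zero (c : L) : jL L N - algebraMap L (FL L N) c ≠ 0 := by
  intro h0
  apply (isGen_jL L N).transcendental
  rw [sub_eq_zero.mp h0]
  exact isAlgebraic_algebraMap c

/-- **(Tw4)** a place of `F_ℂ` whose `j`-residue lies in `L` is rational over `L`. -/
theorem mem_range_extPlaceL_of_residue (v : Place ℂ (FCx N)) (c : L)
    (h : 0 < v.ord (jL ℂ N - algebraMap ℂ (FCx N) (algebraMap L ℂ c))) :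
    v ∈ Set.range (extPlaceL L N) := by
  rw [mem_range_extPlaceL_iff]
  refine ⟨jL L N - algebraMap L (FL L N) c, jL_sub_ne_zero L N c, ?_⟩
  rw [map_sub, bcL_jL, bcL_algebraMap]
  exact h

/-- (Tw4'') a pole of `j` is rational over `L`. -/
theorem mem_range_extPlaceL_of_pole (v : Place ℂ (FCx N)) (h : v.ord (jL ℂ N) < 0) :
    v ∈ Set.range (extPlaceL L N) := by
  rw [mem_range_extPlaceL_iff]
  refine ⟨(jL L N)⁻¹, inv_ne_zero (isGen_jL L N).ne_zero, ?_⟩
  rw [map_inv₀, bcL_jL, v.ord_inv]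
  omega

/-- (Tw4') a place rational over `L` at which `j` is regular has its `j`-residue in `L`. -/
theorem exists_residue_of_mem_range {v : Place ℂ (FCx N)} (hv : v ∈ Set.range (extPlaceL L N))
    (h0 : 0 ≤ v.ord (jL ℂ N)) :
    ∃ c : L, 0 < v.ord (jL ℂ N - algebraMap ℂ (FCx N) (algebraMap L ℂ c)) := by
  obtain ⟨w, rfl⟩ := hv
  have hw : 0 ≤ w.ord (jL L N) := by
    rw [← ord_extPlaceL L N w (jL L N), bcL_jL]; exact h0
  have hmem : jL L N ∈ w.toValuationSubring := FF.ffp_mem_of_ord_nonneg w hw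
  obtain ⟨c, hc | hc⟩ := FF.exists_ord_sub_pos (isGen_jL L N) w hmem
  · exact absurd (sub_eq_zero.mpr hc) (jL_sub_ne_zero L N c)
  · refine ⟨c, ?_⟩
    have := ord_extPlaceL L N w (jL L N - algebraMap L (FL L N) c)
    rw [map_sub, bcL_jL, bcL_algebraMap] at this
    rw [this]
    exact hc

/-- Every place of `F_ℂ` is a pole of `j` or has a (unique) `j`-residue. -/
theorem pole_or_residue (v : Place ℂ (FCx N)) :
    v.ord (jL ℂ N) < 0 ∨ ∃ c : ℂ, 0 < v.ord (jL ℂ N - algebraMap ℂ (FCx N) c) := by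
  by_cases h : v.ord (jL ℂ N) < 0
  · exact Or.inl h
  · right
    have hmem : jL ℂ N ∈ v.toValuationSubring := FF.ffp_mem_of_ord_nonneg v (not_lt.mp h)
    obtain ⟨c, hc | hc⟩ := FF.exists_ord_sub_pos (isGen_jL ℂ N) v hmem
    · exfalso
      apply (isGen_jL ℂ N).transcendental
      rw [hc]
      exact isAlgebraic_algebraMap c
    · exact ⟨c, hc⟩

end Generic

/-! ### (Tw3) compatibility with the `ℚbar`-level objects -/

section Compat

variable (L : Type) [Field L] [Algebra ℚ L] [Algebra L ℂ] [Algebra Qb L] [IsScalarTower Qb L ℂ]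
  (N : ℕ) [NeZero N]

/-- Base change `F_ℚbar → F_L`. -/
def bcQL : FQ N →+* FL L N := bc (k := Qb) (K := L) (modularFunctionFieldFull N)

theorem bcQL_injective : Function.Injective (bcQL L N) := bc_injective _

/-- `F_ℚbar → F_L → F_ℂ` is the base change `F_ℚbar → F_ℂ`. -/
theorem bcL_bcQL (f : FQ N) : bcL L N (bcQL L N f) = bcQC N f := by
  apply Subtype.ext
  show coeffMap (algebraMap L ℂ) (coeffMap (algebraMap Qb L) (f : LaurentSeries Qb)) =
    coeffMap (algebraMap Qb ℂ) (f : LaurentSeries Qb)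
  rw [coeffMap_coeffMap]
  exact coeffMap_congr (IsScalarTower.algebraMap_eq Qb L ℂ).symm _

theorem bcQC_eq_comp : bcQC N = (bcL L N).comp (bcQL L N) :=
  RingHom.ext fun f => (bcL_bcQL L N f).symm

/-- `rhoL` is the restriction of `rhoC` to `Aut(ℂ/L) ⊆ Aut(ℂ/ℚbar)`. -/
theorem rhoL_eq (σ : ℂ ≃ₐ[L] ℂ) : rhoL L N σ = rhoC N (σ.restrictScalars Qb) := rfl

variable [IsAlgClosed L] [CharZero L]

/-- A place rational over `ℚbar` is rational over `L`. -/
theorem extPlaceC_mem_range_extPlaceL (w : Place Qb (FQ N)) :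
    extPlaceC N w ∈ Set.range (extPlaceL L N) := by
  rw [mem_range_extPlaceL_iff]
  obtain ⟨π, hπ⟩ := FF.ffp_exists_irreducible w
  have hπ0 : ((π : w.toValuationSubring) : FQ N) ≠ 0 := by
    simpa [ne_eq, ZeroMemClass.coe_eq_zero] using hπ.ne_zero
  refine ⟨bcQL L N (π : FQ N), (map_ne_zero_iff _ (bcQL_injective L N)).mpr hπ0, ?_⟩
  rw [bcL_bcQL, ord_extPlaceC, w.ord_coe_irreducible hπ]
  exact one_pos

theorem range_extPlaceC_subset : Set.range (extPlaceC N) ⊆ Set.range (extPlaceL L N) := by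
  rintro _ ⟨w, rfl⟩
  exact extPlaceC_mem_range_extPlaceL L N w

end Compat

/-! ### The case `L = cl S` -/

section Cl

variable (S : Set ℂ) (N : ℕ) [NeZero N]

/-- **(Tw4)** for `L = cl S`: a place whose `j`-residue lies in `cl S` is rational over `cl S`. -/
theorem mem_range_extPlace_cl_of_residue (v : Place ℂ (FCx N)) {c : ℂ} (hc : c ∈ cl S)
    (h : 0 < v.ord (jL ℂ N - algebraMap ℂ (FCx N) c)) :
    v ∈ Set.range (extPlaceL ↥(cl S) N) :=
  mem_range_extPlaceL_of_residue ↥(cl S) N v ⟨c, hc⟩ h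

/-- (Tw4') for `L = cl S`. -/
theorem exists_residue_mem_cl {v : Place ℂ (FCx N)} (hv : v ∈ Set.range (extPlaceL ↥(cl S) N))
    (h0 : 0 ≤ v.ord (jL ℂ N)) :
    ∃ c ∈ cl S, 0 < v.ord (jL ℂ N - algebraMap ℂ (FCx N) c) := by
  obtain ⟨c, hc⟩ := exists_residue_of_mem_range ↥(cl S) N hv h0
  exact ⟨(c : ℂ), c.2, hc⟩

end Cl

end

end Fermat.Agent.MW.A.Tower2
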