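/-
Programme MW (S17), block A (divisibility of `JZero N`), step (A4), shared definitions (helper7):
**generic chains** of places of `F_ℂ = FCx N`.

A *generic chain* of length `g` is a family `R : Fin g → Place ℂ (FCx N)` of places at which the
modular invariant `j` is regular with values `c i` algebraically independent over `ℚbar`.

* `IsGenChain N R c`, `chainDiv R = ∑ i, R i`;
* `IsGenChain.smul` : stability under `Aut(ℂ/ℚbar)` (acting through `rhoC`);
* `IsGenChain.res_unique`, `IsGenChain.injective`;
* `IsGenChain.notMem_range` : `R i` is not rational over `cl (c '' T)` for `i ∉ T`;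
* `IsGenChain.mem_cl_of_mem_range` : if `R i` is rational over `cl S` then `c i ∈ cl S`;
* `chainDiv` : effective, of degree `g`, support `= range R`, equivariant.
-/
import Mathlib
import Fermat.Agent.MW.A.Tower2
import Fermat.Agent.RR.LHypGen

set_option autoImplicit false
set_option linter.unusedSectionVars false
set_option linter.style.longLine false

namespace Fermat.Agent.MW.A.GenChain7

open ModularCurve HahnSeries AlgebraicCurve Fermat.Agent.X0
open Fermat.Agent.J.DESC.ConstExt24 Fermat.Agent.J.DESC.LaurentExt24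
open Fermat.Agent.J.DESC.DescentC24 Fermat.Agent.J.DESC.ExtPic22
open Fermat.Agent.J.DESC.DescentFinal24 Fermat.Agent.J.DESC.FiniteOrbit22
open Fermat.Agent.ES.KUM.FieldL25
open Fermat.Agent.MW.A.Tower2

noncomputable section

attribute [local instance] instAlgebraQbarComplex instTowerQbarComplex

variable (N : ℕ) [NeZero N]

/-- A **generic chain** of length `g`: places `R i` of `F_ℂ` at which `j` takes values `c i`
algebraically independent over `ℚbar`. -/
structure IsGenChain {g : ℕ} (R : Fin g → Place ℂ (FCx N)) (c : Fin g → ℂ) : Prop where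
  res : ∀ i, 0 < (R i).ord (jL ℂ N - algebraMap ℂ (FCx N) (c i))
  indep : AlgebraicIndependent Qb c

variable {N}

/-- The divisor `∑ i, R i` of a family of places. -/
def chainDiv {g : ℕ} (R : Fin g → Place ℂ (FCx N)) : Divisor ℂ (FCx N) :=
  ∑ i, Finsupp.single (R i) 1

variable (N) in
/-- `j` is fixed by `Aut(ℂ/ℚbar)`. -/
theorem rhoC_smul_jL (τ : ℂ ≃ₐ[Qb] ℂ) : rhoC N τ • jL ℂ N = jL ℂ N := by
  rw [← bcQC_jL N]
  exact rhoC_smul_bcQC N τ (jL Qb N)

variable (N) in
/-- The `j`-residue of `τ • v` is `τ` of the `j`-residue of `v`. -/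
theorem ord_rhoC_smul_jL_sub (τ : ℂ ≃ₐ[Qb] ℂ) (v : Place ℂ (FCx N)) (c : ℂ) :
    (rhoC N τ • v).ord (jL ℂ N - algebraMap ℂ (FCx N) (τ c)) =
      v.ord (jL ℂ N - algebraMap ℂ (FCx N) c) := by
  have h := ord_smul_sub_const (rhoC N τ) v (jL ℂ N) c
  rw [rhoC_smul_jL, baseAut_rhoC] at h
  exact h

namespace IsGenChain

variable {g : ℕ} {R : Fin g → Place ℂ (FCx N)} {c : Fin g → ℂ}

/-- Generic chains are stable under `Aut(ℂ/ℚbar)`. -/
theorem smul (h : IsGenChain N R c) (τ : ℂ ≃ₐ[Qb] ℂ) :
    IsGenChain N (fun i => rhoC N τ • R i) (fun i => τ (c i)) where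
  res i := by
    rw [ord_rhoC_smul_jL_sub]
    exact h.res i
  indep := h.indep.map' (f := τ.toAlgHom) τ.injective

/-- The `j`-residue of `R i` is `c i`. -/
theorem res_unique (h : IsGenChain N R c) {i : Fin g} {c' : ℂ}
    (h' : 0 < (R i).ord (jL ℂ N - algebraMap ℂ (FCx N) c')) : c' = c i :=
  const_unique (R i) h' (h.res i)

theorem injective (h : IsGenChain N R c) : Function.Injective R := by
  intro i j hij
  apply h.indep.injective
  have h1 := h.res j
  rw [← hij] at h1
  exact (h.res_unique h1).symm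

/-- `j` is regular at the places of a generic chain. -/
theorem ord_jL_nonneg (h : IsGenChain N R c) (i : Fin g) : 0 ≤ (R i).ord (jL ℂ N) := by
  by_contra hneg
  rw [not_le] at hneg
  have h0 : jL ℂ N - algebraMap ℂ (FCx N) (c i) ≠ 0 := by
    intro h0
    have := h.res i
    rw [h0] at this
    simp at this
  have h1 := FF.ord_sub_ge (R i) (f := jL ℂ N) (g := algebraMap ℂ (FCx N) (c i)) h0
  by_cases hc : c i = 0
  · have h2 := h.res i
    rw [hc, map_zero, sub_zero] at h2
    omega
  · rw [FF.ord_algebraMap] at h1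
    have h2 := h.res i
    have h3 : min ((R i).ord (jL ℂ N)) 0 = (R i).ord (jL ℂ N) := min_eq_left hneg.le
    have h4 : (R i).ord (jL ℂ N) =
        (R i).ord ((jL ℂ N - algebraMap ℂ (FCx N) (c i)) + algebraMap ℂ (FCx N) (c i)) := by
      rw [sub_add_cancel]
    have h5 : 0 ≤ (R i).ord ((jL ℂ N - algebraMap ℂ (FCx N) (c i)) +
        algebraMap ℂ (FCx N) (c i)) := by
      have hne : (jL ℂ N - algebraMap ℂ (FCx N) (c i)) + algebraMap ℂ (FCx N) (c i) ≠ 0 := by
        rw [sub_add_cancel]
        exact (isGen_jL ℂ N).ne_zero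
      have := FF.ord_add_ge (R i) (f := jL ℂ N - algebraMap ℂ (FCx N) (c i))
        (g := algebraMap ℂ (FCx N) (c i)) hne
      rw [FF.ord_algebraMap] at this
      have hmin : 0 ≤ min ((R i).ord (jL ℂ N - algebraMap ℂ (FCx N) (c i))) 0 :=
        le_min h2.le le_rfl
      omega
    omega

/-- If `R i` is rational over `cl S`, then `c i ∈ cl S`. -/
theorem mem_cl_of_mem_range (h : IsGenChain N R c) {S : Set ℂ} {i : Fin g}
    (hi : R i ∈ Set.range (extPlaceL ↥(cl S) N)) : c i ∈ cl S := by
  obtain ⟨c', hc', hres⟩ := exists_residue_mem_cl S N hi (h.ord_jL_nonneg i)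
  rw [← h.res_unique hres]
  exact hc'

/-- `R i` is not rational over the algebraically closed field generated by the other `c j`. -/
theorem notMem_range (h : IsGenChain N R c) {T : Set (Fin g)} {i : Fin g} (hi : i ∉ T) :
    R i ∉ Set.range (extPlaceL ↥(cl (c '' T)) N) := fun hmem =>
  notMem_cl_of_algebraicIndependent h.indep hi (h.mem_cl_of_mem_range hmem)

/-- The places of a generic chain are not rational over `ℚbar`. -/
theorem notMem_range_extPlaceC (h : IsGenChain N R c) (i : Fin g) :
    R i ∉ Set.range (extPlaceC N) := fun hmem =>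
  h.notMem_range (T := ∅) (Set.notMem_empty i)
    (range_extPlaceC_subset ↥(cl (c '' (∅ : Set (Fin g)))) N hmem)

end IsGenChain

/-! ### the divisor of a chain -/

section ChainDiv

variable {g : ℕ} (R : Fin g → Place ℂ (FCx N))

theorem chainDiv_nonneg : 0 ≤ chainDiv R := by
  classical
  unfold chainDiv
  apply Finset.sum_nonneg
  intro i _ v
  simp only [Finsupp.coe_zero, Pi.zero_apply]
  rw [Finsupp.single_apply]
  split_ifs <;> norm_num

open Classical in
theorem chainDiv_apply (v : Place ℂ (FCx N)) :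
    chainDiv R v = ((Finset.univ.filter fun i => R i = v).card : ℤ) := by
  unfold chainDiv
  rw [Finsupp.finsetSum_apply]
  simp only [Finsupp.single_apply]
  rw [Finset.sum_ite, Finset.sum_const_zero, add_zero, Finset.sum_const, nsmul_eq_mul, mul_one]

theorem mem_support_chainDiv {v : Place ℂ (FCx N)} :
    v ∈ (chainDiv R).support ↔ ∃ i, R i = v := by
  classical
  rw [Finsupp.mem_support_iff, chainDiv_apply]
  constructor
  · intro h
    have h1 : (Finset.univ.filter fun i => R i = v).card ≠ 0 := by
      intro h0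
      rw [h0] at h
      exact h rfl
    obtain ⟨i, hi⟩ := Finset.card_ne_zero.mp h1
    exact ⟨i, (Finset.mem_filter.mp hi).2⟩
  · rintro ⟨i, hi⟩
    have h1 : (Finset.univ.filter fun i => R i = v).card ≠ 0 :=
      Finset.card_ne_zero.mpr ⟨i, Finset.mem_filter.mpr ⟨Finset.mem_univ i, hi⟩⟩
    exact_mod_cast h1

theorem smul_chainDiv (γ : SemilinearAut ℂ (FCx N)) :
    γ • chainDiv R = chainDiv (fun i => γ • R i) := by
  unfold chainDiv
  rw [Finset.smul_sum]
  exact Finset.sum_congr rfl fun i _ => SemilinearAut.smul_single γ (R i) 1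

theorem degree_chainDiv : Divisor.degree (chainDiv R) = g := by
  unfold chainDiv
  rw [map_sum]
  have h1 : ∀ i ∈ (Finset.univ : Finset (Fin g)),
      Divisor.degree (Finsupp.single (R i) (1 : ℤ)) = 1 := by
    intro i _
    rw [Divisor.degree_single, FF.deg_eq_one (isGen_jL ℂ N)]
    norm_num
  rw [Finset.sum_congr rfl h1]
  simp

end ChainDiv

end

end Fermat.Agent.MW.A.GenChain7
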