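/-
Programme MW (S17), block A, brick Indep2 (helper2) - pure field theory, Mathlib only.

* `exists_algebraicIndependent` : over a countable field `k`, an uncountable algebraically closed
  extension `K` contains `g` algebraically independent elements, for every `g`;
* `exists_algebraicIndependent_complex` : the case `K = ℂ`;
* `exists_algebraicIndependent_complex_subfield` : the same over a countable `Subfield ℂ`.
-/
import Mathlib

set_option autoImplicit false

noncomputable section

open Cardinal Set

namespace Fermat.Agent.MW.A.Indep2

/-- Over a countable field `k`, an uncountable algebraically closed extension `K` contains `g`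
algebraically independent elements. -/
theorem exists_algebraicIndependent {k K : Type} [Field k] [Countable k] [Field K] [Algebra k K]
    [IsAlgClosed K] (hK : ℵ₀ < #K) (g : ℕ) :
    ∃ c : Fin g → K, AlgebraicIndependent k c := by
  obtain ⟨ι, v, hv⟩ := exists_isTranscendenceBasis' k (A := K)
  have h1 : #K = #ι :=
    IsAlgClosed.cardinal_eq_cardinal_transcendence_basis_of_aleph0_lt' v hv Cardinal.mk_le_aleph0 hK
  have hι : (g : Cardinal) ≤ #ι := by
    rw [← h1]
    exact (Cardinal.natCast_lt_aleph0 (n := g)).le.trans hK.le
  have hfin : #(Fin g) ≤ #ι := by simpa using hι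
  obtain ⟨f⟩ := Cardinal.le_def _ _ |>.mp hfin
  exact ⟨v ∘ f, hv.1.comp f f.injective⟩

/-- Over a countable field `k` there are `g` algebraically independent complex numbers. -/
theorem exists_algebraicIndependent_complex {k : Type} [Field k] [Countable k] [Algebra k ℂ]
    (g : ℕ) : ∃ c : Fin g → ℂ, AlgebraicIndependent k c :=
  exists_algebraicIndependent
    (by rw [Cardinal.mk_complex]; exact Cardinal.aleph0_lt_continuum) g

/-- Subfield form. -/
theorem exists_algebraicIndependent_complex_subfield (L : Subfield ℂ) [Countable L] (g : ℕ) :
    ∃ c : Fin g → ℂ, AlgebraicIndependent L c :=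
  exists_algebraicIndependent_complex g

end Fermat.Agent.MW.A.Indep2
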