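/-
Programme MW (S17), block A (divisibility of `JZero N`), step (A1) (helper7): **the residue
homomorphism of a place and the residue embedding of a non-rational place.**

`F / K` a function field with `LHyp K F` (all places have degree one):
* `resHom H v : O_v →+* K`, the residue map, characterised by
  `resHom H v a = c ↔ a = c ∨ 0 < ord_v (a - c)` (`resHom_eq_iff_ord`);
* equivariance under semilinear automorphisms (`resHom_smul`).

Constant field extension `ι : Fk →+* FK` (`ConstExt24.IsConstExt`), `v` a place of `FK` which does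
NOT lie over a place of `Fk` ("non-rational over `k`"):
* `iota_mem` : `ι f ∈ O_v` for every `f`;
* `resEmb … v hv : Fk →+* K`, the residue embedding `f ↦ (ι f)(v)`; it is injective, is the
  inclusion `k → K` on constants, and `resEmb (g • v) = baseAut g ∘ resEmb v` for every semilinear
  automorphism `g` fixing `ι Fk` pointwise (`resEmb_smul`).
-/
import Mathlib
import Fermat.Prelude.Def_AlgebraicCurve_BaseChangeGalois
import Fermat.Agent.J.DESC.ConstExt24
import Fermat.Agent.J.DESC.FiniteOrbit22
import Fermat.Agent.J.DESC.ExtPic22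
import Fermat.Agent.RR.LHypGen

set_option autoImplicit false
set_option linter.unusedSectionVars false
set_option linter.style.longLine false
set_option linter.style.haveILetI false

namespace Fermat.Agent.MW.A.ResEmb7

open AlgebraicCurve Fermat.Agent.X0 Fermat.Agent.J.DESC.ConstExt24
open Fermat.Agent.J.DESC.FiniteOrbit22 Fermat.Agent.J.DESC.ExtPic22
open Fermat.Agent.RR.LSpace Fermat.Agent.RR.LHypGen IsLocalRing

noncomputable section

universe u v w x

/-! ### The residue homomorphism of a place of degree one -/

section Res

variable {K : Type v} {F : Type x} [Field K] [Field F] [Algebra K F] (H : LHyp K F)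
  (v : Place K F)

/-- The residue field of a place is the constant field. -/
def resEquiv : K ≃+* v.ResidueField :=
  RingEquiv.ofBijective (algebraMap K v.ResidueField)
    (Algebra.finrank_eq_one_iff_bijective_algebraMap.mp (H.deg_eq_one v))

theorem resEquiv_apply (c : K) : resEquiv H v c = algebraMap K v.ResidueField c := rfl

/-- **The residue map `O_v → K`.** -/
def resHom : v.toValuationSubring →+* K :=
  ((resEquiv H v).symm : v.ResidueField →+* K).comp (IsLocalRing.residue v.toValuationSubring)

theorem resEquiv_resHom (a : v.toValuationSubring) :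
    resEquiv H v (resHom H v a) = IsLocalRing.residue v.toValuationSubring a := by
  simp [resHom]

theorem resHom_algebraMap (c : K) : resHom H v (algebraMap K v.toValuationSubring c) = c := by
  apply (resEquiv H v).injective
  rw [resEquiv_resHom, resEquiv_apply]
  rfl

theorem resHom_eq_zero_iff (a : v.toValuationSubring) :
    resHom H v a = 0 ↔ a ∈ maximalIdeal v.toValuationSubring := by
  rw [← (resEquiv H v).map_eq_zero_iff, resEquiv_resHom, IsLocalRing.residue_eq_zero_iff]

theorem resHom_eq_iff (a : v.toValuationSubring) (c : K) :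
    resHom H v a = c ↔ a - algebraMap K v.toValuationSubring c ∈ maximalIdeal v.toValuationSubring := by
  rw [← resHom_eq_zero_iff H, map_sub, resHom_algebraMap, sub_eq_zero]

/-- Characterisation of the residue by orders. -/
theorem resHom_eq_iff_ord (a : v.toValuationSubring) (c : K) :
    resHom H v a = c ↔
      ((a : F) = algebraMap K F c ∨ 0 < v.ord ((a : F) - algebraMap K F c)) := by
  rw [resHom_eq_iff]
  by_cases h0 : a - algebraMap K v.toValuationSubring c = 0
  · have h1 : (a : F) = algebraMap K F c := by
      have := congrArg (Subtype.val : v.toValuationSubring → F) (sub_eq_zero.mp h0)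
      simpa using this
    rw [h0]
    exact ⟨fun _ => Or.inl h1, fun _ => Ideal.zero_mem _⟩
  · rw [FF.ffp_mem_maximalIdeal_iff v _ h0]
    have hcoe : ((a - algebraMap K v.toValuationSubring c : v.toValuationSubring) : F) =
        (a : F) - algebraMap K F c := by
      push_cast
      rw [v.coe_algebraMap]
    rw [hcoe]
    constructor
    · exact fun h => Or.inr h
    · rintro (h | h)
      · exfalso
        apply h0
        apply Subtype.ext
        rw [hcoe, h, sub_self]
        rfl
      · exact h

/-- The residue, for an element of `F` known to lie in `O_v`. -/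
theorem resHom_mk_eq_iff_ord {f : F} (hf : f ∈ v.toValuationSubring) (c : K) :
    resHom H v ⟨f, hf⟩ = c ↔ (f = algebraMap K F c ∨ 0 < v.ord (f - algebraMap K F c)) :=
  resHom_eq_iff_ord H v ⟨f, hf⟩ c

theorem resHom_spec (a : v.toValuationSubring) :
    (a : F) = algebraMap K F (resHom H v a) ∨ 0 < v.ord ((a : F) - algebraMap K F (resHom H v a)) :=
  (resHom_eq_iff_ord H v a _).mp rfl

/-- `resHom a ≠ 0` iff `a` is a unit, iff `ord a = 0` (for `a ≠ 0`). -/
theorem resHom_ne_zero_iff_ord {a : v.toValuationSubring} (ha : a ≠ 0) :
    resHom H v a ≠ 0 ↔ v.ord (a : F) = 0 := by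
  rw [ne_eq, resHom_eq_zero_iff, FF.ffp_mem_maximalIdeal_iff v a ha]
  have := FF.ffp_ord_nonneg_of_mem v a.2
  omega

end Res

/-! ### Equivariance of the residue map -/

section Equivariance

variable {K : Type v} {F : Type x} [Field K] [Field F] [Algebra K F] (H : LHyp K F)

/-- Membership in the valuation ring of a translated place. -/
theorem smul_mem_smul_iff (g : SemilinearAut K F) (v : Place K F) (f : F) :
    g • f ∈ (g • v).toValuationSubring ↔ f ∈ v.toValuationSubring := by
  rw [FF.ffp_mem_iff_ord_nonneg, FF.ffp_mem_iff_ord_nonneg, SemilinearAut.ord_smul]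

/-- **Equivariance of the residue map**: `(g • f)(g • v) = g (f(v))`. -/
theorem resHom_smul (g : SemilinearAut K F) (v : Place K F) {f : F}
    (hf : f ∈ v.toValuationSubring) (hgf : g • f ∈ (g • v).toValuationSubring) :
    resHom H (g • v) ⟨g • f, hgf⟩ = SemilinearAut.baseAut g (resHom H v ⟨f, hf⟩) := by
  rw [resHom_mk_eq_iff_ord]
  rcases resHom_spec H v ⟨f, hf⟩ with h | h
  · left
    have h' : f = algebraMap K F (resHom H v ⟨f, hf⟩) := h
    rw [← SemilinearAut.smul_algebraMap, ← h']
  · right
    have h' : 0 < v.ord (f - algebraMap K F (resHom H v ⟨f, hf⟩)) := h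
    rwa [ord_smul_sub_const]

end Equivariance

/-! ### The residue embedding of a non-rational place -/

section Emb

variable {k : Type u} {K : Type v} {Fk : Type w} {FK : Type x} [Field k] [Field K] [Field Fk]
  [Field FK] [Algebra k K] [Algebra k Fk] [Algebra K FK]
  [IsAlgClosed k] [CharZero k] [IsAlgClosed K] [CharZero K] {ι : Fk →+* FK}
  (hι : IsConstExt (k := k) (K := K) ι) {x : Fk} (hx : FF.IsGen k x) {X : FK} (hX : FF.IsGen K X)

/-- A place of `FK` is *non-rational over `k`* if it does not lie over a place of `Fk`. -/
def NonRat (ι : Fk →+* FK) (v : Place K FK) : Prop := ¬ ∃ w : Place k Fk, LiesOver ι v w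

include hι hx in
theorem iota_mem {v : Place K FK} (hv : NonRat (k := k) ι v) (f : Fk) :
    ι f ∈ v.toValuationSubring := by
  rcases eq_or_ne f 0 with rfl | hf
  · rw [map_zero]; exact zero_mem _
  · apply FF.ffp_mem_of_ord_nonneg
    rw [ord_eq_zero_of_not_liesOver hι hx hv hf]

/-- `ι`, with values in the valuation ring of a non-rational place. -/
def iotaO {v : Place K FK} (hv : NonRat (k := k) ι v) : Fk →+* v.toValuationSubring :=
  ι.codRestrict v.toValuationSubring.toSubring (iota_mem hι hx hv)

@[simp] theorem coe_iotaO {v : Place K FK} (hv : NonRat (k := k) ι v) (f : Fk) :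
    ((iotaO hι hx hv f : v.toValuationSubring) : FK) = ι f := rfl

/-- **The residue embedding** `Fk → K`, `f ↦ (ι f)(v)`, of a non-rational place. -/
def resEmb {v : Place K FK} (hv : NonRat (k := k) ι v) : Fk →+* K :=
  (resHom (lHyp_of_isGen hX) v).comp (iotaO hι hx hv)

theorem resEmb_apply {v : Place K FK} (hv : NonRat (k := k) ι v) (f : Fk) :
    resEmb hι hx hX hv f = resHom (lHyp_of_isGen hX) v ⟨ι f, iota_mem hι hx hv f⟩ := rfl

theorem resEmb_injective {v : Place K FK} (hv : NonRat (k := k) ι v) :
    Function.Injective (resEmb hι hx hX hv) :=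
  (resEmb hι hx hX hv).injective

/-- Characterisation: `resEmb f = c` iff `ι f - c` vanishes at `v`. -/
theorem resEmb_eq_iff {v : Place K FK} (hv : NonRat (k := k) ι v) (f : Fk) (c : K) :
    resEmb hι hx hX hv f = c ↔
      (ι f = algebraMap K FK c ∨ 0 < v.ord (ι f - algebraMap K FK c)) :=
  resHom_mk_eq_iff_ord (lHyp_of_isGen hX) v (iota_mem hι hx hv f) c

theorem resEmb_spec {v : Place K FK} (hv : NonRat (k := k) ι v) (f : Fk) :
    ι f = algebraMap K FK (resEmb hι hx hX hv f) ∨
      0 < v.ord (ι f - algebraMap K FK (resEmb hι hx hX hv f)) :=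
  (resEmb_eq_iff hι hx hX hv f _).mp rfl

/-- On constants the residue embedding is the inclusion `k → K`. -/
theorem resEmb_algebraMap {v : Place K FK} (hv : NonRat (k := k) ι v) (c : k) :
    resEmb hι hx hX hv (algebraMap k Fk c) = algebraMap k K c := by
  rw [resEmb_eq_iff]
  left
  exact hι.comm c

/-- A translate of a non-rational place by an automorphism fixing `ι Fk` is non-rational. -/
theorem nonRat_smul (g : SemilinearAut K FK) (hg : ∀ f : Fk, g • ι f = ι f) {v : Place K FK}
    (hv : NonRat (k := k) ι v) : NonRat (k := k) ι (g • v) := by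
  rintro ⟨w, hw⟩
  apply hv
  refine ⟨w, ?_⟩
  have h := liesOver_smul (ι := ι) g⁻¹ (fun f => by rw [inv_smul_eq_iff, hg]) hw
  rwa [inv_smul_smul] at h

/-- **Equivariance of the residue embedding.** -/
theorem resEmb_smul (g : SemilinearAut K FK) (hg : ∀ f : Fk, g • ι f = ι f) {v : Place K FK}
    (hv : NonRat (k := k) ι v) (f : Fk) :
    resEmb hι hx hX (nonRat_smul g hg hv) f = SemilinearAut.baseAut g (resEmb hι hx hX hv f) := by
  rw [resEmb_eq_iff]
  rcases resEmb_spec hι hx hX hv f with h | h
  · left
    rw [← SemilinearAut.smul_algebraMap, ← h, hg]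
  · right
    have h1 := ord_smul_sub_const g v (ι f) (resEmb hι hx hX hv f)
    rw [hg] at h1
    rw [h1]
    exact h

end Emb

end

end Fermat.Agent.MW.A.ResEmb7
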