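/-
Programme MW (S17), block A (divisibility of `JZero N`), step (A2) (helper7): **(U) a non-rational
place is determined by its residue embedding.**

Setting of `ResEmb7` / `J/DESC/ExtPic22`: a constant field extension `ι : Fk →+* FK` of function
fields over algebraically closed fields `k ⊆ K` of characteristic zero. Let `A = K[ι Fk] ⊆ FK`.
For a place `v` of `FK` which is non-rational over `k`, `A ⊆ O_v` and the residue map restricts to a
`K`-algebra homomorphism `rA v : A → K` extending `resEmb v`. With `t = ι x - c`, `c = resEmb v x`: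

* (DIV) every `a ∈ A` with `rA v a = 0` satisfies `s * a = t * a'` for some `s, a' ∈ A`,
  `rA v s ≠ 0`  (the local ring of `A` at `ker (rA v)` is a DVR with uniformiser `t`). Proof: the
  set of `f ∈ Fk` with `ι f - resEmb v f` divisible in this sense is a subfield containing `k(x)`
  and closed under separable algebraic elements (Taylor expansion of the minimal polynomial);
* hence `ord_w a` is proportional to the `t`-adic order for EVERY place `w` with the same residue
  embedding, so two such places have the same valuation ring: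
  `eq_of_resEmb_eq : (∀ f, resEmb v f = resEmb v' f) → v = v'`.
-/
import Mathlib
import Fermat.Agent.MW.A.ResEmb7

set_option autoImplicit false
set_option linter.unusedSectionVars false
set_option linter.style.longLine false
set_option linter.style.haveILetI false

namespace Fermat.Agent.MW.A.UniqPlace7

open AlgebraicCurve Fermat.Agent.X0 Fermat.Agent.J.DESC.ConstExt24
open Fermat.Agent.J.DESC.FiniteOrbit22 Fermat.Agent.J.DESC.ExtPic22
open Fermat.Agent.RR.LSpace Fermat.Agent.RR.LHypGen IsLocalRing Polynomial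
open Fermat.Agent.MW.A.ResEmb7

noncomputable section

universe u v w x

variable {k : Type u} {K : Type v} {Fk : Type w} {FK : Type x} [Field k] [Field K] [Field Fk]
  [Field FK] [Algebra k K] [Algebra k Fk] [Algebra K FK]
  [IsAlgClosed k] [CharZero k] [IsAlgClosed K] [CharZero K] {ι : Fk →+* FK}
  (hι : IsConstExt (k := k) (K := K) ι) {x : Fk} (hx : FF.IsGen k x) {X : FK} (hX : FF.IsGen K X)

/-! ### The `K`-algebra `A = K[ι Fk]` -/

variable (K ι) in
/-- The `K`-subalgebra of `FK` generated by `ι Fk`. -/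
def Asub : Subalgebra K FK := Algebra.adjoin K (Set.range ι)

variable (K) in
theorem iota_mem_Asub (f : Fk) : ι f ∈ Asub K ι := Algebra.subset_adjoin ⟨f, rfl⟩

variable (K ι) in
/-- `ι`, with values in `A`. -/
def iotaA : Fk →+* Asub K ι := ι.codRestrict (Asub K ι) (iota_mem_Asub K)

@[simp] theorem coe_iotaA (f : Fk) : ((iotaA K ι f : Asub K ι) : FK) = ι f := rfl

include hι in
/-- Every element of `FK` is a quotient of two elements of `A`. -/
theorem exists_div_Asub (h : FK) : ∃ a b : Asub K ι, (b : FK) ≠ 0 ∧ h = (a : FK) / (b : FK) := by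
  obtain ⟨a, ha, b, hb, hb0, hab⟩ := hι.gen h
  exact ⟨⟨a, Algebra.span_le_adjoin K _ ha⟩, ⟨b, Algebra.span_le_adjoin K _ hb⟩, hb0, hab⟩

include hι hx in
/-- `A ⊆ O_v` for a non-rational place `v`. -/
theorem Asub_le {v : Place K FK} (hv : NonRat (k := k) ι v) {a : FK} (ha : a ∈ Asub K ι) :
    a ∈ v.toValuationSubring := by
  induction ha using Algebra.adjoin_induction with
  | mem y hy =>
      obtain ⟨f, rfl⟩ := hy
      exact iota_mem hι hx hv f
  | algebraMap c => exact v.algebraMap_mem' c
  | add y z _ _ hy hz => exact add_mem hy hz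
  | mul y z _ _ hy hz => exact mul_mem hy hz

/-- The inclusion `A → O_v`. -/
def inclO {v : Place K FK} (hv : NonRat (k := k) ι v) : Asub K ι →+* v.toValuationSubring :=
  (Asub K ι).val.toRingHom.codRestrict v.toValuationSubring.toSubring
    (fun a => Asub_le hι hx hv a.2)

@[simp] theorem coe_inclO {v : Place K FK} (hv : NonRat (k := k) ι v) (a : Asub K ι) :
    ((inclO hι hx hv a : v.toValuationSubring) : FK) = (a : FK) := rfl

/-- **The residue homomorphism `A → K`** at a non-rational place. -/
def rA {v : Place K FK} (hv : NonRat (k := k) ι v) : Asub K ι →+* K :=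
  (resHom (lHyp_of_isGen hX) v).comp (inclO hι hx hv)

theorem rA_algebraMap {v : Place K FK} (hv : NonRat (k := k) ι v) (c : K) :
    rA hι hx hX hv (algebraMap K (Asub K ι) c) = c := by
  have : inclO hι hx hv (algebraMap K (Asub K ι) c) = algebraMap K v.toValuationSubring c :=
    Subtype.ext rfl
  rw [rA, RingHom.comp_apply, this, resHom_algebraMap]

theorem rA_iotaA {v : Place K FK} (hv : NonRat (k := k) ι v) (f : Fk) :
    rA hι hx hX hv (iotaA K ι f) = resEmb hι hx hX hv f := rfl

/-- Two non-rational places with the same residue embedding have the same residue map on `A`. -/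
theorem rA_eq {v v' : Place K FK} (hv : NonRat (k := k) ι v) (hv' : NonRat (k := k) ι v')
    (h : ∀ f, resEmb hι hx hX hv f = resEmb hι hx hX hv' f) (a : Asub K ι) :
    rA hι hx hX hv a = rA hι hx hX hv' a := by
  obtain ⟨a, ha⟩ := a
  induction ha using Algebra.adjoin_induction with
  | mem y hy =>
      obtain ⟨f, rfl⟩ := hy
      exact h f
  | algebraMap c =>
      have : (⟨algebraMap K FK c, (Asub K ι).algebraMap_mem c⟩ : Asub K ι) =
          algebraMap K (Asub K ι) c := rfl
      rw [this, rA_algebraMap, rA_algebraMap]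
  | add y z hy hz ihy ihz =>
      have : (⟨y + z, add_mem hy hz⟩ : Asub K ι) = ⟨y, hy⟩ + ⟨z, hz⟩ := rfl
      rw [this, map_add, map_add, ihy, ihz]
  | mul y z hy hz ihy ihz =>
      have : (⟨y * z, mul_mem hy hz⟩ : Asub K ι) = ⟨y, hy⟩ * ⟨z, hz⟩ := rfl
      rw [this, map_mul, map_mul, ihy, ihz]

include hι hx in
/-- Orders of elements of `A` are nonnegative. -/
theorem ord_nonneg {v : Place K FK} (hv : NonRat (k := k) ι v) (a : Asub K ι) :
    0 ≤ v.ord (a : FK) :=
  FF.ffp_ord_nonneg_of_mem v (Asub_le hι hx hv a.2)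

/-- `rA a ≠ 0 ↔ ord a = 0`, for `a ≠ 0`. -/
theorem rA_ne_zero_iff {v : Place K FK} (hv : NonRat (k := k) ι v) {a : Asub K ι} (ha : a ≠ 0) :
    rA hι hx hX hv a ≠ 0 ↔ v.ord (a : FK) = 0 := by
  have h0 : inclO hι hx hv a ≠ 0 := by
    intro h
    apply ha
    apply Subtype.ext
    have := congrArg (Subtype.val : v.toValuationSubring → FK) h
    simpa using this
  exact resHom_ne_zero_iff_ord (lHyp_of_isGen hX) v h0


/-! ### Divisibility by `t = ι x - c` in the local ring of `A` -/

section Div

variable {v : Place K FK} (hv : NonRat (k := k) ι v)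

/-- The uniformiser `t = ι x - c`, `c = resEmb v x`, as an element of `A`. -/
def tA : Asub K ι := iotaA K ι x - algebraMap K (Asub K ι) (resEmb hι hx hX hv x)

/-- `ι f - resEmb v f`, as an element of `A`. -/
def dl (f : Fk) : Asub K ι := iotaA K ι f - algebraMap K (Asub K ι) (resEmb hι hx hX hv f)

theorem dl_x : dl hι hx hX hv x = tA hι hx hX hv := rfl

theorem rA_dl (f : Fk) : rA hι hx hX hv (dl hι hx hX hv f) = 0 := by
  rw [dl, map_sub, rA_iotaA, rA_algebraMap, sub_self]

theorem rA_tA : rA hι hx hX hv (tA hι hx hX hv) = 0 := rA_dl hι hx hX hv x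

/-- `a` is divisible by `t` up to an element of `A` which is a unit at `v`. -/
def Dv (a : Asub K ι) : Prop :=
  ∃ s a' : Asub K ι, rA hι hx hX hv s ≠ 0 ∧ s * a = tA hι hx hX hv * a'

theorem Dv_zero : Dv hι hx hX hv 0 :=
  ⟨1, 0, by rw [map_one]; exact one_ne_zero, by ring⟩

theorem Dv_tA : Dv hι hx hX hv (tA hι hx hX hv) :=
  ⟨1, 1, by rw [map_one]; exact one_ne_zero, by ring⟩

theorem Dv_add {a b : Asub K ι} (ha : Dv hι hx hX hv a) (hb : Dv hι hx hX hv b) :
    Dv hι hx hX hv (a + b) := by
  obtain ⟨s, a', hs, ha'⟩ := ha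
  obtain ⟨u, b', hu, hb'⟩ := hb
  refine ⟨s * u, u * a' + s * b', by rw [map_mul]; exact mul_ne_zero hs hu, ?_⟩
  calc s * u * (a + b) = u * (s * a) + s * (u * b) := by ring
    _ = u * (tA hι hx hX hv * a') + s * (tA hι hx hX hv * b') := by rw [ha', hb']
    _ = tA hι hx hX hv * (u * a' + s * b') := by ring

theorem Dv_mul_left (b : Asub K ι) {a : Asub K ι} (ha : Dv hι hx hX hv a) :
    Dv hι hx hX hv (b * a) := by
  obtain ⟨s, a', hs, ha'⟩ := ha
  refine ⟨s, b * a', hs, ?_⟩
  calc s * (b * a) = b * (s * a) := by ring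
    _ = b * (tA hι hx hX hv * a') := by rw [ha']
    _ = tA hι hx hX hv * (b * a') := by ring

theorem Dv_mul_right (b : Asub K ι) {a : Asub K ι} (ha : Dv hι hx hX hv a) :
    Dv hι hx hX hv (a * b) := by
  rw [mul_comm]; exact Dv_mul_left hι hx hX hv b ha

theorem Dv_neg {a : Asub K ι} (ha : Dv hι hx hX hv a) : Dv hι hx hX hv (-a) := by
  have := Dv_mul_left hι hx hX hv (-1) ha
  rwa [neg_one_mul] at this

theorem Dv_sub {a b : Asub K ι} (ha : Dv hι hx hX hv a) (hb : Dv hι hx hX hv b) :
    Dv hι hx hX hv (a - b) := by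
  rw [sub_eq_add_neg]; exact Dv_add hι hx hX hv ha (Dv_neg hι hx hX hv hb)

/-- Saturation: a factor which is a unit at `v` can be cancelled. -/
theorem Dv_of_mul {u a : Asub K ι} (hu : rA hι hx hX hv u ≠ 0) (h : Dv hι hx hX hv (u * a)) :
    Dv hι hx hX hv a := by
  obtain ⟨s, a', hs, ha'⟩ := h
  refine ⟨s * u, a', by rw [map_mul]; exact mul_ne_zero hs hu, ?_⟩
  rw [mul_assoc, ha']

/-! #### The set of `f` with `ι f - resEmb f` divisible is a subfield -/

theorem dl_add (f g : Fk) :
    dl hι hx hX hv (f + g) = dl hι hx hX hv f + dl hι hx hX hv g := by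
  simp only [dl, map_add]; ring

theorem dl_neg (f : Fk) : dl hι hx hX hv (-f) = -dl hι hx hX hv f := by
  simp only [dl, map_neg]; ring

theorem dl_mul (f g : Fk) :
    dl hι hx hX hv (f * g) = iotaA K ι f * dl hι hx hX hv g +
      algebraMap K (Asub K ι) (resEmb hι hx hX hv g) * dl hι hx hX hv f := by
  simp only [dl, map_mul]; ring

theorem dl_algebraMap (c : k) : dl hι hx hX hv (algebraMap k Fk c) = 0 := by
  rw [dl, resEmb_algebraMap, sub_eq_zero]
  apply Subtype.ext
  rw [coe_iotaA, hι.comm]
  rfl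

theorem dl_inv {f : Fk} (hf : f ≠ 0) :
    dl hι hx hX hv f⁻¹ = -(iotaA K ι f⁻¹ *
      algebraMap K (Asub K ι) (resEmb hι hx hX hv f)⁻¹) * dl hι hx hX hv f := by
  have h1 : iotaA K ι f⁻¹ * iotaA K ι f = 1 := by
    rw [← map_mul, inv_mul_cancel₀ hf, map_one]
  have hφ : resEmb hι hx hX hv f ≠ 0 := (_root_.map_ne_zero _).mpr hf
  have h2 : algebraMap K (Asub K ι) (resEmb hι hx hX hv f)⁻¹ *
      algebraMap K (Asub K ι) (resEmb hι hx hX hv f) = 1 := by
    rw [← map_mul, inv_mul_cancel₀ hφ, map_one]
  simp only [dl, map_inv₀]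
  have h3 : iotaA K ι f⁻¹ = iotaA K ι f⁻¹ * (algebraMap K (Asub K ι) (resEmb hι hx hX hv f)⁻¹ *
      algebraMap K (Asub K ι) (resEmb hι hx hX hv f)) := by rw [h2, mul_one]
  have h4 : algebraMap K (Asub K ι) (resEmb hι hx hX hv f)⁻¹ =
      (iotaA K ι f⁻¹ * iotaA K ι f) * algebraMap K (Asub K ι) (resEmb hι hx hX hv f)⁻¹ := by
    rw [h1, one_mul]
  calc iotaA K ι f⁻¹ - algebraMap K (Asub K ι) (resEmb hι hx hX hv f)⁻¹
      = iotaA K ι f⁻¹ * (algebraMap K (Asub K ι) (resEmb hι hx hX hv f)⁻¹ *
          algebraMap K (Asub K ι) (resEmb hι hx hX hv f)) -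
        (iotaA K ι f⁻¹ * iotaA K ι f) * algebraMap K (Asub K ι) (resEmb hι hx hX hv f)⁻¹ := by
        rw [← h3, ← h4]
    _ = -(iotaA K ι f⁻¹ * algebraMap K (Asub K ι) (resEmb hι hx hX hv f)⁻¹) *
          (iotaA K ι f - algebraMap K (Asub K ι) (resEmb hι hx hX hv f)) := by ring

/-- The subfield of `Fk` of the `f` such that `ι f - resEmb f` is divisible by `t`. -/
def SI : IntermediateField k Fk where
  carrier := {f | Dv hι hx hX hv (dl hι hx hX hv f)}
  mul_mem' {f g} hf hg := by
    show Dv hι hx hX hv (dl hι hx hX hv (f * g))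
    rw [dl_mul]
    exact Dv_add hι hx hX hv (Dv_mul_left hι hx hX hv _ hg) (Dv_mul_left hι hx hX hv _ hf)
  one_mem' := by
    show Dv hι hx hX hv (dl hι hx hX hv 1)
    have := dl_algebraMap hι hx hX hv 1
    rw [map_one] at this
    rw [this]
    exact Dv_zero hι hx hX hv
  add_mem' {f g} hf hg := by
    show Dv hι hx hX hv (dl hι hx hX hv (f + g))
    rw [dl_add]
    exact Dv_add hι hx hX hv hf hg
  zero_mem' := by
    show Dv hι hx hX hv (dl hι hx hX hv 0)
    have := dl_algebraMap hι hx hX hv 0
    rw [map_zero] at this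
    rw [this]
    exact Dv_zero hι hx hX hv
  algebraMap_mem' c := by
    show Dv hι hx hX hv (dl hι hx hX hv (algebraMap k Fk c))
    rw [dl_algebraMap]
    exact Dv_zero hι hx hX hv
  inv_mem' f hf := by
    show Dv hι hx hX hv (dl hι hx hX hv f⁻¹)
    rcases eq_or_ne f 0 with rfl | hf0
    · rw [inv_zero]
      have := dl_algebraMap hι hx hX hv 0
      rw [map_zero] at this
      rw [this]
      exact Dv_zero hι hx hX hv
    · rw [dl_inv hι hx hX hv hf0]
      exact Dv_mul_left hι hx hX hv _ hf

theorem mem_SI {f : Fk} : f ∈ SI hι hx hX hv ↔ Dv hι hx hX hv (dl hι hx hX hv f) := Iff.rfl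

theorem adjoin_x_le_SI : IntermediateField.adjoin k {x} ≤ SI hι hx hX hv := by
  rw [IntermediateField.adjoin_simple_le_iff, mem_SI, dl_x]
  exact Dv_tA hι hx hX hv

/-! #### Separable algebraic elements -/

/-- The two embeddings of `k(x)` into `A`. -/
def alphaH : IntermediateField.adjoin k {x} →+* Asub K ι :=
  (iotaA K ι).comp (algebraMap (IntermediateField.adjoin k {x}) Fk)

/-- `r ↦ resEmb r`, as a constant of `A`. -/
def betaH : IntermediateField.adjoin k {x} →+* Asub K ι :=
  (algebraMap K (Asub K ι)).comp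
    ((resEmb hι hx hX hv).comp (algebraMap (IntermediateField.adjoin k {x}) Fk))

theorem Dv_alpha_sub_beta (r : IntermediateField.adjoin k {x}) :
    Dv hι hx hX hv (alphaH (K := K) (ι := ι) (x := x) r - betaH hι hx hX hv r) :=
  adjoin_x_le_SI hι hx hX hv r.2

theorem Dv_eval_map_sub (q : (IntermediateField.adjoin k {x})[X]) (b : Asub K ι) :
    Dv hι hx hX hv ((q.map (alphaH (K := K) (ι := ι) (x := x))).eval b -
      (q.map (betaH hι hx hX hv)).eval b) := by
  induction q using Polynomial.induction_on' with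
  | add q₁ q₂ h₁ h₂ =>
      have : ((q₁ + q₂).map (alphaH (K := K) (ι := ι) (x := x))).eval b -
          ((q₁ + q₂).map (betaH hι hx hX hv)).eval b =
          ((q₁.map (alphaH (K := K) (ι := ι) (x := x))).eval b -
            (q₁.map (betaH hι hx hX hv)).eval b) +
          ((q₂.map (alphaH (K := K) (ι := ι) (x := x))).eval b -
            (q₂.map (betaH hι hx hX hv)).eval b) := by
        simp only [Polynomial.map_add, eval_add]; ring
      rw [this]
      exact Dv_add hι hx hX hv h₁ h₂
  | monomial n r =>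
      have : ((monomial n r).map (alphaH (K := K) (ι := ι) (x := x))).eval b -
          ((monomial n r).map (betaH hι hx hX hv)).eval b =
          (alphaH (K := K) (ι := ι) (x := x) r - betaH hι hx hX hv r) * b ^ n := by
        simp only [map_monomial, eval_monomial]; ring
      rw [this]
      exact Dv_mul_right hι hx hX hv _ (Dv_alpha_sub_beta hι hx hX hv r)

include hx in
/-- **Every `f ∈ Fk` has `ι f - resEmb f` divisible by `t`.** -/
theorem Dv_dl (f : Fk) : Dv hι hx hX hv (dl hι hx hX hv f) := by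
  haveI : FiniteDimensional (IntermediateField.adjoin k {x}) Fk := hx.finite
  haveI : CharZero Fk := charZero_of_injective_algebraMap (algebraMap k Fk).injective
  have hint : IsIntegral (IntermediateField.adjoin k {x}) f := IsIntegral.of_finite _ f
  set p := minpoly (IntermediateField.adjoin k {x}) f with hp
  have hpf : aeval f p = 0 := minpoly.aeval _ f
  have hsep : p.Separable := (minpoly.irreducible hint).separable
  have hder : aeval f (derivative p) ≠ 0 := hsep.aeval_derivative_ne_zero hpf
  set b : Asub K ι := algebraMap K (Asub K ι) (resEmb hι hx hX hv f) with hb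
  set d : Asub K ι := dl hι hx hX hv f with hd
  have hbd : b + d = iotaA K ι f := by rw [hb, hd, dl]; ring
  set q : (Asub K ι)[X] := p.map (alphaH (K := K) (ι := ι) (x := x)) with hq
  -- `q (ι f) = 0`
  have hq0 : q.eval (b + d) = 0 := by
    rw [hbd, hq, eval_map, alphaH, ← Polynomial.hom_eval₂, ← aeval_def, hpf, map_zero]
  -- `(p.map β) b = 0`
  have hβ0 : (p.map (betaH hι hx hX hv)).eval b = 0 := by
    rw [eval_map, betaH, hb, ← Polynomial.hom_eval₂, ← Polynomial.hom_eval₂, ← aeval_def, hpf,
      map_zero, map_zero]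
  have hDq : Dv hι hx hX hv (q.eval b) := by
    have := Dv_eval_map_sub hι hx hX hv p b
    rwa [hβ0, sub_zero] at this
  -- Taylor expansion
  obtain ⟨kk, hkk⟩ := Polynomial.binomExpansion q b d
  rw [hq0] at hkk
  set u : Asub K ι := (derivative q).eval b + kk * d with hu
  have hud : u * d = -q.eval b := by
    rw [hu]
    linear_combination -hkk
  have hru : rA hι hx hX hv u ≠ 0 := by
    rw [hu, map_add, map_mul, hd, rA_dl, mul_zero, add_zero, hq, derivative_map, eval_map,
      Polynomial.hom_eval₂]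
    have h1 : (rA hι hx hX hv).comp (alphaH (K := K) (ι := ι) (x := x)) =
        (resEmb hι hx hX hv).comp (algebraMap (IntermediateField.adjoin k {x}) Fk) := by
      ext r
      rfl
    rw [h1, hb, rA_algebraMap, ← Polynomial.hom_eval₂, ← aeval_def]
    exact (_root_.map_ne_zero _).mpr hder
  apply Dv_of_mul hι hx hX hv hru
  rw [hud]
  exact Dv_neg hι hx hX hv hDq

include hx in
/-- **(DIV)**: every element of `A` vanishing at `v` is divisible by `t` up to a unit at `v`. -/
theorem Dv_sub_const (a : Asub K ι) :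
    Dv hι hx hX hv (a - algebraMap K (Asub K ι) (rA hι hx hX hv a)) := by
  obtain ⟨a, ha⟩ := a
  induction ha using Algebra.adjoin_induction with
  | mem y hy =>
      obtain ⟨f, rfl⟩ := hy
      exact Dv_dl hι hx hX hv f
  | algebraMap c =>
      have : (⟨algebraMap K FK c, (Asub K ι).algebraMap_mem c⟩ : Asub K ι) =
          algebraMap K (Asub K ι) c := rfl
      rw [this, rA_algebraMap, sub_self]
      exact Dv_zero hι hx hX hv
  | add y z hy hz ihy ihz =>
      have : (⟨y + z, add_mem hy hz⟩ : Asub K ι) = ⟨y, hy⟩ + ⟨z, hz⟩ := rfl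
      rw [this, map_add, map_add]
      have h2 : (⟨y, hy⟩ : Asub K ι) + ⟨z, hz⟩ -
          (algebraMap K (Asub K ι) (rA hι hx hX hv ⟨y, hy⟩) +
            algebraMap K (Asub K ι) (rA hι hx hX hv ⟨z, hz⟩)) =
          ((⟨y, hy⟩ : Asub K ι) - algebraMap K (Asub K ι) (rA hι hx hX hv ⟨y, hy⟩)) +
          ((⟨z, hz⟩ : Asub K ι) - algebraMap K (Asub K ι) (rA hι hx hX hv ⟨z, hz⟩)) := by ring
      rw [h2]
      exact Dv_add hι hx hX hv ihy ihz
  | mul y z hy hz ihy ihz =>
      have : (⟨y * z, mul_mem hy hz⟩ : Asub K ι) = ⟨y, hy⟩ * ⟨z, hz⟩ := rfl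
      rw [this, map_mul, map_mul]
      have h2 : (⟨y, hy⟩ : Asub K ι) * ⟨z, hz⟩ -
          (algebraMap K (Asub K ι) (rA hι hx hX hv ⟨y, hy⟩) *
            algebraMap K (Asub K ι) (rA hι hx hX hv ⟨z, hz⟩)) =
          (⟨y, hy⟩ : Asub K ι) *
            ((⟨z, hz⟩ : Asub K ι) - algebraMap K (Asub K ι) (rA hι hx hX hv ⟨z, hz⟩)) +
          algebraMap K (Asub K ι) (rA hι hx hX hv ⟨z, hz⟩) *
            ((⟨y, hy⟩ : Asub K ι) - algebraMap K (Asub K ι) (rA hι hx hX hv ⟨y, hy⟩)) := by ring
      rw [h2]
      exact Dv_add hι hx hX hv (Dv_mul_left hι hx hX hv _ ihz) (Dv_mul_left hι hx hX hv _ ihy)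

include hx in
theorem Dv_of_rA_eq_zero {a : Asub K ι} (ha : rA hι hx hX hv a = 0) : Dv hι hx hX hv a := by
  have := Dv_sub_const hι hx hX hv a
  rwa [ha, map_zero, sub_zero] at this

end Div

/-! ### Proportionality of orders and the uniqueness theorem -/

section Uniq

variable {v v' : Place K FK} (hv : NonRat (k := k) ι v) (hv' : NonRat (k := k) ι v')

theorem coe_ne_zero {a : Asub K ι} (ha : a ≠ 0) : (a : FK) ≠ 0 := fun h =>
  ha (Subtype.ext h)

include hX in
theorem tA_ne_zero (hxX : ι x = X) : tA hι hx hX hv ≠ 0 := by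
  intro h
  have h1 := congrArg (Subtype.val : Asub K ι → FK) h
  have h2 : ι x = algebraMap K FK (resEmb hι hx hX hv x) := by
    have : ι x - algebraMap K FK (resEmb hι hx hX hv x) = 0 := h1
    exact sub_eq_zero.mp this
  apply hX.transcendental
  rw [← hxX, h2]
  exact isAlgebraic_algebraMap _

include hX in
/-- `t` has positive order at `v`. -/
theorem ord_tA_pos (hxX : ι x = X) : 0 < v.ord ((tA hι hx hX hv : Asub K ι) : FK) := by
  have h0 := tA_ne_zero hι hx hX hv hxX
  have h1 := (rA_ne_zero_iff hι hx hX hv h0).not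
  rw [not_not] at h1
  have h2 := h1.mp (rA_tA hι hx hX hv)
  have h3 := ord_nonneg hι hx hv (tA hι hx hX hv)
  omega

/-- The uniformisers of two places with the same residue embedding coincide. -/
theorem tA_congr (h : ∀ f, resEmb hι hx hX hv f = resEmb hι hx hX hv' f) :
    tA hι hx hX hv = tA hι hx hX hv' := by
  rw [tA, tA, h x]

include hx hX in
/-- **Proportionality of orders** on `A` for two places with the same residue embedding. -/
theorem ord_proportional (hxX : ι x = X)
    (h : ∀ f, resEmb hι hx hX hv f = resEmb hι hx hX hv' f) :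
    ∀ (n : ℕ) (a : Asub K ι), a ≠ 0 → v.ord (a : FK) = n →
      v'.ord ((tA hι hx hX hv : Asub K ι) : FK) * v.ord (a : FK) =
        v.ord ((tA hι hx hX hv : Asub K ι) : FK) * v'.ord (a : FK) := by
  have hr := rA_eq hι hx hX hv hv' h
  have he := ord_tA_pos hι hx hX hv hxX
  have he' : 0 < v'.ord ((tA hι hx hX hv : Asub K ι) : FK) := by
    rw [tA_congr hι hx hX hv hv' h]
    exact ord_tA_pos hι hx hX hv' hxX
  have ht0 := coe_ne_zero (tA_ne_zero hι hx hX hv hxX)
  intro n
  induction n using Nat.strong_induction_on with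
  | _ n ih =>
    intro a ha hn
    by_cases hra : rA hι hx hX hv a = 0
    · obtain ⟨s, a', hs, hsa⟩ := Dv_of_rA_eq_zero hι hx hX hv hra
      have hs0 : s ≠ 0 := by
        rintro rfl
        exact hs (map_zero _)
      have ha'0 : a' ≠ 0 := by
        rintro rfl
        rw [mul_zero] at hsa
        rcases mul_eq_zero.mp hsa with h0 | h0
        · exact hs0 h0
        · exact ha h0
      have hcoe : (s : FK) * (a : FK) = ((tA hι hx hX hv : Asub K ι) : FK) * (a' : FK) := by
        have := congrArg (Subtype.val : Asub K ι → FK) hsa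
        simpa using this
      have hsv : v.ord (s : FK) = 0 := (rA_ne_zero_iff hι hx hX hv hs0).mp hs
      have hsv' : v'.ord (s : FK) = 0 :=
        (rA_ne_zero_iff hι hx hX hv' hs0).mp (by rw [← hr]; exact hs)
      have h1 : v.ord (a : FK) =
          v.ord ((tA hι hx hX hv : Asub K ι) : FK) + v.ord (a' : FK) := by
        have := congrArg v.ord hcoe
        rw [v.ord_mul (coe_ne_zero hs0) (coe_ne_zero ha), v.ord_mul ht0 (coe_ne_zero ha'0),
          hsv, zero_add] at this
        exact this
      have h2 : v'.ord (a : FK) =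
          v'.ord ((tA hι hx hX hv : Asub K ι) : FK) + v'.ord (a' : FK) := by
        have := congrArg v'.ord hcoe
        rw [v'.ord_mul (coe_ne_zero hs0) (coe_ne_zero ha), v'.ord_mul ht0 (coe_ne_zero ha'0),
          hsv', zero_add] at this
        exact this
      have h3 := ord_nonneg hι hx hv a'
      have hlt : (v.ord (a' : FK)).toNat < n := by
        have : v.ord (a' : FK) < n := by rw [← hn, h1]; omega
        omega
      have h4 := ih _ hlt a' ha'0 (Int.toNat_of_nonneg h3).symm
      rw [h1, h2]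
      linear_combination h4
    · have h1 : v.ord (a : FK) = 0 := (rA_ne_zero_iff hι hx hX hv ha).mp hra
      have h2 : v'.ord (a : FK) = 0 :=
        (rA_ne_zero_iff hι hx hX hv' ha).mp (by rw [← hr]; exact hra)
      rw [h1, h2, mul_zero, mul_zero]

include hι hx hX in
/-- **(U)**: a place of `FK` which is non-rational over `k` is determined by its residue
embedding `Fk → K`. -/
theorem eq_of_resEmb_eq (hxX : ι x = X)
    (h : ∀ f, resEmb hι hx hX hv f = resEmb hι hx hX hv' f) : v = v' := by
  have he := ord_tA_pos hι hx hX hv hxX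
  have he' : 0 < v'.ord ((tA hι hx hX hv : Asub K ι) : FK) := by
    rw [tA_congr hι hx hX hv hv' h]
    exact ord_tA_pos hι hx hX hv' hxX
  have key : ∀ y : FK, y ≠ 0 →
      v'.ord ((tA hι hx hX hv : Asub K ι) : FK) * v.ord y =
        v.ord ((tA hι hx hX hv : Asub K ι) : FK) * v'.ord y := by
    intro y hy
    obtain ⟨a, b, hb0, rfl⟩ := exists_div_Asub hι y
    have ha0 : (a : FK) ≠ 0 := by
      intro h0
      rw [h0, zero_div] at hy
      exact hy rfl
    have ha : a ≠ 0 := by rintro rfl; exact ha0 rfl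
    have hb : b ≠ 0 := by rintro rfl; exact hb0 rfl
    have h1 := ord_proportional hι hx hX hv hv' hxX h _ a ha
      (Int.toNat_of_nonneg (ord_nonneg hι hx hv a)).symm
    have h2 := ord_proportional hι hx hX hv hv' hxX h _ b hb
      (Int.toNat_of_nonneg (ord_nonneg hι hx hv b)).symm
    rw [div_eq_mul_inv, v.ord_mul ha0 (inv_ne_zero hb0), v'.ord_mul ha0 (inv_ne_zero hb0),
      v.ord_inv, v'.ord_inv]
    linear_combination h1 - h2
  apply Place.ext
  ext y
  rcases eq_or_ne y 0 with rfl | hy
  · exact ⟨fun _ => zero_mem _, fun _ => zero_mem _⟩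
  rw [FF.ffp_mem_iff_ord_nonneg, FF.ffp_mem_iff_ord_nonneg]
  have hk := key y hy
  constructor
  · intro h0
    have h1 : 0 ≤ v.ord ((tA hι hx hX hv : Asub K ι) : FK) * v'.ord y := by
      rw [← hk]; exact mul_nonneg he'.le h0
    exact nonneg_of_mul_nonneg_right h1 he
  · intro h0
    have h1 : 0 ≤ v'.ord ((tA hι hx hX hv : Asub K ι) : FK) * v.ord y := by
      rw [hk]; exact mul_nonneg he.le h0
    exact nonneg_of_mul_nonneg_right h1 he'

end Uniq

end

end Fermat.Agent.MW.A.UniqPlace7
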