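/-
Programme MW (S17), block A (divisibility of `JZero N`), step (A3) (helper7): **(T) transitivity of
`Aut(K/k)` on the places of `FK` which are non-rational over `k`.**

Setting of `ResEmb7` / `UniqPlace7`, plus the semilinear action `ρ : Aut(K/k) → SemilinearAut K FK`
of `J/DESC` and the hypothesis
  (HEXT) any two `k`-embeddings `Fk → K` are conjugate under `Aut(K/k)`
(true for `K = ℂ` and `Fk` countable: `AutExt2.exists_algEquiv_comp_eq`).

* `resEmbAlg … hv : Fk →ₐ[k] K` — the residue embedding as a `k`-algebra homomorphism;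
* `exists_smul_eq` : for non-rational places `v, v'` there is `τ ∈ Aut(K/k)` with `ρ τ • v = v'`.
-/
import Mathlib
import Fermat.Agent.MW.A.UniqPlace7

set_option autoImplicit false
set_option linter.unusedSectionVars false
set_option linter.style.longLine false
set_option linter.style.haveILetI false

namespace Fermat.Agent.MW.A.Trans7

open AlgebraicCurve Fermat.Agent.X0 Fermat.Agent.J.DESC.ConstExt24
open Fermat.Agent.J.DESC.FiniteOrbit22 Fermat.Agent.J.DESC.ExtPic22
open Fermat.Agent.RR.LSpace Fermat.Agent.RR.LHypGen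
open Fermat.Agent.MW.A.ResEmb7 Fermat.Agent.MW.A.UniqPlace7

noncomputable section

universe u v w x

variable {k : Type u} {K : Type v} {Fk : Type w} {FK : Type x} [Field k] [Field K] [Field Fk]
  [Field FK] [Algebra k K] [Algebra k Fk] [Algebra K FK]
  [IsAlgClosed k] [CharZero k] [IsAlgClosed K] [CharZero K] {ι : Fk →+* FK}
  (hι : IsConstExt (k := k) (K := K) ι) {x : Fk} (hx : FF.IsGen k x) {X : FK} (hX : FF.IsGen K X)

/-- The residue embedding of a non-rational place, as a `k`-algebra homomorphism. -/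
def resEmbAlg {v : Place K FK} (hv : NonRat (k := k) ι v) : Fk →ₐ[k] K :=
  { resEmb hι hx hX hv with
    commutes' := fun c => resEmb_algebraMap hι hx hX hv c }

@[simp] theorem resEmbAlg_apply {v : Place K FK} (hv : NonRat (k := k) ι v) (f : Fk) :
    resEmbAlg hι hx hX hv f = resEmb hι hx hX hv f := rfl

variable (ρ : (K ≃ₐ[k] K) →* SemilinearAut K FK)

include hι hx hX in
/-- **(T)**: `Aut(K/k)` acts transitively on the places of `FK` which are non-rational over `k`. -/
theorem exists_smul_eq (hxX : ι x = X)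
    (hbase : ∀ (σ : K ≃ₐ[k] K) (c : K), SemilinearAut.baseAut (ρ σ) c = σ c)
    (hfix : ∀ (σ : K ≃ₐ[k] K) (f : Fk), ρ σ • ι f = ι f)
    (hext : ∀ φ φ' : Fk →ₐ[k] K, ∃ τ : K ≃ₐ[k] K, ∀ f, τ (φ f) = φ' f)
    {v v' : Place K FK} (hv : NonRat (k := k) ι v) (hv' : NonRat (k := k) ι v') :
    ∃ τ : K ≃ₐ[k] K, ρ τ • v = v' := by
  obtain ⟨τ, hτ⟩ := hext (resEmbAlg hι hx hX hv) (resEmbAlg hι hx hX hv')
  refine ⟨τ, ?_⟩
  have hw : NonRat (k := k) ι (ρ τ • v) := nonRat_smul (ρ τ) (hfix τ) hv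
  apply eq_of_resEmb_eq hι hx hX hw hv' hxX
  intro f
  have h1 : resEmb hι hx hX hw f = SemilinearAut.baseAut (ρ τ) (resEmb hι hx hX hv f) :=
    resEmb_smul hι hx hX (ρ τ) (hfix τ) hv f
  rw [h1, hbase]
  exact hτ f

/-- A non-rational place stays non-rational under `Aut(K/k)`. -/
theorem nonRat_rho_smul (hfix : ∀ (σ : K ≃ₐ[k] K) (f : Fk), ρ σ • ι f = ι f) (σ : K ≃ₐ[k] K)
    {v : Place K FK} (hv : NonRat (k := k) ι v) : NonRat (k := k) ι (ρ σ • v) :=
  nonRat_smul (ρ σ) (hfix σ) hv

end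

end Fermat.Agent.MW.A.Trans7
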