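/-
Programme MW (S17), block A (divisibility of `JZero N`), step (A4) (helper2):
**existence and conjugacy of generic chains.**

* `nonRat_iff`            : `ResEmb7.NonRat (bcL L N) v ↔ v ∉ Set.range (extPlaceL L N)`;
* `exists_rhoL_smul_eq`   : **(T)_L** for `L = cl S`, `S` countable: `Aut(ℂ/L)` is transitive on the places
                            of `F_ℂ` which are not rational over `L`;
* `exists_isGenChain`     : generic chains of every length exist;
* `exists_conj`           : **(C)** any two generic chains of the same length are conjugate under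
                            `Aut(ℂ/ℚbar)`.
-/
import Mathlib
import Fermat.Agent.MW.A.Tower2
import Fermat.Agent.MW.A.AutExt2
import Fermat.Agent.MW.A.Indep2
import Fermat.Agent.MW.A.CountableFF2
import Fermat.Agent.MW.A.Trans7
import Fermat.Agent.MW.A.GenChain7

set_option autoImplicit false
set_option linter.unusedSectionVars false
set_option linter.style.longLine false
set_option linter.style.haveILetI false

namespace Fermat.Agent.MW.A.Chain2

open ModularCurve HahnSeries AlgebraicCurve Fermat.Agent.X0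
open Fermat.Agent.J.DESC.ConstExt24 Fermat.Agent.J.DESC.LaurentExt24
open Fermat.Agent.J.DESC.DescentC24 Fermat.Agent.J.DESC.ExtPic22
open Fermat.Agent.J.DESC.DescentFinal24 Fermat.Agent.J.DESC.FiniteOrbit22
open Fermat.Agent.ES.KUM.FieldL25
open Fermat.Agent.RR.LSpace Fermat.Agent.RR.LHypGen
open Fermat.Agent.MW.A.Tower2 Fermat.Agent.MW.A.GenChain7 Fermat.Agent.MW.A.ResEmb7

noncomputable section

attribute [local instance] instAlgebraQbarComplex instTowerQbarComplex

/-! ### Non-rational places -/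

section NonRat

variable (L : Type) [Field L] [Algebra ℚ L] [Algebra L ℂ] [IsAlgClosed L] [CharZero L]
  (N : ℕ) [NeZero N]

/-- `NonRat` of `ResEmb7` means: not in the range of `extPlaceL`. -/
theorem nonRat_iff (v : Place ℂ (FCx N)) :
    NonRat (k := L) (bcL L N) v ↔ v ∉ Set.range (extPlaceL L N) := by
  unfold NonRat
  refine not_congr ⟨?_, ?_⟩
  · rintro ⟨w, hw⟩
    exact ⟨w, (eq_extPlace_of_liesOver (isConstExt_bcL L N) (isGen_jL L N) (isGen_jL ℂ N) hw).symm⟩
  · rintro ⟨w, rfl⟩
    exact ⟨w, extPlace_liesOver (isConstExt_bcL L N) (isGen_jL ℂ N) w⟩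

/-- **(T)_L**, abstract countable `L`. -/
theorem exists_rhoL_smul_eq_of_countable [Countable L] {v v' : Place ℂ (FCx N)}
    (hv : v ∉ Set.range (extPlaceL L N)) (hv' : v' ∉ Set.range (extPlaceL L N)) :
    ∃ τ : ℂ ≃ₐ[L] ℂ, rhoL L N τ • v = v' := by
  haveI : Countable (FL L N) := CountableFF2.countable_modularFunctionFieldL L N
  exact Trans7.exists_smul_eq (isConstExt_bcL L N) (isGen_jL L N) (isGen_jL ℂ N) (rhoL L N)
    (bcL_jL L N) (baseAut_rhoL L N) (rhoL_smul_bcL L N)
    (fun φ φ' => AutExt2.exists_algEquiv_comp_eq φ φ')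
    ((nonRat_iff L N v).mpr hv) ((nonRat_iff L N v').mpr hv')

end NonRat

variable (N : ℕ) [NeZero N]

/-- **(T)_L** for `L = cl S`, `S` countable. -/
theorem exists_rhoL_smul_eq {S : Set ℂ} (hS : S.Countable) {v v' : Place ℂ (FCx N)}
    (hv : v ∉ Set.range (extPlaceL ↥(cl S) N)) (hv' : v' ∉ Set.range (extPlaceL ↥(cl S) N)) :
    ∃ τ : ℂ ≃ₐ[↥(cl S)] ℂ, rhoL ↥(cl S) N τ • v = v' := by
  haveI : Countable ↥(cl S) := countable_cl hS
  exact exists_rhoL_smul_eq_of_countable ↥(cl S) N hv hv'

/-! ### Existence -/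

/-- Every complex number is the `j`-value of some place of `F_ℂ`. -/
theorem exists_zero_jL_sub (c : ℂ) :
    ∃ v : Place ℂ (FCx N), 0 < v.ord (jL ℂ N - algebraMap ℂ (FCx N) c) := by
  by_contra hno
  push Not at hno
  have hf0 : jL ℂ N - algebraMap ℂ (FCx N) c ≠ 0 := Tower2.jL_sub_ne_zero ℂ N c
  have hall : ∀ v : Place ℂ (FCx N), 0 ≤ v.ord (jL ℂ N - algebraMap ℂ (FCx N) c)⁻¹ := by
    intro v
    rw [v.ord_inv]
    have := hno v
    omega
  obtain ⟨d, hd⟩ := eq_algebraMap_of_forall_ord_nonneg (lHyp_of_isGen (isGen_jL ℂ N)) hall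
  apply (isGen_jL ℂ N).transcendental
  have hd0 : d ≠ 0 := by
    rintro rfl
    rw [map_zero] at hd
    exact inv_ne_zero hf0 hd
  have : jL ℂ N = algebraMap ℂ (FCx N) (d⁻¹ + c) := by
    rw [map_add, map_inv₀, ← hd, inv_inv, sub_add_cancel]
  rw [this]
  exact isAlgebraic_algebraMap _

/-- **Generic chains of every length exist.** -/
theorem exists_isGenChain (g : ℕ) :
    ∃ (R : Fin g → Place ℂ (FCx N)) (c : Fin g → ℂ), IsGenChain N R c := by
  obtain ⟨c, hc⟩ := Indep2.exists_algebraicIndependent_complex (k := Qb) g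
  choose R hR using fun i => exists_zero_jL_sub N (c i)
  exact ⟨R, c, ⟨hR, hc⟩⟩

/-! ### Conjugacy -/

/-- Partial conjugacy: the first `n` places can be matched. -/
theorem exists_conj_lt {g : ℕ} {R R' : Fin g → Place ℂ (FCx N)} {c c' : Fin g → ℂ}
    (h : IsGenChain N R c) (h' : IsGenChain N R' c') (n : ℕ) (hn : n ≤ g) :
    ∃ τ : ℂ ≃ₐ[Qb] ℂ, ∀ i : Fin g, (i : ℕ) < n → rhoC N τ • R i = R' i := by
  induction n with
  | zero => exact ⟨1, fun i hi => absurd hi (Nat.not_lt_zero _)⟩
  | succ n ih =>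
      obtain ⟨τ₁, hτ₁⟩ := ih (Nat.le_of_succ_le hn)
      -- the transported chain
      have h₁ : IsGenChain N (fun i => rhoC N τ₁ • R i) (fun i => τ₁ (c i)) := h.smul τ₁
      set T : Set (Fin g) := {i | (i : ℕ) < n} with hT
      let i₀ : Fin g := ⟨n, hn⟩
      have hi₀ : i₀ ∉ T := by
        show ¬ ((i₀ : ℕ) < n)
        exact lt_irrefl n
      -- residues agree on `T`
      have hres : ∀ i ∈ T, τ₁ (c i) = c' i := by
        intro i hi
        have h2 := h₁.res i
        simp only [hτ₁ i hi] at h2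
        exact h'.res_unique h2
      have himg : (fun i => τ₁ (c i)) '' T = c' '' T := Set.image_congr hres
      have hS : (c' '' T).Countable := (Set.to_countable T).image c'
      have hv : rhoC N τ₁ • R i₀ ∉ Set.range (extPlaceL ↥(cl (c' '' T)) N) := by
        have := h₁.notMem_range hi₀
        rwa [himg] at this
      have hv' : R' i₀ ∉ Set.range (extPlaceL ↥(cl (c' '' T)) N) := h'.notMem_range hi₀
      obtain ⟨τ₂, hτ₂⟩ := exists_rhoL_smul_eq N hS hv hv'
      refine ⟨τ₂.restrictScalars Qb * τ₁, fun i hi => ?_⟩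
      rw [map_mul, mul_smul, ← rhoL_eq]
      rcases Nat.lt_succ_iff_lt_or_eq.mp hi with hlt | heq
      · rw [hτ₁ i hlt]
        apply rhoL_smul_eq_of_mem_range
        exact mem_range_extPlace_cl_of_residue (c' '' T) N (R' i)
          (subset_cl _ ⟨i, hlt, rfl⟩) (h'.res i)
      · have hi' : i = i₀ := Fin.ext heq
        rw [hi']
        exact hτ₂

/-- **(C) Conjugacy of generic chains.** -/
theorem exists_conj {g : ℕ} {R R' : Fin g → Place ℂ (FCx N)} {c c' : Fin g → ℂ}
    (h : IsGenChain N R c) (h' : IsGenChain N R' c') :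
    ∃ τ : ℂ ≃ₐ[Qb] ℂ, ∀ i, rhoC N τ • R i = R' i := by
  obtain ⟨τ, hτ⟩ := exists_conj_lt N h h' g le_rfl
  exact ⟨τ, fun i => hτ i i.2⟩

end

end Fermat.Agent.MW.A.Chain2
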