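/-
Programme MW (S17), block A (divisibility of `JZero N`), brick (A5), part 2 (helper5):
**a chain of `g` places none of which is a base point of the preceding canonical system is
non-special**, pure Riemann–Roch.

`F / K` a function field with a generator (`IsGen K x`), `K` algebraically closed of characteristic
`0`, `W = div ω₀` a canonical divisor, `g = genus K F`, `R : ℕ → Place K F`,
`chainDiv R i = R 0 + ⋯ + R (i-1)`.

Hypothesis `hstep` (discharged in the application by `SectionDescent5.finrank_L_sub_single_add_one`,
with `D` a model of `W - chainDiv R i` over an algebraically closed subfield over which `R i` is not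
rational):  for `i < g`, if `L(W - chainDiv R i) ≠ 0` then
`dim L(W - chainDiv R i - R i) + 1 = dim L(W - chainDiv R i)`.

* `finrank_L_canonical_sub_chainDiv` : `dim L(W - chainDiv R i) = g - i` for `i ≤ g`;
* `finrank_L_chainDiv_eq_one` : `dim L(chainDiv R g) = 1`  (the chain divisor is non-special);
* `L_chainDiv_sub_single_eq_bot` : `L(chainDiv R g - P₀) = 0` for a place `P₀` outside the chain;
* `minPole_chainDiv`, `normalForm_chainDiv` : `chainDiv R g` is the normal form (w.r.t. `P₀`) of the
  class of `chainDiv R g - g • P₀`, with `minPole = g`.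
-/
import Mathlib
import Fermat.Agent.RR.RRMain
import Fermat.Agent.J.DESC.NormalFormInj10

set_option autoImplicit false
set_option linter.unusedSectionVars false
set_option linter.style.longLine false

open AlgebraicCurve KaehlerDifferential

namespace Fermat.Agent.MW.A.NonSpecial5

open Fermat.Agent.X0.FF Fermat.Agent.RR.LSpace Fermat.Agent.RR.LHypGen
  Fermat.Agent.J.DESC.NormalForm10 Fermat.Agent.J.DESC.NormalFormInj10

noncomputable section

variable {K F : Type*} [Field K] [Field F] [Algebra K F]

/-- The chain divisor `R 0 + ⋯ + R (i-1)`. -/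
def chainDiv (R : ℕ → Place K F) (i : ℕ) : Divisor K F :=
  ∑ j ∈ Finset.range i, Finsupp.single (R j) 1

@[simp] theorem chainDiv_zero (R : ℕ → Place K F) : chainDiv R 0 = 0 := by
  simp [chainDiv]

theorem chainDiv_succ (R : ℕ → Place K F) (i : ℕ) :
    chainDiv R (i + 1) = chainDiv R i + Finsupp.single (R i) 1 := by
  rw [chainDiv, Finset.sum_range_succ, ← chainDiv]

theorem chainDiv_nonneg (R : ℕ → Place K F) (i : ℕ) : 0 ≤ chainDiv R i := by
  induction i with
  | zero => rw [chainDiv_zero]
  | succ i ih =>
    rw [chainDiv_succ]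
    intro v
    have h1 := ih v
    simp only [Finsupp.coe_zero, Pi.zero_apply] at h1
    rw [Finsupp.add_apply]
    by_cases hv : v = R i
    · subst hv
      rw [Finsupp.single_eq_same]
      simp only [Finsupp.coe_zero, Pi.zero_apply]
      omega
    · rw [Finsupp.single_eq_of_ne hv]
      simp only [Finsupp.coe_zero, Pi.zero_apply]
      omega

theorem degree_chainDiv (H : LHyp K F) (R : ℕ → Place K F) (i : ℕ) :
    Divisor.degree (chainDiv R i) = i := by
  induction i with
  | zero => simp
  | succ i ih =>
    rw [chainDiv_succ, map_add, ih, degree_single H]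
    push_cast
    ring

theorem chainDiv_apply_of_forall_ne (R : ℕ → Place K F) (i : ℕ) {v : Place K F}
    (hv : ∀ j < i, R j ≠ v) : chainDiv R i v = 0 := by
  induction i with
  | zero => simp
  | succ i ih =>
    rw [chainDiv_succ, Finsupp.add_apply, ih fun j hj => hv j (Nat.lt_succ_of_lt hj),
      Finsupp.single_eq_of_ne (hv i (Nat.lt_succ_self i)).symm, add_zero]

variable [IsAlgClosed K] [CharZero K] {x : F} [HasCanonicalDivisor (K := K) (F := F)]

section Chain

variable (hx : IsGen K x) {ω₀ : Ω[F⁄K]} (hω₀ : ω₀ ≠ 0) {W : Divisor K F}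
  (hW : ∀ v : Place K F, W v = v.ordDifferential ω₀) (R : ℕ → Place K F)

include hx hω₀ hW in
/-- `dim L(W - (R 0 + ⋯ + R (i-1))) = g - i` along a chain without base points. -/
theorem finrank_L_canonical_sub_chainDiv
    (hstep : ∀ i < genus K F, riemannRochSpace (W - chainDiv R i) ≠ ⊥ →
      Module.finrank K (riemannRochSpace (W - chainDiv R i - Finsupp.single (R i) 1)) + 1 =
        Module.finrank K (riemannRochSpace (W - chainDiv R i)))
    (i : ℕ) (hi : i ≤ genus K F) :
    Module.finrank K (riemannRochSpace (W - chainDiv R i)) = genus K F - i := by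
  induction i with
  | zero =>
    rw [chainDiv_zero, sub_zero, Nat.sub_zero]
    exact Fermat.Agent.RR.RRMain.finrank_L_canonical hx hω₀ hW
  | succ i ih =>
    have hi' : i < genus K F := hi
    have h1 := ih hi'.le
    have hne : riemannRochSpace (W - chainDiv R i) ≠ ⊥ := by
      intro hbot
      rw [hbot, finrank_bot] at h1
      omega
    have h2 := hstep i hi' hne
    have h3 : W - chainDiv R (i + 1) = W - chainDiv R i - Finsupp.single (R i) 1 := by
      rw [chainDiv_succ]; abel
    rw [h3]
    omega

include hx hω₀ hW in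
/-- **(A5)** A chain of `g` places without base points is non-special: `dim L(R 0 + ⋯ + R (g-1)) = 1`. -/
theorem finrank_L_chainDiv_eq_one
    (hstep : ∀ i < genus K F, riemannRochSpace (W - chainDiv R i) ≠ ⊥ →
      Module.finrank K (riemannRochSpace (W - chainDiv R i - Finsupp.single (R i) 1)) + 1 =
        Module.finrank K (riemannRochSpace (W - chainDiv R i))) :
    Module.finrank K (riemannRochSpace (chainDiv R (genus K F))) = 1 := by
  have H : LHyp K F := lHyp_of_isGen hx
  have h1 := finrank_L_canonical_sub_chainDiv hx hω₀ hW R hstep (genus K F) le_rfl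
  have h2 := Fermat.Agent.RR.RRMain.riemann_roch_genus hx hω₀ hW (chainDiv R (genus K F))
  rw [h1, degree_chainDiv H, Nat.sub_self] at h2
  have h3 : (Module.finrank K (riemannRochSpace (chainDiv R (genus K F))) : ℤ) = 1 := by
    push_cast at h2
    linarith
  exact_mod_cast h3

end Chain

/-! ### The chain divisor is a normal form -/

section NormalForm

variable (H : LHyp K F) (R : ℕ → Place K F) (n : ℕ)

include H in
/-- If `dim L(E) = 1` for the effective divisor `E = chainDiv R n` and `P₀` is not in the chain, then
`L(E - P₀) = 0`. -/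
theorem L_chainDiv_sub_single_eq_bot
    (h1 : Module.finrank K (riemannRochSpace (chainDiv R n)) = 1)
    (P₀ : Place K F) (hP₀ : ∀ j < n, R j ≠ P₀) :
    riemannRochSpace (chainDiv R n - Finsupp.single P₀ 1) = ⊥ := by
  rw [Submodule.eq_bot_iff]
  intro f hf
  by_contra hf0
  have hle : riemannRochSpace (chainDiv R n - Finsupp.single P₀ 1) ≤
      riemannRochSpace (chainDiv R n) := by
    apply L_mono
    intro v
    rw [Finsupp.sub_apply]
    by_cases hv : v = P₀
    · subst hv
      rw [Finsupp.single_eq_same]
      omega
    · rw [Finsupp.single_eq_of_ne hv, sub_zero]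
  -- `1 ∈ L(E)`
  have hone : (1 : F) ∈ riemannRochSpace (chainDiv R n) := by
    rw [mem_L_iff one_ne_zero]
    intro v
    have h2 := chainDiv_nonneg R n v
    simp only [Finsupp.coe_zero, Pi.zero_apply] at h2
    rw [Place.ord_one]
    omega
  have hone' : (⟨1, hone⟩ : riemannRochSpace (chainDiv R n)) ≠ 0 :=
    fun h => one_ne_zero (congrArg Subtype.val h)
  obtain ⟨c, hc⟩ := (finrank_eq_one_iff_of_nonzero' _ hone').mp h1 ⟨f, hle hf⟩
  have hfc : f = algebraMap K F c := by
    have := congrArg Subtype.val hc
    simp only [Submodule.coe_smul] at this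
    rw [← this, Algebra.smul_def, mul_one]
  have hc0 : c ≠ 0 := by
    rintro rfl
    rw [map_zero] at hfc
    exact hf0 hfc
  rw [mem_L_iff hf0] at hf
  have h3 := hf P₀
  rw [Finsupp.sub_apply, Finsupp.single_eq_same, chainDiv_apply_of_forall_ne R n hP₀, hfc,
    ord_algebraMap] at h3
  omega

variable (hR : RiemannHyp K F)

include H in
/-- The degree-zero divisor `chainDiv R n - n • P₀`. -/
theorem degree_chainDiv_sub (P₀ : Place K F) :
    Divisor.degree (chainDiv R n - Finsupp.single P₀ (n : ℤ)) = 0 := by
  rw [map_sub, degree_chainDiv H, degree_single H, sub_self]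

include H in
/-- **`chainDiv R n` is the normal form of its class** (and `minPole = n`), as soon as
`dim L(chainDiv R n) = 1` and `P₀` is not in the chain. -/
theorem minPole_normalForm_chainDiv
    (h1 : Module.finrank K (riemannRochSpace (chainDiv R n)) = 1)
    (P₀ : Place K F) (hP₀ : ∀ j < n, R j ≠ P₀) :
    minPole H hR P₀ (chainDiv R n - Finsupp.single P₀ (n : ℤ)) = n ∧
      normalForm H hR P₀ (chainDiv R n - Finsupp.single P₀ (n : ℤ)) = chainDiv R n := by
  set D : Divisor K F := chainDiv R n - Finsupp.single P₀ (n : ℤ) with hD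
  have hdeg : Divisor.degree D = 0 := degree_chainDiv_sub H R n P₀
  have hbot := L_chainDiv_sub_single_eq_bot H R n h1 P₀ hP₀
  -- `n ≤ minPole D`
  have hm : n ≤ minPole H hR P₀ D := by
    by_contra hlt
    rw [not_le] at hlt
    have hne := L_minPole_ne_bot H hR P₀ D
    apply hne
    rw [Submodule.eq_bot_iff]
    intro f hf
    have hle : riemannRochSpace (shift P₀ D (minPole H hR P₀ D)) ≤
        riemannRochSpace (chainDiv R n - Finsupp.single P₀ 1) := by
      apply L_mono
      intro v
      rw [shift, Finsupp.add_apply, Finsupp.sub_apply, Finsupp.sub_apply]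
      by_cases hv : v = P₀
      · rw [hv, Finsupp.single_eq_same, Finsupp.single_eq_same, Finsupp.single_eq_same]
        have : ((minPole H hR P₀ D : ℕ) : ℤ) + 1 ≤ n := by exact_mod_cast hlt
        omega
      · rw [Finsupp.single_eq_of_ne hv, Finsupp.single_eq_of_ne hv, Finsupp.single_eq_of_ne hv]
        omega
    have := hle hf
    rwa [hbot, Submodule.mem_bot] at this
  have hcl : chainDiv R n - Finsupp.single P₀ (n : ℤ) - D ∈
      Divisor.principal (K := K) (F := F) := by
    rw [hD, sub_self]
    exact zero_mem _
  obtain ⟨h2, h3⟩ := eq_normalForm_of_nonneg H hR P₀ hdeg (chainDiv_nonneg R n) hm hcl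
  exact ⟨h2.symm, h3.symm⟩

end NormalForm

end

end Fermat.Agent.MW.A.NonSpecial5
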