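/-
Programme MW (S17), block A (divisibility of `JZero N`), brick (A5), part 1 (helper5):
**descent of sections along a constant field extension, and non-rational places are never base
points of a rational linear system.**

Setting of `J/DESC/ConstExt24` + `J/DESC/ExtPic22`: `k ⊆ K` algebraically closed of characteristic
`0`, function fields `Fk / k`, `FK / K`, `ι : Fk →+* FK` with `IsConstExt ι`; a group `G` acting
semilinearly on `FK / K` through `ρ`, fixing `ι Fk` pointwise (`hfix`) and with invariants exactly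
`ι Fk` (`hinv`; for `G = Aut(K/k)` this is `J/DESC/DescentC24.mem_range_bc_of_fixed`).

* `exists_mem_L_of_ext_ne_bot` : for a divisor `D` of `Fk`, if `L(extDiv D) ≠ 0` over `K` then
  already `L(D) ≠ 0` over `k`.  (A nonzero section of maximal order at a rational place, normalised
  by its leading coefficient there, is `G`-invariant.)
* `exists_ι_mem_L_ext` : the same with the conclusion `ι f ∈ L(extDiv D)`, `f ≠ 0`.
* `ι_mem_L_extDiv` : `f ∈ L(D) → ι f ∈ L(extDiv D)`.
* `finrank_L_sub_single_add_one` : **the step of (A5)**: if `R` is a place of `FK` which is not the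
  extension of a place of `Fk` and `L(extDiv D) ≠ 0`, then
  `dim L(extDiv D - R) + 1 = dim L(extDiv D)`, i.e. `R` is not a base point of `|extDiv D|`.
-/
import Mathlib
import Fermat.Agent.J.DESC.ExtPic22

set_option autoImplicit false
set_option linter.unusedSectionVars false
set_option linter.style.longLine false

namespace Fermat.Agent.MW.A.SectionDescent5

open AlgebraicCurve Fermat.Agent.X0 Fermat.Agent.J.DESC.ConstExt24
  Fermat.Agent.J.DESC.FiniteOrbit22 Fermat.Agent.J.DESC.NormalForm10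
  Fermat.Agent.J.DESC.ExtPic22
open Fermat.Agent.RR.LSpace Fermat.Agent.RR.LHypGen
open scoped Pointwise

noncomputable section

universe u v w x y

variable {k : Type u} {K : Type v} {Fk : Type w} {FK : Type x} [Field k] [Field K] [Field Fk]
  [Field FK] [Algebra k K] [Algebra k Fk] [Algebra K FK]
  [IsAlgClosed k] [CharZero k] [IsAlgClosed K] [CharZero K] {ι : Fk →+* FK}
  (hι : IsConstExt (k := k) (K := K) ι) {x : Fk} (hx : FF.IsGen k x) {X : FK} (hX : FF.IsGen K X)

/-! ### "positive order or zero" -/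

/-- `y` lies in the maximal ideal of `v`. -/
def Pos (v : Place K FK) (y : FK) : Prop := y = 0 ∨ 0 < v.ord y

theorem Pos.sub {v : Place K FK} {y z : FK} (hy : Pos v y) (hz : Pos v z) : Pos v (y - z) := by
  by_cases h0 : y - z = 0
  · exact Or.inl h0
  right
  rcases hy with rfl | hy
  · rw [zero_sub, FF.ord_neg]
    rcases hz with rfl | hz
    · exact absurd (by simp) h0
    · exact hz
  rcases hz with rfl | hz
  · rwa [sub_zero]
  have h1 := FF.ord_sub_ge v (f := y) (g := z) h0
  have h2 : 0 < min (v.ord y) (v.ord z) := lt_min hy hz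
  omega

theorem Pos.smul {v : Place K FK} {y : FK} (g : SemilinearAut K FK) (hg : g • v = v)
    (hy : Pos v y) : Pos v (g • y) := by
  rcases hy with rfl | hy
  · left; rw [smul_zero]
  right
  have h := SemilinearAut.ord_smul g v y
  rw [hg] at h
  rwa [h]

/-! ### `ι` maps `L(D)` into `L(extDiv D)` -/

include hx in
theorem ι_mem_L_extDiv {D : Divisor k Fk} {f : Fk} (hf : f ∈ riemannRochSpace D) :
    ι f ∈ riemannRochSpace (extDiv hι hX D) := by
  rw [mem_riemannRochSpace_iff] at hf ⊢
  intro v'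
  by_cases hf0 : f = 0
  · left; rw [hf0, map_zero]
  right
  by_cases hv' : v' ∈ Set.range (extPlace ι hι hX)
  · obtain ⟨w, rfl⟩ := hv'
    rw [extDiv_apply_extPlace, ord_extPlace hι hx hX]
    exact (hf w).resolve_left hf0
  · rw [extDiv_apply_of_notMem_range hι hX D hv']
    have h1 : ¬ ∃ w : Place k Fk, LiesOver ι v' w := by
      rintro ⟨w, hw⟩
      exact hv' ⟨w, (eq_extPlace_of_liesOver hι hx hX hw).symm⟩
    rw [ord_eq_zero_of_not_liesOver hι hx h1 hf0]
    simp

include hx in
theorem mem_L_of_ι_mem_L_extDiv {D : Divisor k Fk} {f : Fk}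
    (hf : ι f ∈ riemannRochSpace (extDiv hι hX D)) : f ∈ riemannRochSpace D := by
  rw [mem_riemannRochSpace_iff] at hf ⊢
  intro w
  by_cases hf0 : f = 0
  · exact Or.inl hf0
  right
  have h1 := (hf (extPlace ι hι hX w)).resolve_left ((map_ne_zero ι).mpr hf0)
  rwa [extDiv_apply_extPlace, ord_extPlace hι hx hX] at h1

/-! ### Descent of sections -/

section Descent

variable {G : Type y} [Group G] (ρ : G →* SemilinearAut K FK)

include hι hx hX in
/-- **Descent of sections**: a nonzero section of `extDiv D` over `K` produces a nonzero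
`G`-invariant one, i.e. one of the form `ι f`. -/
theorem exists_ι_mem_L_ext
    (hfix : ∀ (g : G) (f : Fk), ρ g • ι f = ι f)
    (hinv : ∀ h : FK, (∀ g : G, ρ g • h = h) → h ∈ Set.range ι)
    (D : Divisor k Fk) (hne : riemannRochSpace (extDiv hι hX D) ≠ ⊥) :
    ∃ f : Fk, f ≠ 0 ∧ ι f ∈ riemannRochSpace (extDiv hι hX D) := by
  classical
  have Hk : LHyp k Fk := lHyp_of_isGen hx
  have HK : LHyp K FK := lHyp_of_isGen hX
  obtain ⟨w₀⟩ := Hk.nonempty
  obtain ⟨π, hπ⟩ := FF.ffp_exists_irreducible w₀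
  have hπ0 : (π : Fk) ≠ 0 := coe_irreducible_ne_zero hπ
  set t : FK := ι (π : Fk) with ht
  have ht0 : t ≠ 0 := (map_ne_zero ι).mpr hπ0
  set v₀ : Place K FK := extPlace ι hι hX w₀ with hv₀
  have hordt : v₀.ord t = 1 := by
    rw [ht, hv₀, ord_extPlace hι hx hX, w₀.ord_coe_irreducible hπ]
  have hv₀fix : ∀ g : G, ρ g • v₀ = v₀ := fun g => smul_extPlace hι hx hX (ρ g) (hfix g) w₀
  set E : Divisor K FK := extDiv hι hX D with hE
  have hEfix : ∀ g : G, ρ g • E = E := fun g => smul_extDiv hι hx hX (ρ g) (hfix g) D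
  -- orders at `v₀` of nonzero sections are bounded above
  have hbd : ∀ h : FK, h ∈ riemannRochSpace E → h ≠ 0 →
      v₀.ord h ≤ Divisor.degree E - E v₀ := by
    intro h hmem h0
    by_contra hlt
    rw [not_le] at hlt
    set E' : Divisor K FK := E - Finsupp.single v₀ (v₀.ord h + E v₀) with hE'
    have hdeg : Divisor.degree E' < 0 := by
      rw [hE', map_sub, degree_single HK]
      omega
    have hbot := L_eq_bot_of_degree_neg HK hdeg
    have hmem' : h ∈ riemannRochSpace E' := by
      rw [mem_L_iff h0] at hmem ⊢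
      intro v
      by_cases hv : v = v₀
      · subst hv
        rw [hE', Finsupp.sub_apply, Finsupp.single_eq_same]
        omega
      · rw [hE', Finsupp.sub_apply, Finsupp.single_eq_of_ne hv, sub_zero]
        exact hmem v
    rw [hbot, Submodule.mem_bot] at hmem'
    exact h0 hmem'
  -- a section of maximal order
  obtain ⟨h₀, hh₀mem, hh₀0⟩ := (Submodule.ne_bot_iff _).mp hne
  obtain ⟨m, ⟨h, hmem, hh0, hm⟩, hmax⟩ :=
    Int.exists_greatest_of_bdd
      (P := fun m : ℤ => ∃ h : FK, h ∈ riemannRochSpace E ∧ h ≠ 0 ∧ v₀.ord h = m)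
      ⟨Divisor.degree E - E v₀, fun z ⟨h, hmem, h0, hz⟩ => hz ▸ hbd h hmem h0⟩
      ⟨v₀.ord h₀, h₀, hh₀mem, hh₀0, rfl⟩
  -- normalisation of the leading coefficient at `v₀`
  have htm0 : t ^ (-m) ≠ 0 := zpow_ne_zero _ ht0
  set u : FK := h * t ^ (-m) with hu
  have hu0 : u ≠ 0 := mul_ne_zero hh0 htm0
  have hordu : v₀.ord u = 0 := by
    rw [hu, v₀.ord_mul hh0 htm0, v₀.ord_zpow, hordt, hm]
    ring
  obtain ⟨c, hc⟩ := HK.residue v₀ u (FF.ffp_mem_of_ord_nonneg v₀ hordu.ge)
  have hc0 : c ≠ 0 := by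
    rintro rfl
    rw [map_zero, sub_zero] at hc
    rcases hc with hc | hc
    · exact hu0 hc
    · rw [hordu] at hc
      exact lt_irrefl _ hc
  have hac0 : algebraMap K FK c⁻¹ ≠ 0 := (map_ne_zero (algebraMap K FK)).mpr (inv_ne_zero hc0)
  obtain ⟨h₁, hh₁⟩ : ∃ h₁ : FK, h₁ = algebraMap K FK c⁻¹ * h := ⟨_, rfl⟩
  have hh₁0 : h₁ ≠ 0 := by rw [hh₁]; exact mul_ne_zero hac0 hh0
  have hh₁mem : h₁ ∈ riemannRochSpace E := by
    rw [hh₁, ← Algebra.smul_def]
    exact Submodule.smul_mem _ _ hmem
  obtain ⟨u₁, hu₁⟩ : ∃ u₁ : FK, u₁ = h₁ * t ^ (-m) := ⟨_, rfl⟩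
  have hpos1 : Pos v₀ (u₁ - 1) := by
    have h1 : u₁ - 1 = algebraMap K FK c⁻¹ * (u - algebraMap K FK c) := by
      rw [hu₁, hh₁, hu, mul_sub, ← map_mul, inv_mul_cancel₀ hc0, map_one]
      ring
    rcases hc with hc | hc
    · left
      rw [h1, hc, sub_self, mul_zero]
    · right
      have h2 : u - algebraMap K FK c ≠ 0 := by
        intro h0
        rw [h0] at hc
        simp at hc
      rw [h1, v₀.ord_mul hac0 h2, FF.ord_algebraMap, zero_add]
      exact hc
  -- `h₁` is invariant
  have hinvar : ∀ g : G, ρ g • h₁ = h₁ := by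
    intro g
    by_contra hne'
    obtain ⟨d, hd⟩ : ∃ d : FK, d = ρ g • h₁ - h₁ := ⟨_, rfl⟩
    have hd0 : d ≠ 0 := by rw [hd]; exact sub_ne_zero.mpr hne'
    have hgmem : ρ g • h₁ ∈ riemannRochSpace E := by
      have := (smul_mem_L_iff (ρ g) E h₁).mpr hh₁mem
      rwa [hEfix g] at this
    have hdmem : d ∈ riemannRochSpace E := by rw [hd]; exact Submodule.sub_mem _ hgmem hh₁mem
    have hle : v₀.ord d ≤ m := hmax _ ⟨d, hdmem, hd0, rfl⟩
    have hgt : ρ g • t ^ (-m) = t ^ (-m) := by
      rw [SemilinearAut.smul_def, map_zpow₀, ← SemilinearAut.smul_def, ht, hfix g]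
    have h3 : ρ g • u₁ = ρ g • h₁ * t ^ (-m) := by rw [hu₁, smul_mul', hgt]
    have hdt : d * t ^ (-m) = ρ g • (u₁ - 1) - (u₁ - 1) := by
      rw [smul_sub, smul_one, h3, hd, hu₁]
      ring
    have hposd : Pos v₀ (d * t ^ (-m)) := by
      rw [hdt]
      exact (hpos1.smul (ρ g) (hv₀fix g)).sub hpos1
    rcases hposd with h0 | hpos
    · exact mul_ne_zero hd0 htm0 h0
    · rw [v₀.ord_mul hd0 htm0, v₀.ord_zpow, hordt] at hpos
      omega
  obtain ⟨f, hf⟩ := hinv h₁ hinvar
  refine ⟨f, ?_, ?_⟩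
  · rintro rfl
    rw [map_zero] at hf
    exact hh₁0 hf.symm
  · rw [hf]
    exact hh₁mem

include hι hx hX in
/-- **Descent of sections**, second form: `L(extDiv D) ≠ 0` over `K` implies `L(D) ≠ 0` over `k`. -/
theorem exists_mem_L_of_ext_ne_bot
    (hfix : ∀ (g : G) (f : Fk), ρ g • ι f = ι f)
    (hinv : ∀ h : FK, (∀ g : G, ρ g • h = h) → h ∈ Set.range ι)
    (D : Divisor k Fk) (hne : riemannRochSpace (extDiv hι hX D) ≠ ⊥) :
    ∃ f : Fk, f ≠ 0 ∧ f ∈ riemannRochSpace D := by
  obtain ⟨f, hf0, hf⟩ := exists_ι_mem_L_ext hι hx hX ρ hfix hinv D hne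
  exact ⟨f, hf0, mem_L_of_ι_mem_L_extDiv hι hx hX hf⟩

include hι hx hX in
/-- **Step of (A5)**: a place `R` of `FK` that is not the extension of a place of `Fk` is not a base
point of the linear system of an extended divisor: `dim L(extDiv D - R) + 1 = dim L(extDiv D)` as
soon as `L(extDiv D) ≠ 0`. -/
theorem finrank_L_sub_single_add_one
    (hfix : ∀ (g : G) (f : Fk), ρ g • ι f = ι f)
    (hinv : ∀ h : FK, (∀ g : G, ρ g • h = h) → h ∈ Set.range ι)
    (D : Divisor k Fk) (hne : riemannRochSpace (extDiv hι hX D) ≠ ⊥)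
    (R : Place K FK) (hR : R ∉ Set.range (extPlace ι hι hX)) :
    Module.finrank K (riemannRochSpace (extDiv hι hX D - Finsupp.single R 1)) + 1 =
      Module.finrank K (riemannRochSpace (extDiv hι hX D)) := by
  classical
  have HK : LHyp K FK := lHyp_of_isGen hX
  set E : Divisor K FK := extDiv hι hX D with hE
  obtain ⟨f, hf0, hf⟩ := exists_ι_mem_L_ext hι hx hX ρ hfix hinv D hne
  have hιf0 : ι f ≠ 0 := (map_ne_zero ι).mpr hf0
  have hfd : FiniteDimensional K (riemannRochSpace E) := finiteDimensional_L HK E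
  -- `ι f` has order `0` at `R`
  have hordR : R.ord (ι f) = 0 := by
    have h1 : ¬ ∃ w : Place k Fk, LiesOver ι R w := by
      rintro ⟨w, hw⟩
      exact hR ⟨w, (eq_extPlace_of_liesOver hι hx hX hw).symm⟩
    exact ord_eq_zero_of_not_liesOver hι hx h1 hf0
  have hER : E R = 0 := extDiv_apply_of_notMem_range hι hX D hR
  -- so it is not a section of `E - R`
  have hnot : ι f ∉ riemannRochSpace (E - Finsupp.single R 1) := by
    intro hmem
    rw [mem_L_iff hιf0] at hmem
    have h1 := hmem R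
    rw [Finsupp.sub_apply, Finsupp.single_eq_same, hER, hordR] at h1
    omega
  have hle : riemannRochSpace (E - Finsupp.single R 1) ≤ riemannRochSpace E := by
    apply L_mono
    intro v
    rw [Finsupp.sub_apply]
    by_cases hv : v = R
    · subst hv
      rw [Finsupp.single_eq_same]
      omega
    · rw [Finsupp.single_eq_of_ne hv, sub_zero]
  have hlt : riemannRochSpace (E - Finsupp.single R 1) < riemannRochSpace E :=
    lt_of_le_of_ne hle fun heq => hnot (heq ▸ hf)
  have h1 : Module.finrank K (riemannRochSpace (E - Finsupp.single R 1)) <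
      Module.finrank K (riemannRochSpace E) := Submodule.finrank_lt_finrank_of_lt hlt
  have : FiniteDimensional K (riemannRochSpace (E - Finsupp.single R 1)) :=
    finiteDimensional_L HK _
  have h2 := (finrank_L_add_single_le HK (E - Finsupp.single R 1) R).2
  rw [sub_add_cancel] at h2
  omega

end Descent

end

end Fermat.Agent.MW.A.SectionDescent5
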