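/-
Programme MW (S17), block A (divisibility of `JZero N`), glue for (A5) (helper2):
**non-rational places are unramified over the generator, and `F_ℂ` has canonical divisors.**

Generic part (setting of `UniqPlace7`: `k ⊆ K` algebraically closed of characteristic `0`,
`ι : Fk → FK` a constant field extension, `v` a place of `FK` non-rational over `k`):
* `tA_dvd_ord`        : the order at `v` of every element of `A = K[ι Fk]` is a multiple of `ord_v t`,
                        `t = ι x - c`, `c = resEmb v x`;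
* `ord_tA_eq_one`     : `ord_v t = 1` (`t` is a uniformiser at `v`);
* `ord_sub_eq_one_of_nonRat` : if `0 < ord_v (X - c)` then `ord_v (X - c) = 1`.

Concrete part (`K = ℂ`, `FK = FCx N`, generator `j`):
* `unramifiedC`       : `j` is unramified over every `c ∉ {0, 1728}`;
* `hasCanonicalDivisorCx` : `HasCanonicalDivisor (K := ℂ) (F := FCx N)`;
* `diffHypCx`         : `RR.Duality.DiffHyp ℂ (FCx N)`.
-/
import Mathlib
import Fermat.Agent.MW.A.Tower2
import Fermat.Agent.MW.A.UniqPlace7
import Fermat.Agent.X0.HasCanDivInst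
import Fermat.Agent.RED.BASE.JInKt25

set_option autoImplicit false
set_option linter.unusedSectionVars false
set_option linter.style.longLine false
set_option linter.style.haveILetI false

namespace Fermat.Agent.MW.A.Unram2

open AlgebraicCurve Fermat.Agent.X0 Fermat.Agent.J.DESC.ConstExt24
open Fermat.Agent.J.DESC.FiniteOrbit22 Fermat.Agent.J.DESC.ExtPic22
open Fermat.Agent.RR.LSpace Fermat.Agent.RR.LHypGen
open Fermat.Agent.MW.A.ResEmb7 Fermat.Agent.MW.A.UniqPlace7

noncomputable section

/-! ### Generic part -/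

section Generic

universe u v w x

variable {k : Type u} {K : Type v} {Fk : Type w} {FK : Type x} [Field k] [Field K] [Field Fk]
  [Field FK] [Algebra k K] [Algebra k Fk] [Algebra K FK]
  [IsAlgClosed k] [CharZero k] [IsAlgClosed K] [CharZero K] {ι : Fk →+* FK}
  (hι : IsConstExt (k := k) (K := K) ι) {x : Fk} (hx : FF.IsGen k x) {X : FK} (hX : FF.IsGen K X)
  {v : Place K FK} (hv : NonRat (k := k) ι v)

include hx hX in
/-- The order at `v` of every nonzero element of `A` is a multiple of `ord_v t`. -/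
theorem tA_dvd_ord (hxX : ι x = X) :
    ∀ (n : ℕ) (a : Asub K ι), a ≠ 0 → v.ord (a : FK) = n →
      v.ord ((tA hι hx hX hv : Asub K ι) : FK) ∣ v.ord (a : FK) := by
  have ht0 := coe_ne_zero (tA_ne_zero hι hx hX hv hxX)
  intro n
  induction n using Nat.strong_induction_on with
  | _ n ih =>
    intro a ha hn
    by_cases hra : rA hι hx hX hv a = 0
    · obtain ⟨s, a', hs, hsa⟩ := Dv_of_rA_eq_zero hι hx hX hv hra
      have hs0 : s ≠ 0 := by
        rintro rfl
        exact hs (map_zero _)
      have ha'0 : a' ≠ 0 := by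
        rintro rfl
        rw [mul_zero] at hsa
        rcases mul_eq_zero.mp hsa with h0 | h0
        · exact hs0 h0
        · exact ha h0
      have hcoe : (s : FK) * (a : FK) = ((tA hι hx hX hv : Asub K ι) : FK) * (a' : FK) := by
        have := congrArg (Subtype.val : Asub K ι → FK) hsa
        simpa using this
      have hsv : v.ord (s : FK) = 0 := (rA_ne_zero_iff hι hx hX hv hs0).mp hs
      have h1 : v.ord (a : FK) =
          v.ord ((tA hι hx hX hv : Asub K ι) : FK) + v.ord (a' : FK) := by
        have := congrArg v.ord hcoe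
        rw [v.ord_mul (coe_ne_zero hs0) (coe_ne_zero ha), v.ord_mul ht0 (coe_ne_zero ha'0),
          hsv, zero_add] at this
        exact this
      have he := ord_tA_pos hι hx hX hv hxX
      have h3 := ord_nonneg hι hx hv a'
      have hlt : (v.ord (a' : FK)).toNat < n := by
        have : v.ord (a' : FK) < n := by rw [← hn, h1]; omega
        omega
      have h4 := ih _ hlt a' ha'0 (Int.toNat_of_nonneg h3).symm
      rw [h1]
      exact dvd_add (dvd_refl _) h4
    · have h1 : v.ord (a : FK) = 0 := (rA_ne_zero_iff hι hx hX hv ha).mp hra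
      rw [h1]
      exact dvd_zero _

include hι hx hX in
/-- **`t = ι x - c` is a uniformiser at a non-rational place.** -/
theorem ord_tA_eq_one (hxX : ι x = X) : v.ord ((tA hι hx hX hv : Asub K ι) : FK) = 1 := by
  have he := ord_tA_pos hι hx hX hv hxX
  obtain ⟨π, hπ⟩ := FF.ffp_exists_irreducible v
  have hπ1 : v.ord ((π : v.toValuationSubring) : FK) = 1 := v.ord_coe_irreducible hπ
  have hπ0 : ((π : v.toValuationSubring) : FK) ≠ 0 := by
    simpa [ne_eq, ZeroMemClass.coe_eq_zero] using hπ.ne_zero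
  obtain ⟨a, b, hb0, hab⟩ := exists_div_Asub hι ((π : v.toValuationSubring) : FK)
  have ha0 : (a : FK) ≠ 0 := by
    intro h0
    rw [h0, zero_div] at hab
    exact hπ0 hab
  have ha : a ≠ 0 := by rintro rfl; exact ha0 rfl
  have hb : b ≠ 0 := by rintro rfl; exact hb0 rfl
  have h1 := tA_dvd_ord hι hx hX hv hxX _ a ha (Int.toNat_of_nonneg (ord_nonneg hι hx hv a)).symm
  have h2 := tA_dvd_ord hι hx hX hv hxX _ b hb (Int.toNat_of_nonneg (ord_nonneg hι hx hv b)).symm
  have h3 : v.ord ((π : v.toValuationSubring) : FK) = v.ord (a : FK) - v.ord (b : FK) := by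
    rw [hab, div_eq_mul_inv, v.ord_mul ha0 (inv_ne_zero hb0), v.ord_inv]
    ring
  have h4 : v.ord ((tA hι hx hX hv : Asub K ι) : FK) ∣ 1 := by
    rw [← hπ1, h3]
    exact dvd_sub h1 h2
  exact Int.eq_one_of_dvd_one he.le h4

theorem coe_tA :
    ((tA hι hx hX hv : Asub K ι) : FK) = ι x - algebraMap K FK (resEmb hι hx hX hv x) := rfl

include hι hx hX hv in
/-- **A non-rational place is unramified over the generator.** -/
theorem ord_sub_eq_one_of_nonRat (hxX : ι x = X) {c : K}
    (h : 0 < v.ord (X - algebraMap K FK c)) : v.ord (X - algebraMap K FK c) = 1 := by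
  have hc : resEmb hι hx hX hv x = c := by
    rw [resEmb_eq_iff]
    right
    rw [hxX]
    exact h
  have := ord_tA_eq_one hι hx hX hv hxX
  rw [coe_tA, hc, hxX] at this
  exact this

end Generic

/-! ### The modular function field over `ℂ` -/

section Concrete

open ModularCurve Fermat.Agent.J.DESC.DescentFinal24 Fermat.Agent.ES.KUM.FieldL25
open Fermat.Agent.MW.A.Tower2

attribute [local instance] instAlgebraQbarComplex instTowerQbarComplex

variable (N : ℕ) [NeZero N]

/-- `j` of `X0/` is `jL ℚbar N`. -/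
theorem jF_eq_jL : (jF N : FQ N) = jL Qb N :=
  Subtype.ext (by rw [Fermat.Agent.RED.BASE.JInKt25.coe_jF_eq]; rfl)

/-- `j` is unramified outside `{0, 1728}` on `F_ℚbar` (restatement of `X0/HasCanDivInst`). -/
theorem unramifiedQ (c : Qb) (hc : c ≠ 0 ∧ c ≠ 1728) (w : Place Qb (FQ N))
    (hw : 0 < w.ord (jL Qb N - algebraMap Qb (FQ N) c)) :
    w.ord (jL Qb N - algebraMap Qb (FQ N) c) = 1 := by
  rw [← jF_eq_jL] at hw ⊢
  exact Fermat.Agent.X0.HasCanDivInst.unramified N c hc w hw

/-- **`j` is unramified outside `{0, 1728}` on `F_ℂ`.** -/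
theorem unramifiedC (c : ℂ) (hc : c ≠ 0 ∧ c ≠ 1728) (v : Place ℂ (FCx N))
    (hv : 0 < v.ord (jL ℂ N - algebraMap ℂ (FCx N) c)) :
    v.ord (jL ℂ N - algebraMap ℂ (FCx N) c) = 1 := by
  by_cases hrat : v ∈ Set.range (extPlaceC N)
  · obtain ⟨w, rfl⟩ := hrat
    -- the residue is algebraic
    have h0 : 0 ≤ (extPlaceC N w).ord (jL ℂ N) :=
      not_lt.mp (FF.GenusHyp.not_pole_of_zero hv)
    have hw0 : 0 ≤ w.ord (jL Qb N) := by
      rw [← ord_extPlaceC N w (jL Qb N), bcQC_jL]; exact h0
    have hmem : jL Qb N ∈ w.toValuationSubring := FF.ffp_mem_of_ord_nonneg w hw0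
    obtain ⟨c₀, hc₀ | hc₀⟩ := FF.exists_ord_sub_pos (isGen_jL Qb N) w hmem
    · exact absurd (sub_eq_zero.mpr hc₀) (Tower2.jL_sub_ne_zero Qb N c₀)
    · have h1 := ord_extPlaceC N w (jL Qb N - algebraMap Qb (FQ N) c₀)
      rw [map_sub, bcQC_jL, (isConstExt_bcQC N).comm] at h1
      have hcc : c = algebraMap Qb ℂ c₀ := const_unique _ hv (by rw [h1]; exact hc₀)
      rw [hcc, h1]
      apply unramifiedQ N c₀ ?_ w hc₀
      constructor
      · rintro rfl
        exact hc.1 (by rw [hcc, map_zero])
      · rintro rfl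
        exact hc.2 (by rw [hcc, map_ofNat])
  · have hnr : NonRat (k := Qb) (bcQC N) v := by
      rintro ⟨w, hw⟩
      exact hrat ⟨w, (eq_extPlace_of_liesOver (isConstExt_bcQC N) (isGen_jL Qb N)
        (isGen_jL ℂ N) hw).symm⟩
    exact ord_sub_eq_one_of_nonRat (isConstExt_bcQC N) (isGen_jL Qb N) (isGen_jL ℂ N) hnr
      (bcQC_jL N) hv

/-- **`F_ℂ / ℂ` has canonical divisors.** -/
theorem hasCanonicalDivisorCx : HasCanonicalDivisor (K := ℂ) (F := FCx N) := by
  classical
  refine FFCanon.hasCanonicalDivisor (isGen_jL ℂ N) ({0, 1728} : Finset ℂ) (fun c hc => ?_)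
  simp only [Finset.mem_insert, Finset.mem_singleton, not_or] at hc
  exact unramifiedC N c hc

/-- `DiffHyp` (input of the Riemann–Roch chain) for `F_ℂ / ℂ`. -/
theorem diffHypCx : Fermat.Agent.RR.Duality.DiffHyp ℂ (FCx N) := by
  classical
  refine Fermat.Agent.X0.HasCanDiv.diffHyp (isGen_jL ℂ N) ({0, 1728} : Finset ℂ) (fun c hc => ?_)
  simp only [Finset.mem_insert, Finset.mem_singleton, not_or] at hc
  exact unramifiedC N c hc

end Concrete

end

end Fermat.Agent.MW.A.Unram2
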