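/-
Programme MW (S17), block A (divisibility of `JZero N`), final glue (helper2):
**(BOUND), (NS) and the divisibility of `JZero N`.**

With `g = genus ℂ (FCx N)` (the instance `HasCanonicalDivisor` is `Unram2.hasCanonicalDivisorCx`):
* `mp_le_genus`       : (BOUND) every normal form has degree `≤ g` (Riemann–Roch);
* `WC`, `support_WC_subset` : the canonical divisor `W = div(dj)` of `F_ℂ` is supported on the places
                        rational over `ℚbar` (`j` is unramified at the others: `Unram2`);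
* `hstep`             : the step of `NonSpecial5` for a generic chain: `R i` is not a base point of
                        `|W - (R 0 + ⋯ + R (i-1))|`  (`SectionDescent5` over `L = cl {c j | j < i}`);
* `nf_chainClass`     : (NS) a generic chain of length `g` is the normal form of its class;
* `jzero_divisible`   : **`JZero N` is a divisible group.**
-/
import Mathlib
import Fermat.Agent.MW.A.Tower2
import Fermat.Agent.MW.A.Unram2
import Fermat.Agent.MW.A.GenChain7
import Fermat.Agent.MW.A.Chain2
import Fermat.Agent.MW.A.Orbit2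
import Fermat.Agent.MW.A.NonSpecial5
import Fermat.Agent.MW.A.SectionDescent5
import Fermat.Agent.MW.ASM.Reps1

set_option autoImplicit false
set_option linter.unusedSectionVars false
set_option linter.style.longLine false
set_option linter.style.haveILetI false

namespace Fermat.Agent.MW.A.NSGlue2

open ModularCurve HahnSeries AlgebraicCurve Fermat.Agent.X0 Fermat.Agent.X0.FF
open Fermat.Agent.J.DESC.ConstExt24 Fermat.Agent.J.DESC.LaurentExt24
open Fermat.Agent.J.DESC.DescentC24 Fermat.Agent.J.DESC.ExtPic22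
open Fermat.Agent.J.DESC.DescentFinal24 Fermat.Agent.J.DESC.NormalForm10
open Fermat.Agent.J.DESC.FiniteOrbit22
open Fermat.Agent.ES.KUM.FieldL25
open Fermat.Agent.RR.LSpace Fermat.Agent.RR.LHypGen
open Fermat.Agent.MW.A.Tower2 Fermat.Agent.MW.A.GenChain7

noncomputable section

attribute [local instance] instAlgebraQbarComplex instTowerQbarComplex

/-- `F_ℂ / ℂ` has canonical divisors (`Unram2`), as an instance. -/
instance instHasCanonicalDivisorCx (N : ℕ) [NeZero N] :
    HasCanonicalDivisor (K := ℂ) (F := FCx N) :=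
  Unram2.hasCanonicalDivisorCx N

/-- At a place where `x - c` is a uniformiser, `dx` has order `0`. -/
theorem ordDifferential_D_eq_zero {K F : Type*} [Field K] [Field F] [Algebra K F] {x : F}
    (H : GenusHyp K x) (v : Place K F) (c : K) (h1 : v.ord (x - algebraMap K F c) = 1) :
    v.ordDifferential (KaehlerDifferential.D K F x) = 0 := by
  have h2 := H.ordDifferential_D_of_ord_ne_zero v (x - algebraMap K F c)
    (by rw [h1]; exact one_ne_zero)
  rw [map_sub, Derivation.map_algebraMap, sub_zero, h1] at h2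
  rw [h2]
  norm_num

variable (N : ℕ) [NeZero N]

/-! ### (BOUND) -/

/-- **(BOUND)** every normal form has degree at most the genus. -/
theorem mp_le_genus (w₀ : Place Qb (FQ N)) (z : Pic0 ℂ (FCx N)) :
    Orbit2.mp N w₀ z ≤ genus ℂ (FCx N) := by
  unfold Orbit2.mp minPolePic
  refine minPole_le (Orbit2.lHypC N) (Orbit2.riemannHypC N) (extPlaceC N w₀) _ fun hbot => ?_
  have h1 : Divisor.degree (shift (extPlaceC N w₀)
      ((Quotient.out z : Divisor.degZero (K := ℂ) (F := FCx N)) : Divisor ℂ (FCx N))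
      (genus ℂ (FCx N))) + 1 - (genus ℂ (FCx N) : ℤ) ≤
      (Module.finrank ℂ (riemannRochSpace (shift (extPlaceC N w₀)
        ((Quotient.out z : Divisor.degZero (K := ℂ) (F := FCx N)) : Divisor ℂ (FCx N))
        (genus ℂ (FCx N)))) : ℤ) :=
    Fermat.Agent.MW.ASM.Reps1.riemann_le (isGen_jL ℂ N) _
  rw [hbot, finrank_bot, degree_shift (Orbit2.lHypC N),
    Divisor.mem_degZero.mp (Quotient.out z : Divisor.degZero (K := ℂ) (F := FCx N)).2] at h1
  push_cast at h1
  omega

/-! ### The canonical divisor `div(dj)` -/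

theorem dj_ne_zero : KaehlerDifferential.D ℂ (FCx N) (jL ℂ N) ≠ 0 := D_ne_zero (isGen_jL ℂ N)

/-- The canonical divisor `W = div(dj)` of `F_ℂ`. -/
def WC : Divisor ℂ (FCx N) := canonicalDivisorOf (dj_ne_zero N)

theorem WC_apply (v : Place ℂ (FCx N)) :
    WC N v = v.ordDifferential (KaehlerDifferential.D ℂ (FCx N) (jL ℂ N)) :=
  canonicalDivisorOf_apply (dj_ne_zero N) v

/-- `W` vanishes at the places which are not rational over `ℚbar`. -/
theorem WC_apply_of_notMem_range {v : Place ℂ (FCx N)} (hv : v ∉ Set.range (extPlaceC N)) :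
    WC N v = 0 := by
  rw [WC_apply]
  have hH := FFGenus.genusHyp (isGen_jL ℂ N)
  rcases pole_or_residue N v with hp | ⟨c, hc⟩
  · exact absurd (mem_range_extPlaceL_of_pole Qb N v hp) hv
  · have hc01 : c ≠ 0 ∧ c ≠ 1728 := by
      constructor
      · rintro rfl
        apply hv
        exact mem_range_extPlaceL_of_residue Qb N v 0 (by rwa [map_zero])
      · rintro rfl
        apply hv
        exact mem_range_extPlaceL_of_residue Qb N v 1728 (by rwa [map_ofNat])
    exact ordDifferential_D_eq_zero hH v c (Unram2.unramifiedC N c hc01 v hc)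

theorem support_WC_subset :
    ((WC N).support : Set (Place ℂ (FCx N))) ⊆ Set.range (extPlaceC N) := by
  intro v hv
  by_contra h
  exact (Finsupp.mem_support_iff.mp hv) (WC_apply_of_notMem_range N h)

/-! ### Divisors rational over `L` -/

section RangeL

variable (L : Type) [Field L] [Algebra ℚ L] [Algebra L ℂ] [IsAlgClosed L] [CharZero L]

/-- Extension of divisors from `F_L` to `F_ℂ`. -/
def extDivL : Divisor L (FL L N) →+ Divisor ℂ (FCx N) :=
  extDiv (isConstExt_bcL L N) (isGen_jL ℂ N)

theorem mem_range_extDivL_of_support {D : Divisor ℂ (FCx N)}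
    (hD : (D.support : Set (Place ℂ (FCx N))) ⊆ Set.range (extPlaceL L N)) :
    D ∈ (extDivL N L).range := by
  obtain ⟨D₀, h, -⟩ := exists_mapDomain_extPlace_eq_of_support (isConstExt_bcL L N)
    (isGen_jL ℂ N) D hD
  exact ⟨D₀, h⟩

theorem single_mem_range_extDivL {v : Place ℂ (FCx N)} (hv : v ∈ Set.range (extPlaceL L N))
    (n : ℤ) : Finsupp.single v n ∈ (extDivL N L).range := by
  obtain ⟨w, rfl⟩ := hv
  exact ⟨Finsupp.single w n, extDiv_single (isConstExt_bcL L N) (isGen_jL ℂ N) w n⟩

theorem WC_mem_range_extDivL [Algebra Qb L] [IsScalarTower Qb L ℂ] :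
    WC N ∈ (extDivL N L).range :=
  mem_range_extDivL_of_support N L ((support_WC_subset N).trans (range_extPlaceC_subset L N))

/-- **The step of (A5) over `L`**: a place `v` not rational over `L` is not a base point of
`|W - E|` for `E` rational over `L`. -/
theorem finrank_step_of_rational [Algebra Qb L] [IsScalarTower Qb L ℂ] {E : Divisor ℂ (FCx N)}
    (hE : E ∈ (extDivL N L).range) (hne : riemannRochSpace (WC N - E) ≠ ⊥)
    {v : Place ℂ (FCx N)} (hv : v ∉ Set.range (extPlaceL L N)) :
    Module.finrank ℂ (riemannRochSpace (WC N - E - Finsupp.single v 1)) + 1 =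
      Module.finrank ℂ (riemannRochSpace (WC N - E)) := by
  obtain ⟨D, hD⟩ := (extDivL N L).range.sub_mem (WC_mem_range_extDivL N L) hE
  have hD' : extDiv (isConstExt_bcL L N) (isGen_jL ℂ N) D = WC N - E := hD
  have key := SectionDescent5.finrank_L_sub_single_add_one (isConstExt_bcL L N)
    (isGen_jL L N) (isGen_jL ℂ N) (rhoL L N) (rhoL_smul_bcL L N)
    (fun f hf => mem_range_bcL_of_fixed L N f hf) D (by rw [hD']; exact hne) v hv
  rw [hD'] at key
  exact key

end RangeL

/-! ### From `Fin g`-indexed chains to `ℕ`-indexed chains -/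

/-- Extend a chain `R : Fin g → Place` to `ℕ → Place` by the constant `P₀`. -/
def toNat {g : ℕ} (R : Fin g → Place ℂ (FCx N)) (P₀ : Place ℂ (FCx N)) : ℕ → Place ℂ (FCx N) :=
  fun j => if hj : j < g then R ⟨j, hj⟩ else P₀

theorem toNat_of_lt {g : ℕ} (R : Fin g → Place ℂ (FCx N)) (P₀ : Place ℂ (FCx N)) {j : ℕ}
    (hj : j < g) : toNat N R P₀ j = R ⟨j, hj⟩ := by
  rw [toNat, dif_pos hj]

theorem chainDiv_toNat {g : ℕ} (R : Fin g → Place ℂ (FCx N)) (P₀ : Place ℂ (FCx N)) :
    NonSpecial5.chainDiv (toNat N R P₀) g = GenChain7.chainDiv R := by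
  unfold NonSpecial5.chainDiv GenChain7.chainDiv
  rw [← Fin.sum_univ_eq_sum_range (fun j => Finsupp.single (toNat N R P₀ j) (1 : ℤ)) g]
  exact Finset.sum_congr rfl fun i _ => by rw [toNat_of_lt N R P₀ i.2]

/-! ### The step of (A5) -/

/-- **The step of `NonSpecial5` for a generic chain**: `R i` is not a base point of
`|W - (R 0 + ⋯ + R (i-1))|`. -/
theorem hstep {g : ℕ} {R : Fin g → Place ℂ (FCx N)} {c : Fin g → ℂ} (h : IsGenChain N R c)
    (P₀ : Place ℂ (FCx N)) (i : ℕ) (hi : i < g)
    (hne : riemannRochSpace (WC N - NonSpecial5.chainDiv (toNat N R P₀) i) ≠ ⊥) :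
    Module.finrank ℂ (riemannRochSpace (WC N - NonSpecial5.chainDiv (toNat N R P₀) i -
        Finsupp.single (toNat N R P₀ i) 1)) + 1 =
      Module.finrank ℂ (riemannRochSpace (WC N - NonSpecial5.chainDiv (toNat N R P₀) i)) := by
  set T : Set (Fin g) := {j | (j : ℕ) < i} with hT
  -- the chain up to `i` is rational over `L = cl (c '' T)`
  have h1 : NonSpecial5.chainDiv (toNat N R P₀) i ∈ (extDivL N ↥(cl (c '' T))).range := by
    unfold NonSpecial5.chainDiv
    refine sum_mem fun j hj => ?_
    have hji : j < i := Finset.mem_range.mp hj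
    have hjg : j < g := hji.trans hi
    apply single_mem_range_extDivL
    rw [toNat_of_lt N R P₀ hjg]
    exact mem_range_extPlace_cl_of_residue (c '' T) N _ (subset_cl _ ⟨⟨j, hjg⟩, hji, rfl⟩)
      (h.res ⟨j, hjg⟩)
  have hRi : toNat N R P₀ i ∉ Set.range (extPlaceL ↥(cl (c '' T)) N) := by
    rw [toNat_of_lt N R P₀ hi]
    exact h.notMem_range (T := T) (i := ⟨i, hi⟩) (lt_irrefl i)
  exact finrank_step_of_rational N ↥(cl (c '' T)) h1 hne hRi

/-! ### (NS) -/

/-- **(A5)** the divisor of a generic chain of length `g = genus` is non-special. -/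
theorem finrank_L_chainDiv {R : Fin (genus ℂ (FCx N)) → Place ℂ (FCx N)}
    {c : Fin (genus ℂ (FCx N)) → ℂ} (h : IsGenChain N R c) :
    Module.finrank ℂ (riemannRochSpace (GenChain7.chainDiv R)) = 1 := by
  obtain ⟨w₀⟩ : Nonempty (Place Qb (FQ N)) := (lHyp_of_isGen (isGen_jL Qb N)).nonempty
  have hfin := NonSpecial5.finrank_L_chainDiv_eq_one (isGen_jL ℂ N) (dj_ne_zero N) (WC_apply N)
    (toNat N R (extPlaceC N w₀)) (fun i hi hne => hstep N h (extPlaceC N w₀) i hi hne)
  rwa [chainDiv_toNat] at hfin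

/-- **(NS)** a generic chain of length `g = genus` is the normal form of its class. -/
theorem nf_chainClass {R : Fin (genus ℂ (FCx N)) → Place ℂ (FCx N)}
    {c : Fin (genus ℂ (FCx N)) → ℂ} (h : IsGenChain N R c) (w₀ : Place Qb (FQ N)) :
    Orbit2.nf N w₀ (Orbit2.chainClass N w₀ R) = Orbit2.chainDiv R := by
  have hfin : Module.finrank ℂ (riemannRochSpace
      (NonSpecial5.chainDiv (toNat N R (extPlaceC N w₀)) (genus ℂ (FCx N)))) = 1 := by
    rw [chainDiv_toNat]
    exact finrank_L_chainDiv N h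
  have hP₀ : ∀ j < genus ℂ (FCx N), toNat N R (extPlaceC N w₀) j ≠ extPlaceC N w₀ := by
    intro j hj heq
    rw [toNat_of_lt N R _ hj] at heq
    exact h.notMem_range_extPlaceC ⟨j, hj⟩ ⟨w₀, heq.symm⟩
  obtain ⟨-, h2⟩ := NonSpecial5.minPole_normalForm_chainDiv (Orbit2.lHypC N)
    (toNat N R (extPlaceC N w₀)) (genus ℂ (FCx N)) (Orbit2.riemannHypC N) hfin
    (extPlaceC N w₀) hP₀
  rw [chainDiv_toNat] at h2
  unfold Orbit2.nf Orbit2.chainClass
  rw [normalFormPic_mk]
  exact h2

/-! ### Divisibility -/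

/-- **`JZero N` is a divisible group.** -/
theorem jzero_divisible (m : ℕ) (hm : 0 < m) (x : JZero N) : ∃ y : JZero N, m • y = x := by
  obtain ⟨w₀⟩ : Nonempty (Place Qb (FQ N)) := (lHyp_of_isGen (isGen_jL Qb N)).nonempty
  exact Orbit2.jzero_divisible_of_chains N w₀ (genus ℂ (FCx N)) (mp_le_genus N w₀)
    (fun R R' c c' h h' => Chain2.exists_conj N ⟨h.res, h.indep⟩ ⟨h'.res, h'.indep⟩)
    (fun R c h => nf_chainClass N ⟨h.res, h.indep⟩ w₀) m hm x

end

end Fermat.Agent.MW.A.NSGlue2
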