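/-
Programme MW (S17), block A (divisibility of `JZero N`), steps (A5)/(A6), preparations (helper7):
**the class of a chain** `[∑ R i − g·P₀] ∈ Pic⁰(F_ℂ)` and its normal form.

`P₀ = extPlaceC N w₀` is a fixed `ℚbar`-rational place.

* `rhoC_smul_P0` : `P₀` is fixed by `Aut(ℂ/ℚbar)`;
* `chainClass N w₀ R`, `rhoC_smul_chainClass` (equivariance);
* `exists_chainDiv_eq` : every effective divisor is `chainDiv R'` for a family `R'` of places;
* `normalFormPic_chainClass` : if `l(∑ R i) = 1` and no `R i` is `P₀`, then `∑ R i` is the normal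
  form of its class and `minPolePic = g`.
-/
import Mathlib
import Fermat.Agent.MW.A.GenChain7
import Fermat.Agent.J.DESC.NormalFormInj10

set_option autoImplicit false
set_option linter.unusedSectionVars false
set_option linter.style.longLine false

namespace Fermat.Agent.MW.A.ChainClass7

open ModularCurve HahnSeries AlgebraicCurve Fermat.Agent.X0
open Fermat.Agent.J.DESC.ConstExt24 Fermat.Agent.J.DESC.LaurentExt24
open Fermat.Agent.J.DESC.DescentC24 Fermat.Agent.J.DESC.ExtPic22
open Fermat.Agent.J.DESC.DescentFinal24 Fermat.Agent.J.DESC.FiniteOrbit22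
open Fermat.Agent.ES.KUM.FieldL25
open Fermat.Agent.RR.LSpace Fermat.Agent.J.DESC.NormalForm10 Fermat.Agent.J.DESC.NormalFormInj10
open Fermat.Agent.MW.A.Tower2 Fermat.Agent.MW.A.GenChain7

noncomputable section

attribute [local instance] instAlgebraQbarComplex instTowerQbarComplex

variable (N : ℕ) [NeZero N]

/-- `ℚbar`-rational places are fixed by `Aut(ℂ/ℚbar)`. -/
theorem rhoC_smul_extPlaceC (τ : ℂ ≃ₐ[Qb] ℂ) (w : Place Qb (FQ N)) :
    rhoC N τ • extPlaceC N w = extPlaceC N w :=
  smul_extPlace (isConstExt_bcQC N) (isGen_jL Qb N) (isGen_jL ℂ N) (rhoC N τ)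
    (rhoC_smul_bcQC N τ) w

variable {N}

theorem chainDiv_sub_mem_degZero {g : ℕ} (R : Fin g → Place ℂ (FCx N)) (P : Place ℂ (FCx N)) :
    chainDiv R - Finsupp.single P (g : ℤ) ∈ Divisor.degZero (K := ℂ) (F := FCx N) := by
  rw [Divisor.mem_degZero, map_sub, degree_chainDiv, Divisor.degree_single,
    FF.deg_eq_one (isGen_jL ℂ N)]
  simp

variable (N) in
/-- The class `[∑ R i − g·P₀]`. -/
def chainClass (w₀ : Place Qb (FQ N)) {g : ℕ} (R : Fin g → Place ℂ (FCx N)) : Pic0 ℂ (FCx N) :=
  Pic0.mk ⟨chainDiv R - Finsupp.single (extPlaceC N w₀) (g : ℤ), chainDiv_sub_mem_degZero R _⟩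

theorem rhoC_smul_chainClass (w₀ : Place Qb (FQ N)) (τ : ℂ ≃ₐ[Qb] ℂ) {g : ℕ}
    (R : Fin g → Place ℂ (FCx N)) :
    rhoC N τ • chainClass N w₀ R = chainClass N w₀ (fun i => rhoC N τ • R i) := by
  unfold chainClass
  rw [SemilinearAut.pic0_smul_mk]
  congr 1
  apply Subtype.ext
  rw [SemilinearAut.coe_degZeroSMulHom]
  show rhoC N τ • (chainDiv R - Finsupp.single (extPlaceC N w₀) (g : ℤ)) = _
  rw [smul_sub, smul_chainDiv, SemilinearAut.smul_single, rhoC_smul_extPlaceC]

/-- Every effective divisor is the divisor of a family of places. -/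
theorem exists_chainDiv_eq (H : LHyp ℂ (FCx N)) (E : Divisor ℂ (FCx N)) (hE : 0 ≤ E) :
    ∃ (r : ℕ) (R' : Fin r → Place ℂ (FCx N)), E = chainDiv R' := by
  classical
  obtain ⟨k, hk⟩ : ∃ k : ℕ, Divisor.degree E = k :=
    ⟨(Divisor.degree E).toNat, (Int.toNat_of_nonneg (degree_nonneg H hE)).symm⟩
  induction k generalizing E with
  | zero =>
    refine ⟨0, Fin.elim0, ?_⟩
    rw [eq_zero_of_degree_eq_zero H hE (by simpa using hk)]
    simp [chainDiv]
  | succ k ih =>
    have hne : E ≠ 0 := by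
      rintro rfl
      rw [map_zero] at hk
      omega
    obtain ⟨v, hv⟩ := Finsupp.ne_iff.mp hne
    rw [Finsupp.coe_zero, Pi.zero_apply] at hv
    have hv1 : 1 ≤ E v := by
      have := hE v
      simp only [Finsupp.coe_zero, Pi.zero_apply] at this
      omega
    have hE1 : 0 ≤ E - Finsupp.single v 1 := by
      intro u
      simp only [Finsupp.coe_zero, Pi.zero_apply, Finsupp.coe_sub, Pi.sub_apply]
      rw [Finsupp.single_apply]
      split_ifs with huv
      · subst huv; omega
      · have := hE u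
        simp only [Finsupp.coe_zero, Pi.zero_apply] at this
        omega
    have hd1 : Divisor.degree (E - Finsupp.single v 1) = k := by
      rw [map_sub, hk, degree_single H]
      push_cast
      ring
    obtain ⟨r, R₁, hR₁⟩ := ih (E - Finsupp.single v 1) hE1 hd1
    refine ⟨r + 1, Fin.cons v R₁, ?_⟩
    unfold chainDiv at hR₁ ⊢
    rw [Fin.sum_univ_succ]
    simp only [Fin.cons_zero, Fin.cons_succ]
    rw [← hR₁]
    abel

variable (H : LHyp ℂ (FCx N)) (hR : RiemannHyp ℂ (FCx N)) (w₀ : Place Qb (FQ N))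

/-- **(A5) ⇒ normal form**: if `l(∑ R i) = 1` and no `R i` is `P₀`, then `∑ R i` is the normal form
of its class, and the least pole order of the class is `g`. -/
theorem normalFormPic_chainClass {g : ℕ} (R : Fin g → Place ℂ (FCx N))
    (hNS : Module.finrank ℂ (riemannRochSpace (chainDiv R)) = 1)
    (hP : ∀ i, R i ≠ extPlaceC N w₀) :
    minPolePic H hR (extPlaceC N w₀) (chainClass N w₀ R) = g ∧
      normalFormPic H hR (extPlaceC N w₀) (chainClass N w₀ R) = chainDiv R := by
  classical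
  obtain ⟨P₀, hP₀⟩ : ∃ P₀ : Place ℂ (FCx N), P₀ = extPlaceC N w₀ := ⟨_, rfl⟩
  have hmk : chainClass N w₀ R =
      Pic0.mk ⟨chainDiv R - Finsupp.single P₀ (g : ℤ), chainDiv_sub_mem_degZero R P₀⟩ := by
    subst hP₀; rfl
  rw [← hP₀] at hP ⊢
  obtain ⟨D, hD⟩ : ∃ D : Divisor ℂ (FCx N), D = chainDiv R - Finsupp.single P₀ (g : ℤ) :=
    ⟨_, rfl⟩
  have hDv : ∀ v, D v = chainDiv R v - (Finsupp.single P₀ (g : ℤ) : Divisor ℂ (FCx N)) v :=
    fun v => by rw [hD]; rfl
  have hDdeg : Divisor.degree D = 0 := by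
    rw [hD]; exact Divisor.mem_degZero.mp (chainDiv_sub_mem_degZero R P₀)
  have hP0 : chainDiv R P₀ = 0 := by
    by_contra h
    obtain ⟨i, hi⟩ := (mem_support_chainDiv R).mp (Finsupp.mem_support_iff.mpr h)
    exact hP i hi
  -- `L(∑ R i)` consists of the constants
  have h1mem : (1 : FCx N) ∈ riemannRochSpace (chainDiv R) := by
    rw [mem_L_iff one_ne_zero]
    intro v
    have := chainDiv_nonneg R v
    simp only [Finsupp.coe_zero, Pi.zero_apply] at this
    rw [v.ord_one]
    omega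
  have hconst : ∀ f ∈ riemannRochSpace (chainDiv R), ∃ a : ℂ, f = algebraMap ℂ (FCx N) a := by
    intro f hf
    have hfd : FiniteDimensional ℂ (riemannRochSpace (chainDiv R)) := finiteDimensional_L H _
    obtain ⟨a, ha⟩ := (finrank_eq_one_iff_of_nonzero' (⟨1, h1mem⟩ : riemannRochSpace (chainDiv R))
      (by intro h; exact one_ne_zero (congrArg Subtype.val h))).mp hNS ⟨f, hf⟩
    refine ⟨a, ?_⟩
    have := congrArg Subtype.val ha
    simp only [Submodule.coe_smul] at this
    rw [← this, Algebra.smul_def, mul_one]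
  -- `g ≤ minPole D`
  have hmin : g ≤ minPole H hR P₀ D := by
    by_contra hlt
    rw [not_le] at hlt
    obtain ⟨f, hf0, hf⟩ := exists_gen H hR P₀ D
    have hf' : f ∈ riemannRochSpace (chainDiv R) := by
      refine L_mono ?_ hf
      intro v
      rw [shift, Finsupp.add_apply, hDv]
      rw [Finsupp.single_apply, Finsupp.single_apply]
      split_ifs <;> omega
    obtain ⟨a, rfl⟩ := hconst f hf'
    have h2 := (mem_L_iff hf0).mp hf P₀
    rw [shift, Finsupp.add_apply, hDv, Finsupp.single_eq_same, Finsupp.single_eq_same] at h2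
    have ha0 : a ≠ 0 := by
      rintro rfl
      exact hf0 (map_zero _)
    rw [FF.ord_algebraMap, hP0] at h2
    omega
  have hcl : chainDiv R - Finsupp.single P₀ ((g : ℕ) : ℤ) - D ∈
      Divisor.principal (K := ℂ) (F := FCx N) := by
    rw [hD, sub_self]
    exact zero_mem _
  obtain ⟨h1, h2⟩ := eq_normalForm_of_nonneg H hR P₀ hDdeg (chainDiv_nonneg R) hmin hcl
  rw [hmk, minPolePic_mk, normalFormPic_mk]
  show minPole H hR P₀ (chainDiv R - Finsupp.single P₀ (g : ℤ)) = g ∧
    normalForm H hR P₀ (chainDiv R - Finsupp.single P₀ (g : ℤ)) = chainDiv R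
  rw [← hD]
  exact ⟨h1.symm, h2.symm⟩

end

end Fermat.Agent.MW.A.ChainClass7
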