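/-
Programme MW (S17), block A, brick TrdegCount2 (helper2) - pure field theory, Mathlib only.

* `exists_algebraicIndependent_complex` (Indep) : over a countable field `k` there are `g`
  algebraically independent complex numbers, for every `g`.
* `trdeg_count` : if `c : Fin g → K` is algebraically independent over `k`, every `c i` is
  algebraic over `k(c'_1, …, c'_r)` and `r ≤ g`, then `r = g` and `c'` is algebraically independent
  over `k` (Steinitz exchange, via Mathlib's algebraic-independence matroid).
-/
import Mathlib

set_option autoImplicit false

noncomputable section

open Cardinal Set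

namespace Fermat.Agent.MW.A.TrdegCount2

/-- Steinitz: an algebraically independent family of `g` elements, all algebraic over the field
generated by `r ≤ g` elements `c'`, forces `r = g` and `c'` algebraically independent. -/
theorem trdeg_count {k K : Type*} [Field k] [Field K] [Algebra k K] {g r : ℕ}
    (c : Fin g → K) (c' : Fin r → K) (hc : AlgebraicIndependent k c)
    (halg : ∀ i, IsAlgebraic (IntermediateField.adjoin k (Set.range c')) (c i)) (hr : r ≤ g) :
    r = g ∧ AlgebraicIndependent k c' := by
  classical
  set Mt := AlgebraicIndependent.matroid k K with hMt
  have hI : Mt.Indep (range c) := AlgebraicIndependent.matroid_indep_iff.mpr hc.to_subtype_range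
  have hsub : range c ⊆ Mt.closure (range c') := by
    rw [hMt, AlgebraicIndependent.matroid_closure_eq]
    rintro _ ⟨i, rfl⟩
    exact IntermediateField.isAlgebraic_adjoin_iff.mp (halg i)
  have h1 : (range c).encard ≤ Mt.eRk (range c') :=
    (hI.encard_le_eRk_of_subset hsub).trans (Mt.eRk_closure_eq _).le
  have h2 : Mt.eRk (range c') ≤ (range c').encard := Mt.eRk_le_encard _
  have hcg : (range c).encard = g := by
    rw [← image_univ, hc.injective.encard_image, encard_univ, ENat.card_eq_coe_fintype_card,
      Fintype.card_fin]
  have hcr : (range c').encard ≤ r := by
    calc (range c').encard = (c' '' univ).encard := by rw [image_univ]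
      _ ≤ (univ : Set (Fin r)).encard := encard_image_le _ _
      _ = r := by rw [encard_univ, ENat.card_eq_coe_fintype_card, Fintype.card_fin]
  have hgr : (g : ℕ∞) ≤ r := hcg ▸ (h1.trans (h2.trans hcr))
  have hgr' : g ≤ r := by exact_mod_cast hgr
  have hrg : r = g := le_antisymm hr hgr'
  refine ⟨hrg, ?_⟩
  -- `range c'` has exactly `r` elements and rank `r`
  have hcard : (range c').encard = r := by
    apply le_antisymm hcr
    calc (r : ℕ∞) = g := by rw [hrg]
      _ = (range c).encard := hcg.symm
      _ ≤ (range c').encard := h1.trans h2
  have hrk : Mt.eRk (range c') = (range c').encard := by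
    apply le_antisymm h2
    calc (range c').encard = r := hcard
      _ = g := by rw [hrg]
      _ = (range c).encard := hcg.symm
      _ ≤ Mt.eRk (range c') := h1
  have hind : Mt.Indep (range c') :=
    (Matroid.indep_iff_eRk_eq_encard_of_finite (finite_range c')).mpr hrk
  -- injectivity of `c'`
  have hinj : Function.Injective c' := by
    have hfin : (range c').ncard = Fintype.card (Fin r) := by
      rw [Fintype.card_fin]
      have := hcard
      rw [← (finite_range c').cast_ncard_eq] at this
      exact_mod_cast this
    have hsurj : Function.Surjective (rangeFactorization c') := rangeFactorization_surjective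
    have hcard2 : Fintype.card (range c') = Fintype.card (Fin r) := by
      rw [← hfin, ← Nat.card_eq_fintype_card]; rfl
    have hbij : Function.Bijective (rangeFactorization c') :=
      (Fintype.bijective_iff_surjective_and_card _).mpr ⟨hsurj, hcard2.symm⟩
    intro a b hab
    exact hbij.1 (Subtype.ext hab)
  have hon : AlgebraicIndepOn k id (range c') := AlgebraicIndependent.matroid_indep_iff.mp hind
  exact AlgebraicIndependent.of_subtype_range hinj hon

end Fermat.Agent.MW.A.TrdegCount2
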