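/-
Programme MW (S17), block A (divisibility of `JZero N`), step (A6) (helper7): **the orbit argument.**

`z = [∑ R i − g·P₀]` the class of a generic chain `(R, c)` of length `g` with `l(∑ R i) = 1`
(so `∑ R i` is its normal form), `g` a bound for the least pole orders of all classes.
Let `z'` be a class such that the stabiliser of `z'` in `Aut(ℂ/ℚbar)` moves `z` inside a finite set
`z + T` (e.g. `z' = m • z`, `T` the `m`-torsion; or `z' = x + z`, `x` rational, `T = {0}`).
Then `z'` is again the class of a generic chain of length `g` (`exists_genChain_of_rel`).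

Proof: the normal form `E'` of `z'` is `∑_{j<r} R' j`, `r ≤ g`; `L' := cl {j(R' j)}`; `Aut(ℂ/L')`
fixes `E'`, hence `z'`; hence a subgroup of finite index fixes `z`, hence `∑ R i`; so every `R i` is
rational over `L'`, `c i ∈ L'`; by the Steinitz count `r = g` and the `j(R' j)` are algebraically
independent.
-/
import Mathlib
import Fermat.Agent.MW.A.ChainClass7
import Fermat.Agent.MW.A.TrdegCount2

set_option autoImplicit false
set_option linter.unusedSectionVars false
set_option linter.style.longLine false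
set_option linter.style.haveILetI false

namespace Fermat.Agent.MW.A.Orbit7

open ModularCurve HahnSeries AlgebraicCurve Fermat.Agent.X0
open Fermat.Agent.J.DESC.ConstExt24 Fermat.Agent.J.DESC.LaurentExt24
open Fermat.Agent.J.DESC.DescentC24 Fermat.Agent.J.DESC.ExtPic22
open Fermat.Agent.J.DESC.DescentFinal24 Fermat.Agent.J.DESC.FiniteOrbit22
open Fermat.Agent.ES.KUM.FieldL25
open Fermat.Agent.RR.LSpace Fermat.Agent.J.DESC.NormalForm10 Fermat.Agent.J.DESC.NormalFormInj10
open Fermat.Agent.MW.A.Tower2 Fermat.Agent.MW.A.GenChain7 Fermat.Agent.MW.A.ChainClass7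

noncomputable section

attribute [local instance] instAlgebraQbarComplex instTowerQbarComplex

variable {N : ℕ} [NeZero N]

/-! ### the `j`-value of a place -/

open Classical in
/-- The value of `j` at a place of `F_ℂ` (`0` at the poles of `j`). -/
def jres (v : Place ℂ (FCx N)) : ℂ :=
  if h : ∃ c : ℂ, 0 < v.ord (jL ℂ N - algebraMap ℂ (FCx N) c) then h.choose else 0

theorem jres_spec {v : Place ℂ (FCx N)}
    (h : ∃ c : ℂ, 0 < v.ord (jL ℂ N - algebraMap ℂ (FCx N) c)) :
    0 < v.ord (jL ℂ N - algebraMap ℂ (FCx N) (jres v)) := by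
  rw [jres, dif_pos h]
  exact h.choose_spec

theorem jres_spec_of_ne_zero {v : Place ℂ (FCx N)} (h : jres v ≠ 0) :
    0 < v.ord (jL ℂ N - algebraMap ℂ (FCx N) (jres v)) := by
  by_cases h' : ∃ c : ℂ, 0 < v.ord (jL ℂ N - algebraMap ℂ (FCx N) c)
  · exact jres_spec h'
  · exact absurd (by rw [jres, dif_neg h']) h

/-- A place whose `j`-value lies in `cl S` is rational over `cl S`. -/
theorem mem_range_extPlace_cl_of_jres_mem (S : Set ℂ) (v : Place ℂ (FCx N))
    (h : jres v ∈ cl S) : v ∈ Set.range (extPlaceL ↥(cl S) N) := by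
  rcases pole_or_residue N v with hp | hr
  · exact mem_range_extPlaceL_of_pole ↥(cl S) N v hp
  · exact mem_range_extPlace_cl_of_residue S N v h (jres_spec hr)

/-! ### chains of rational places are fixed -/

theorem rhoL_smul_chainDiv_eq (L : Type) [Field L] [Algebra ℚ L] [Algebra L ℂ] [IsAlgClosed L]
    [CharZero L] {r : ℕ} (R' : Fin r → Place ℂ (FCx N))
    (hR' : ∀ j, R' j ∈ Set.range (extPlaceL L N)) (σ : ℂ ≃ₐ[L] ℂ) :
    rhoL L N σ • chainDiv R' = chainDiv R' := by
  rw [smul_chainDiv]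
  congr 1
  funext j
  exact rhoL_smul_eq_of_mem_range L N (hR' j) σ

/-! ### finite-index stabilisers -/

/-- If a group moves a class inside a finite set of translates, a subgroup of finite index fixes
it. -/
theorem exists_finiteIndex_of_finite_diff {Γ : Type*} [Group Γ]
    (φ : Γ →* SemilinearAut ℂ (FCx N)) (z : Pic0 ℂ (FCx N)) (T : Set (Pic0 ℂ (FCx N)))
    (hT : T.Finite) (h : ∀ σ : Γ, φ σ • z - z ∈ T) :
    ∃ U : Subgroup Γ, U.FiniteIndex ∧ ∀ σ ∈ U, φ σ • z = z := by
  classical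
  let _ : MulAction Γ (Pic0 ℂ (FCx N)) := MulAction.compHom _ φ
  have hsmul : ∀ (σ : Γ) (w : Pic0 ℂ (FCx N)), σ • w = φ σ • w := fun _ _ => rfl
  haveI : Finite ↥T := hT.to_subtype
  let f : MulAction.orbit Γ z → ↥T := fun w =>
    ⟨(w : Pic0 ℂ (FCx N)) - z, by
      obtain ⟨σ, hσ⟩ := w.2
      rw [← hσ]
      exact h σ⟩
  have hf : Function.Injective f := by
    intro w w' hww
    have h1 := congrArg (Subtype.val : ↥T → Pic0 ℂ (FCx N)) hww
    exact Subtype.ext (sub_left_injective h1)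
  haveI : Finite (MulAction.orbit Γ z) := Finite.of_injective f hf
  refine ⟨MulAction.stabilizer Γ z, ?_, ?_⟩
  · have : Finite (Γ ⧸ MulAction.stabilizer Γ z) :=
      Finite.of_equiv _ (MulAction.orbitEquivQuotientStabilizer Γ z)
    exact Subgroup.finiteIndex_of_finite_quotient
  · intro σ hσ
    exact MulAction.mem_stabilizer_iff.mp hσ

/-! ### the orbit argument -/

/-- **(A6)**: a class tied to the class of a (non-special) generic chain of length `g` is itself the
class of a generic chain of length `g`. -/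
theorem exists_genChain_of_rel (H : LHyp ℂ (FCx N)) (hR : RiemannHyp ℂ (FCx N))
    (w₀ : Place Qb (FQ N)) {g : ℕ}
    (hg : ∀ x : Pic0 ℂ (FCx N), minPolePic H hR (extPlaceC N w₀) x ≤ g)
    {R : Fin g → Place ℂ (FCx N)} {c : Fin g → ℂ} (hRc : IsGenChain N R c)
    (hNS : Module.finrank ℂ (riemannRochSpace (chainDiv R)) = 1)
    (z' : Pic0 ℂ (FCx N)) (T : Set (Pic0 ℂ (FCx N))) (hT : T.Finite)
    (hrel : ∀ τ : ℂ ≃ₐ[Qb] ℂ, rhoC N τ • z' = z' →
      rhoC N τ • chainClass N w₀ R - chainClass N w₀ R ∈ T) :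
    ∃ (R' : Fin g → Place ℂ (FCx N)) (c' : Fin g → ℂ),
      IsGenChain N R' c' ∧ z' = chainClass N w₀ R' := by
  classical
  -- the normal form of `z'` as a chain
  obtain ⟨r, R', hE'⟩ := exists_chainDiv_eq H (normalFormPic H hR (extPlaceC N w₀) z')
    (normalFormPic_nonneg H hR (extPlaceC N w₀) z')
  have hr : r = minPolePic H hR (extPlaceC N w₀) z' := by
    have h1 := degree_normalFormPic H hR (extPlaceC N w₀) z'
    rw [hE', degree_chainDiv] at h1
    exact_mod_cast h1
  have hrg : r ≤ g := hr ▸ hg z'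
  -- the field `L'`
  obtain ⟨c', hc'⟩ : ∃ c' : Fin r → ℂ, c' = fun j => jres (R' j) := ⟨_, rfl⟩
  have hrat' : ∀ j, R' j ∈ Set.range (extPlaceL ↥(cl (Set.range c')) N) := fun j =>
    mem_range_extPlace_cl_of_jres_mem _ _ (subset_cl _ ⟨j, by rw [hc']⟩)
  -- `Aut(ℂ/L')` fixes `z'`
  have hfixP : ∀ σ : ℂ ≃ₐ[↥(cl (Set.range c'))] ℂ,
      rhoL ↥(cl (Set.range c')) N σ • extPlaceC N w₀ = extPlaceC N w₀ := fun σ =>
    rhoC_smul_extPlaceC N (σ.restrictScalars Qb) w₀
  have hfixz' : ∀ σ : ℂ ≃ₐ[↥(cl (Set.range c'))] ℂ,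
      rhoL ↥(cl (Set.range c')) N σ • z' = z' := by
    intro σ
    rw [smul_eq_iff_smul_normalFormPic_eq H hR (extPlaceC N w₀) _ (hfixP σ), hE']
    exact rhoL_smul_chainDiv_eq _ R' hrat' σ
  -- a subgroup of finite index fixes `z`
  obtain ⟨U, hU, hUz⟩ := exists_finiteIndex_of_finite_diff (rhoL ↥(cl (Set.range c')) N)
    (chainClass N w₀ R) T hT (fun σ => hrel (σ.restrictScalars Qb) (hfixz' σ))
  haveI := hU
  -- hence fixes `∑ R i`
  have hP : ∀ i, R i ≠ extPlaceC N w₀ := fun i h =>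
    hRc.notMem_range_extPlaceC i ⟨w₀, h.symm⟩
  obtain ⟨-, hNF⟩ := normalFormPic_chainClass H hR w₀ R hNS hP
  have hUdiv : ∀ σ ∈ U, rhoL ↥(cl (Set.range c')) N σ • chainDiv R = chainDiv R := by
    intro σ hσ
    have := (smul_eq_iff_smul_normalFormPic_eq H hR (extPlaceC N w₀) _ (hfixP σ)
      (chainClass N w₀ R)).mp (hUz σ hσ)
    rwa [hNF] at this
  -- so every `R i` is rational over `L'`
  have hrat : ∀ i, R i ∈ Set.range (extPlaceL ↥(cl (Set.range c')) N) := by
    intro i
    refine mem_range_extPlace_of_finiteIndex (isConstExt_bcL ↥(cl (Set.range c')) N)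
      (isGen_jL ↥(cl (Set.range c')) N) (isGen_jL ℂ N) (rhoL ↥(cl (Set.range c')) N)
      (baseAut_rhoL ↥(cl (Set.range c')) N) (rhoL_smul_bcL ↥(cl (Set.range c')) N) U (R i) ?_
    refine (chainDiv R).support.finite_toSet.subset ?_
    rintro _ ⟨σ, hσ, rfl⟩
    have h1 := SemilinearAut.divisor_smul_apply_smul (rhoL ↥(cl (Set.range c')) N σ)
      (chainDiv R) (R i)
    rw [hUdiv σ hσ] at h1
    rw [Finset.mem_coe, Finsupp.mem_support_iff, h1, ← Finsupp.mem_support_iff,
      mem_support_chainDiv]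
    exact ⟨i, rfl⟩
  -- the Steinitz count
  have halg : ∀ i, IsAlgebraic (IntermediateField.adjoin Qb (Set.range c')) (c i) := fun i =>
    mem_cl_iff.mp (hRc.mem_cl_of_mem_range (hrat i))
  obtain ⟨hrg', hind⟩ := TrdegCount2.trdeg_count c c' hRc.indep halg hrg
  subst hrg'
  refine ⟨R', c', ⟨fun j => ?_, hind⟩, ?_⟩
  · have h0 : jres (R' j) ≠ 0 := by
      have := hind.ne_zero j
      rwa [hc'] at this
    have := jres_spec_of_ne_zero h0
    rwa [hc']
  · rw [← mk_normalFormPic' H hR (extPlaceC N w₀) z']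
    unfold chainClass
    congr 1
    apply Subtype.ext
    show normalFormPic H hR (extPlaceC N w₀) z' -
        Finsupp.single (extPlaceC N w₀) ((minPolePic H hR (extPlaceC N w₀) z' : ℕ) : ℤ) =
      chainDiv R' - Finsupp.single (extPlaceC N w₀) (r : ℤ)
    rw [hE', ← hr]

end

end Fermat.Agent.MW.A.Orbit7
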