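/-
Programme MW (S17), block A (divisibility of `JZero N`), step (A0) (helper7): **descent of
`m`-th roots from `ℂ` to `ℚ̄`.**

If a class `z` of `Pic⁰(F_ℂ)` satisfies `m • z = extPic0C N x` for a class `x` of
`Pic⁰(F_ℚ̄) = JZero N`, then every `Aut(ℂ/ℚ̄)`-conjugate of `z` lies in `z + Pic⁰(F_ℂ)[m]`, a finite
set; so `z` is fixed by a subgroup of finite index, hence is the base change of a class `y` over
`ℚ̄` (`ExtPic22.mem_range_extPic0_of_finiteIndex`), and `m • y = x` by injectivity of `extPic0C`.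

* `exists_root_of_rootC` : the statement above;
* `jzero_divisible_of_divisibleC` : divisibility of `JZero N` follows from divisibility over `ℂ` of the
  classes coming from `ℚ̄`.
-/
import Mathlib
import Fermat.Agent.J.DESC.DescentFinal24
import Fermat.Agent.ES.KUM.FiniteTorsion15

set_option autoImplicit false
set_option linter.unusedSectionVars false
set_option linter.style.longLine false
set_option linter.style.haveILetI false

namespace Fermat.Agent.MW.A.RootDescent7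

open ModularCurve AlgebraicCurve Fermat.Agent.X0
open Fermat.Agent.J.DESC.ConstExt24 Fermat.Agent.J.DESC.ExtPic22
open Fermat.Agent.J.DESC.DescentC24 Fermat.Agent.J.DESC.DescentFinal24
open Fermat.Agent.ES.KUM.FieldL25

noncomputable section

attribute [local instance] instAlgebraQbarComplex instTowerQbarComplex

variable (N : ℕ) [NeZero N]

/-- The torsion of `Pic⁰(F_ℂ)` is finite (Laurent-series model of `F_ℂ`). -/
theorem finite_torsionCx (m : ℕ) [NeZero m] : Finite ↥(Pic0.torsion ℂ (FCx N) m) :=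
  Fermat.Agent.ES.KUM.FiniteTorsion15.finite_torsionC N m

/-- Semilinear automorphisms commute with `ℕ`-multiples of divisor classes. -/
theorem smul_nsmul_pic0 {K F : Type*} [Field K] [Field F] [Algebra K F] (g : SemilinearAut K F)
    (m : ℕ) (z : Pic0 K F) : g • (m • z) = m • (g • z) :=
  map_nsmul (DistribSMul.toAddMonoidHom (Pic0 K F) g) m z

/-- A class of `Pic⁰(F_ℂ)` whose `m`-th multiple is fixed by `Aut(ℂ/ℚ̄)` is fixed by a subgroup of
finite index. -/
theorem exists_finiteIndex_of_nsmul_fixed (m : ℕ) (hm : 0 < m) (z : Pic0 ℂ (FCx N))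
    (hz : ∀ σ : ℂ ≃ₐ[Qb] ℂ, rhoC N σ • (m • z) = m • z) :
    ∃ H : Subgroup (ℂ ≃ₐ[Qb] ℂ), H.FiniteIndex ∧ ∀ σ ∈ H, rhoC N σ • z = z := by
  classical
  haveI : NeZero m := ⟨hm.ne'⟩
  haveI := finite_torsionCx N m
  let _ : MulAction (ℂ ≃ₐ[Qb] ℂ) (Pic0 ℂ (FCx N)) := MulAction.compHom _ (rhoC N)
  have hsmul : ∀ (σ : ℂ ≃ₐ[Qb] ℂ) (w : Pic0 ℂ (FCx N)), σ • w = rhoC N σ • w := fun _ _ => rfl
  -- the orbit of `z` injects into the `m`-torsion
  have hmem : ∀ σ : ℂ ≃ₐ[Qb] ℂ, rhoC N σ • z - z ∈ Pic0.torsion ℂ (FCx N) m := by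
    intro σ
    rw [Pic0.mem_torsion, natCast_zsmul, nsmul_sub, ← smul_nsmul_pic0, hz σ, sub_self]
  let f : MulAction.orbit (ℂ ≃ₐ[Qb] ℂ) z → ↥(Pic0.torsion ℂ (FCx N) m) := fun w =>
    ⟨(w : Pic0 ℂ (FCx N)) - z, by
      obtain ⟨σ, hσ⟩ := w.2
      rw [← hσ]
      exact hmem σ⟩
  have hf : Function.Injective f := by
    intro w w' h
    have h1 := congrArg (Subtype.val : ↥(Pic0.torsion ℂ (FCx N) m) → Pic0 ℂ (FCx N)) h
    exact Subtype.ext (sub_left_injective h1)
  haveI : Finite (MulAction.orbit (ℂ ≃ₐ[Qb] ℂ) z) := Finite.of_injective f hf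
  refine ⟨MulAction.stabilizer (ℂ ≃ₐ[Qb] ℂ) z, ?_, ?_⟩
  · have : Finite ((ℂ ≃ₐ[Qb] ℂ) ⧸ MulAction.stabilizer (ℂ ≃ₐ[Qb] ℂ) z) :=
      Finite.of_equiv _ (MulAction.orbitEquivQuotientStabilizer (ℂ ≃ₐ[Qb] ℂ) z)
    exact Subgroup.finiteIndex_of_finite_quotient
  · intro σ hσ
    exact MulAction.mem_stabilizer_iff.mp hσ

/-- **(A0) descent of `m`-th roots**: an `m`-th root over `ℂ` of a class defined over `ℚ̄` is defined
over `ℚ̄`, and is an `m`-th root there. -/
theorem exists_root_of_rootC (m : ℕ) (hm : 0 < m) (x : Pic0 Qb (FQ N)) (z : Pic0 ℂ (FCx N))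
    (hz : m • z = extPic0C N x) : ∃ y : Pic0 Qb (FQ N), m • y = x ∧ extPic0C N y = z := by
  obtain ⟨H, hH, hHz⟩ := exists_finiteIndex_of_nsmul_fixed N m hm z (fun σ => by
    rw [hz, rhoC_smul_extPic0C])
  haveI := hH
  obtain ⟨y, hy⟩ := mem_range_extPic0_of_finiteIndex (isConstExt_bcQC N) (isGen_jL Qb N)
    (isGen_jL ℂ N) (rhoC N) (baseAut_rhoC N) (rhoC_smul_bcQC N) H z hHz
  refine ⟨y, ?_, hy⟩
  apply extPic0C_injective N
  rw [map_nsmul, ← hz]
  exact congrArg (fun w => m • w) hy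

/-- **Divisibility of `JZero N` from divisibility over `ℂ`** of the classes defined over `ℚ̄`. -/
theorem jzero_divisible_of_divisibleC (m : ℕ) (hm : 0 < m)
    (h : ∀ x : Pic0 Qb (FQ N), ∃ z : Pic0 ℂ (FCx N), m • z = extPic0C N x) (x : JZero N) :
    ∃ y : JZero N, m • y = x := by
  obtain ⟨z, hz⟩ := h x
  obtain ⟨y, hy, -⟩ := exists_root_of_rootC N m hm x z hz
  exact ⟨y, hy⟩

end

end Fermat.Agent.MW.A.RootDescent7
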