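/-
Programme MW (S17), block A (divisibility of `JZero N`), step (A7) (helper7): **divisibility of the
`ℚbar`-rational classes in `Pic⁰(F_ℂ)`, and of `JZero N`, from the four inputs**

* `hg`   : every class has least pole order `≤ g` (Riemann's inequality with constant `g`);
* `hNS`  : (A5) a generic chain of length `g` is non-special, `l(∑ R i) = 1`;
* `hex`  : (A4) generic chains of length `g` exist;
* `hconj`: (A4) any two generic chains of length `g` are conjugate under `Aut(ℂ/ℚbar)`.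

Proof: `z₀` the class of a generic chain.  By the orbit argument (`Orbit7`) `m • z₀` and `x + z₀`
(`x` rational) are classes of generic chains, hence conjugate to `z₀`:  `m • z₀ = τ₁ • z₀`, so
`z₀ = m • y₀` with `y₀ = τ₁⁻¹ • z₀`;  `x + z₀ = τ₂ • z₀ = m • (τ₂ • y₀)`;  `x = m • (τ₂ • y₀ − y₀)`.
-/
import Mathlib
import Fermat.Agent.MW.A.Orbit7
import Fermat.Agent.MW.A.RootDescent7

set_option autoImplicit false
set_option linter.unusedSectionVars false
set_option linter.style.longLine false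
set_option linter.style.haveILetI false

namespace Fermat.Agent.MW.A.DivisibleAbs7

open ModularCurve HahnSeries AlgebraicCurve Fermat.Agent.X0
open Fermat.Agent.J.DESC.ConstExt24 Fermat.Agent.J.DESC.LaurentExt24
open Fermat.Agent.J.DESC.DescentC24 Fermat.Agent.J.DESC.ExtPic22
open Fermat.Agent.J.DESC.DescentFinal24 Fermat.Agent.J.DESC.FiniteOrbit22
open Fermat.Agent.ES.KUM.FieldL25
open Fermat.Agent.RR.LSpace Fermat.Agent.J.DESC.NormalForm10 Fermat.Agent.J.DESC.NormalFormInj10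
open Fermat.Agent.MW.A.Tower2 Fermat.Agent.MW.A.GenChain7 Fermat.Agent.MW.A.ChainClass7
open Fermat.Agent.MW.A.Orbit7 Fermat.Agent.MW.A.RootDescent7

noncomputable section

attribute [local instance] instAlgebraQbarComplex instTowerQbarComplex

variable {N : ℕ} [NeZero N]

/-- **(DIV_ℂ)** from the four inputs. -/
theorem divisibleC_of_hyps (H : LHyp ℂ (FCx N)) (hR : RiemannHyp ℂ (FCx N))
    (w₀ : Place Qb (FQ N)) {g : ℕ}
    (hg : ∀ x : Pic0 ℂ (FCx N), minPolePic H hR (extPlaceC N w₀) x ≤ g)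
    (hNS : ∀ (R : Fin g → Place ℂ (FCx N)) (c : Fin g → ℂ), IsGenChain N R c →
      Module.finrank ℂ (riemannRochSpace (chainDiv R)) = 1)
    (hex : ∃ (R : Fin g → Place ℂ (FCx N)) (c : Fin g → ℂ), IsGenChain N R c)
    (hconj : ∀ (R R' : Fin g → Place ℂ (FCx N)) (c c' : Fin g → ℂ), IsGenChain N R c →
      IsGenChain N R' c' → ∃ τ : ℂ ≃ₐ[Qb] ℂ, ∀ i, rhoC N τ • R i = R' i)
    (m : ℕ) (hm : 0 < m) (x : Pic0 Qb (FQ N)) :
    ∃ z : Pic0 ℂ (FCx N), m • z = extPic0C N x := by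
  classical
  obtain ⟨R₀, c₀, h₀⟩ := hex
  have hNS₀ := hNS R₀ c₀ h₀
  -- every class of a generic chain is conjugate to `z₀`
  have hconj' : ∀ (R' : Fin g → Place ℂ (FCx N)) (c' : Fin g → ℂ), IsGenChain N R' c' →
      ∃ τ : ℂ ≃ₐ[Qb] ℂ, chainClass N w₀ R' = rhoC N τ • chainClass N w₀ R₀ := by
    intro R' c' h'
    obtain ⟨τ, hτ⟩ := hconj R₀ R' c₀ c' h₀ h'
    refine ⟨τ, ?_⟩
    rw [rhoC_smul_chainClass]
    congr 1
    funext i
    exact (hτ i).symm
  -- `m • z₀` is the class of a generic chain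
  haveI : NeZero m := ⟨hm.ne'⟩
  haveI := finite_torsionCx N m
  obtain ⟨R₁, c₁, h₁, hz₁⟩ := exists_genChain_of_rel H hR w₀ hg h₀ hNS₀
    (m • chainClass N w₀ R₀) (Pic0.torsion ℂ (FCx N) m : Set (Pic0 ℂ (FCx N)))
    (Set.toFinite _) (by
      intro τ hτ
      rw [SetLike.mem_coe, Pic0.mem_torsion, natCast_zsmul, nsmul_sub, ← smul_nsmul_pic0, hτ,
        sub_self])
  obtain ⟨τ₁, hτ₁⟩ := hconj' R₁ c₁ h₁
  -- `z₀ = m • y₀`
  obtain ⟨y₀, hy₀⟩ : ∃ y₀ : Pic0 ℂ (FCx N), m • y₀ = chainClass N w₀ R₀ := by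
    refine ⟨(rhoC N τ₁)⁻¹ • chainClass N w₀ R₀, ?_⟩
    rw [← smul_nsmul_pic0, hz₁, hτ₁, inv_smul_smul]
  -- `x + z₀` is the class of a generic chain
  obtain ⟨R₂, c₂, h₂, hz₂⟩ := exists_genChain_of_rel H hR w₀ hg h₀ hNS₀
    (extPic0C N x + chainClass N w₀ R₀) ({0} : Set (Pic0 ℂ (FCx N)))
    (Set.finite_singleton 0) (by
      intro τ hτ
      rw [smul_add, rhoC_smul_extPic0C] at hτ
      rw [Set.mem_singleton_iff, sub_eq_zero]
      exact add_left_cancel hτ)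
  obtain ⟨τ₂, hτ₂⟩ := hconj' R₂ c₂ h₂
  refine ⟨rhoC N τ₂ • y₀ - y₀, ?_⟩
  rw [nsmul_sub, ← smul_nsmul_pic0, hy₀, ← hτ₂, ← hz₂, add_sub_cancel_right]

/-- **Divisibility of `JZero N`** from the four inputs. -/
theorem jzero_divisible_of_hyps (H : LHyp ℂ (FCx N)) (hR : RiemannHyp ℂ (FCx N))
    (w₀ : Place Qb (FQ N)) {g : ℕ}
    (hg : ∀ x : Pic0 ℂ (FCx N), minPolePic H hR (extPlaceC N w₀) x ≤ g)
    (hNS : ∀ (R : Fin g → Place ℂ (FCx N)) (c : Fin g → ℂ), IsGenChain N R c →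
      Module.finrank ℂ (riemannRochSpace (chainDiv R)) = 1)
    (hex : ∃ (R : Fin g → Place ℂ (FCx N)) (c : Fin g → ℂ), IsGenChain N R c)
    (hconj : ∀ (R R' : Fin g → Place ℂ (FCx N)) (c c' : Fin g → ℂ), IsGenChain N R c →
      IsGenChain N R' c' → ∃ τ : ℂ ≃ₐ[Qb] ℂ, ∀ i, rhoC N τ • R i = R' i)
    (m : ℕ) (hm : 0 < m) (x : JZero N) : ∃ y : JZero N, m • y = x :=
  jzero_divisible_of_divisibleC N m hm
    (fun x => divisibleC_of_hyps H hR w₀ hg hNS hex hconj m hm x) x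

end

end Fermat.Agent.MW.A.DivisibleAbs7
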