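/-
Programme MW (S17), block A (divisibility of `JZero N`), brick (A5), part 3 (helper5):
**generic chains on `X₀(N)_ℂ` are non-special**, concrete form.

* `ord_tA_eq_one` (abstract, setting of `UniqPlace7`): at a place `v` of `FK` which is non-rational
  over `k`, the function `ι x - c` (`c` the residue of `ι x` at `v`) is a uniformiser.
* `unramifiedCx` : `j : X₀(N)_ℂ → ℙ¹` is unramified outside `j ∈ {0, 1728, ∞}`.
* `hasCanonicalDivisorCx` : **(T1)** `HasCanonicalDivisor (K := ℂ) (F := FCx N)` (an instance), so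
  that Riemann–Roch (`RR/RRMain`) applies to `FCx N`.
* `rhoL_smul_canonical` : the canonical divisor `div (dj)` of `FCx N` is fixed by `Aut(ℂ/L)`.
* `finrank_L_chain_eq_one` : **(T2)** if `R_1, …, R_g` (`g = genus`) are places of `FCx N` whose
  `j`-residues `c_1, …, c_g` are algebraically independent over `ℚbar`, then
  `dim L(R_1 + ⋯ + R_g) = 1`.
* `finrank_L_canonical_sub_chain_eq_zero` : equivalently `L(W - (R_1 + ⋯ + R_g)) = 0`.
-/
import Mathlib
import Fermat.Agent.MW.A.SectionDescent5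
import Fermat.Agent.MW.A.NonSpecial5
import Fermat.Agent.MW.A.Tower2
import Fermat.Agent.MW.A.UniqPlace7
import Fermat.Agent.X0.HasCanDivInst
import Fermat.Agent.X0.FFCanon
import Fermat.Agent.S23.GaloisReg

set_option autoImplicit false
set_option linter.unusedSectionVars false
set_option linter.style.longLine false

namespace Fermat.Agent.MW.A.NonSpecialCx5

open ModularCurve HahnSeries AlgebraicCurve KaehlerDifferential Fermat.Agent.X0
open Fermat.Agent.J.DESC.ConstExt24 Fermat.Agent.J.DESC.LaurentExt24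
open Fermat.Agent.J.DESC.DescentC24 Fermat.Agent.J.DESC.ExtPic22
open Fermat.Agent.J.DESC.FiniteOrbit22 Fermat.Agent.J.DESC.DescentFinal24
open Fermat.Agent.ES.KUM.FieldL25
open Fermat.Agent.RR.LSpace Fermat.Agent.RR.LHypGen
open Fermat.Agent.MW.A.ResEmb7 Fermat.Agent.MW.A.UniqPlace7 Fermat.Agent.MW.A.Tower2

noncomputable section

attribute [local instance] instAlgebraQbarComplex instTowerQbarComplex

/-! ### `ι x - c` is a uniformiser at a non-rational place -/

section OrdOne

universe u v w x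

variable {k : Type u} {K : Type v} {Fk : Type w} {FK : Type x} [Field k] [Field K] [Field Fk]
  [Field FK] [Algebra k K] [Algebra k Fk] [Algebra K FK]
  [IsAlgClosed k] [CharZero k] [IsAlgClosed K] [CharZero K] {ι : Fk →+* FK}
  (hι : IsConstExt (k := k) (K := K) ι) {x : Fk} (hx : FF.IsGen k x) {X : FK} (hX : FF.IsGen K X)
  {v : Place K FK} (hv : NonRat (k := k) ι v)

include hx hX in
/-- The order at `v` of every nonzero element of `A = K[ι Fk]` is a multiple of the order of
`t = ι x - c`. -/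
theorem dvd_ord_Asub (hxX : ι x = X) :
    ∀ (n : ℕ) (a : Asub K ι), a ≠ 0 → v.ord (a : FK) = n →
      v.ord ((tA hι hx hX hv : Asub K ι) : FK) ∣ v.ord (a : FK) := by
  have ht0 := coe_ne_zero (tA_ne_zero hι hx hX hv hxX)
  intro n
  induction n using Nat.strong_induction_on with
  | _ n ih =>
    intro a ha hn
    by_cases hra : rA hι hx hX hv a = 0
    · obtain ⟨s, a', hs, hsa⟩ := Dv_of_rA_eq_zero hι hx hX hv hra
      have hs0 : s ≠ 0 := by
        rintro rfl
        exact hs (map_zero _)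
      have ha'0 : a' ≠ 0 := by
        rintro rfl
        rw [mul_zero] at hsa
        rcases mul_eq_zero.mp hsa with h0 | h0
        · exact hs0 h0
        · exact ha h0
      have hcoe : (s : FK) * (a : FK) = ((tA hι hx hX hv : Asub K ι) : FK) * (a' : FK) := by
        have := congrArg (Subtype.val : Asub K ι → FK) hsa
        simpa using this
      have hsv : v.ord (s : FK) = 0 := (rA_ne_zero_iff hι hx hX hv hs0).mp hs
      have h1 : v.ord (a : FK) =
          v.ord ((tA hι hx hX hv : Asub K ι) : FK) + v.ord (a' : FK) := by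
        have := congrArg v.ord hcoe
        rw [v.ord_mul (coe_ne_zero hs0) (coe_ne_zero ha), v.ord_mul ht0 (coe_ne_zero ha'0),
          hsv, zero_add] at this
        exact this
      have he := ord_tA_pos hι hx hX hv hxX
      have h3 := UniqPlace7.ord_nonneg hι hx hv a'
      have hlt : (v.ord (a' : FK)).toNat < n := by
        have : v.ord (a' : FK) < n := by rw [← hn, h1]; omega
        omega
      have h4 := ih _ hlt a' ha'0 (Int.toNat_of_nonneg h3).symm
      rw [h1]
      exact dvd_add (dvd_refl _) h4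
    · have h1 : v.ord (a : FK) = 0 := (rA_ne_zero_iff hι hx hX hv ha).mp hra
      rw [h1]
      exact dvd_zero _

include hι hx hX in
/-- **`t = ι x - c` has order `1`** at the non-rational place `v`. -/
theorem ord_tA_eq_one (hxX : ι x = X) :
    v.ord ((tA hι hx hX hv : Asub K ι) : FK) = 1 := by
  have he := ord_tA_pos hι hx hX hv hxX
  obtain ⟨y, hy0, hy1⟩ := Fermat.Agent.X0.LaurentPlace.exists_ord_eq_one v
  obtain ⟨a, b, hb0, rfl⟩ := exists_div_Asub hι y
  have ha0 : (a : FK) ≠ 0 := by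
    intro h0
    rw [h0, zero_div] at hy0
    exact hy0 rfl
  have ha : a ≠ 0 := by rintro rfl; exact ha0 rfl
  have hb : b ≠ 0 := by rintro rfl; exact hb0 rfl
  have h1 := dvd_ord_Asub hι hx hX hv hxX _ a ha
    (Int.toNat_of_nonneg (UniqPlace7.ord_nonneg hι hx hv a)).symm
  have h2 := dvd_ord_Asub hι hx hX hv hxX _ b hb
    (Int.toNat_of_nonneg (UniqPlace7.ord_nonneg hι hx hv b)).symm
  rw [div_eq_mul_inv, v.ord_mul ha0 (inv_ne_zero hb0), v.ord_inv] at hy1
  have h3 : v.ord ((tA hι hx hX hv : Asub K ι) : FK) ∣ 1 := by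
    rw [← hy1]
    exact dvd_add h1 ((dvd_neg).mpr h2)
  exact Int.eq_one_of_dvd_one he.le h3

end OrdOne

variable (N : ℕ) [NeZero N]

/-! ### The two `j`-functions over `ℚbar` agree -/

theorem jL_Qb_eq_jF : (jL Qb N : FQ N) = jF N := by
  apply Subtype.ext
  rw [coe_jL, coe_jF, jqK, coeffEmb, ← jqModC_rat]
  exact (map_jqModC (algebraMap ℚ Kbar)).symm

/-! ### `j` is unramified over `ℂ` outside `{0, 1728, ∞}` -/

/-- `0 ≤ ord_v j` if `j - c` has positive order at `v`. -/
theorem ord_jL_nonneg {c : ℂ} {v : Place ℂ (FCx N)}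
    (hv : 0 < v.ord (jL ℂ N - algebraMap ℂ (FCx N) c)) : 0 ≤ v.ord (jL ℂ N) := by
  have hj0 : jL ℂ N ≠ 0 := (isGen_jL ℂ N).ne_zero
  have h1 : jL ℂ N = (jL ℂ N - algebraMap ℂ (FCx N) c) + algebraMap ℂ (FCx N) c := by ring
  have h2 := FF.ord_add_ge v (f := jL ℂ N - algebraMap ℂ (FCx N) c)
    (g := algebraMap ℂ (FCx N) c) (by rw [← h1]; exact hj0)
  rw [← h1, FF.ord_algebraMap] at h2
  have h3 : 0 ≤ min (v.ord (jL ℂ N - algebraMap ℂ (FCx N) c)) 0 := le_min hv.le le_rfl
  omega

/-- **`j` is unramified over `ℂ` outside `{0, 1728, ∞}`.** -/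
theorem unramifiedCx (c : ℂ) (hc0 : c ≠ 0) (hc1 : c ≠ 1728) (v : Place ℂ (FCx N))
    (hv : 0 < v.ord (jL ℂ N - algebraMap ℂ (FCx N) c)) :
    v.ord (jL ℂ N - algebraMap ℂ (FCx N) c) = 1 := by
  by_cases hr : ∃ w : Place Qb (FQ N), LiesOver (bcQC N) v w
  · -- rational places: unramifiedness over `ℚbar`
    obtain ⟨w, hw⟩ := hr
    have hvw : v = extPlaceC N w :=
      eq_extPlace_of_liesOver (isConstExt_bcQC N) (isGen_jL Qb N) (isGen_jL ℂ N) hw
    have hmem : v ∈ Set.range (extPlaceL Qb N) := ⟨w, hvw.symm⟩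
    obtain ⟨c', hc'⟩ := exists_residue_of_mem_range Qb N hmem (ord_jL_nonneg N hv)
    have hcc : c = algebraMap Qb ℂ c' := const_unique v hv hc'
    have hc'0 : c' ≠ 0 := by
      rintro rfl
      exact hc0 (by rw [hcc, map_zero])
    have hc'1 : c' ≠ 1728 := by
      rintro rfl
      exact hc1 (by rw [hcc, map_ofNat])
    have h1 : jL ℂ N - algebraMap ℂ (FCx N) c =
        bcQC N (jL Qb N - algebraMap Qb (FQ N) c') := by
      rw [map_sub, bcQC_jL, (isConstExt_bcQC N).comm, hcc]
    rw [h1, hvw, ord_extPlaceC]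
    have h2 : 0 < w.ord (jL Qb N - algebraMap Qb (FQ N) c') := by
      rw [← ord_extPlaceC N w, ← hvw, ← h1]
      exact hv
    rw [jL_Qb_eq_jF] at h2 ⊢
    exact Fermat.Agent.X0.HasCanDivInst.unramified N c' ⟨hc'0, hc'1⟩ w h2
  · -- non-rational places: `j - c` is a uniformiser
    have hnr : NonRat (k := Qb) (bcQC N) v := hr
    have hone := ord_tA_eq_one (isConstExt_bcQC N) (isGen_jL Qb N) (isGen_jL ℂ N) hnr (bcQC_jL N)
    have hcoe : ((tA (isConstExt_bcQC N) (isGen_jL Qb N) (isGen_jL ℂ N) hnr :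
        Asub ℂ (bcQC N)) : FCx N) =
        bcQC N (jL Qb N) - algebraMap ℂ (FCx N)
          (resEmb (isConstExt_bcQC N) (isGen_jL Qb N) (isGen_jL ℂ N) hnr (jL Qb N)) := rfl
    rw [hcoe, bcQC_jL] at hone
    have hpos : 0 < v.ord (jL ℂ N - algebraMap ℂ (FCx N)
        (resEmb (isConstExt_bcQC N) (isGen_jL Qb N) (isGen_jL ℂ N) hnr (jL Qb N))) := by
      rw [hone]; exact one_pos
    have hcc := const_unique v hv hpos
    rw [hcc]
    exact hone

/-! ### (T1) canonical divisors over `ℂ` -/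

/-- **(T1)** `F_ℂ = ℂ(X₀(N))` has canonical divisors. -/
instance hasCanonicalDivisorCx : HasCanonicalDivisor (K := ℂ) (F := FCx N) := by
  classical
  refine Fermat.Agent.X0.FFCanon.hasCanonicalDivisor (isGen_jL ℂ N) ({0, 1728} : Finset ℂ) ?_
  intro c hc v hv
  rw [Finset.mem_insert, Finset.mem_singleton, not_or] at hc
  exact unramifiedCx N c hc.1 hc.2 v hv

/-- The canonical divisor `div (dj)` of `F_ℂ`. -/
def canDivCx : Divisor ℂ (FCx N) := canonicalDivisorOf (FF.D_ne_zero (isGen_jL ℂ N))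

theorem canDivCx_apply (v : Place ℂ (FCx N)) :
    canDivCx N v = v.ordDifferential (D ℂ (FCx N) (jL ℂ N)) :=
  canonicalDivisorOf_apply (FF.D_ne_zero (isGen_jL ℂ N)) v

/-- `div (dj)` is fixed by every semilinear automorphism fixing `j`. -/
theorem smul_canDivCx (g : SemilinearAut ℂ (FCx N)) (hg : g • jL ℂ N = jL ℂ N) :
    g • canDivCx N = canDivCx N := by
  ext v
  rw [SemilinearAut.divisor_smul_apply, canDivCx_apply, canDivCx_apply]
  have h := Fermat.Agent.S23.GaloisReg.ordDifferential_D_smul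
    (Fermat.Agent.X0.FFGenus.genusHyp (isGen_jL ℂ N)) g hg (g⁻¹ • v)
  rw [smul_inv_smul] at h
  exact h.symm

section Tower

variable (L : Type) [Field L] [Algebra ℚ L] [Algebra L ℂ] [IsAlgClosed L] [CharZero L]

theorem rhoL_smul_jL (σ : ℂ ≃ₐ[L] ℂ) : rhoL L N σ • jL ℂ N = jL ℂ N := by
  rw [← bcL_jL L N]
  exact rhoL_smul_bcL L N σ (jL L N)

/-- The canonical divisor `div (dj)` of `F_ℂ` is fixed by `Aut(ℂ/L)`. -/
theorem rhoL_smul_canonical (σ : ℂ ≃ₐ[L] ℂ) : rhoL L N σ • canDivCx N = canDivCx N :=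
  smul_canDivCx N (rhoL L N σ) (rhoL_smul_jL N L σ)

/-- **The step of the chain argument over `L`**: if the divisor `E` of `F_ℂ` is fixed by `Aut(ℂ/L)`,
`L(E) ≠ 0` and the place `R` is not rational over `L`, then `R` is not a base point of `|E|`. -/
theorem finrank_L_sub_single_add_one_of_fixed (E : Divisor ℂ (FCx N))
    (hE : ∀ σ : ℂ ≃ₐ[L] ℂ, rhoL L N σ • E = E) (hne : riemannRochSpace E ≠ ⊥)
    (R : Place ℂ (FCx N)) (hR : R ∉ Set.range (extPlaceL L N)) :
    Module.finrank ℂ (riemannRochSpace (E - Finsupp.single R 1)) + 1 =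
      Module.finrank ℂ (riemannRochSpace E) := by
  obtain ⟨D₀, hD₀, -⟩ := exists_mapDomain_extPlace_eq_of_finiteIndex (isConstExt_bcL L N)
    (isGen_jL L N) (isGen_jL ℂ N) (rhoL L N) (baseAut_rhoL L N) (rhoL_smul_bcL L N)
    (⊤ : Subgroup (ℂ ≃ₐ[L] ℂ)) E (fun σ _ => hE σ)
  have hD₀' : extDiv (isConstExt_bcL L N) (isGen_jL ℂ N) D₀ = E := hD₀
  have h := Fermat.Agent.MW.A.SectionDescent5.finrank_L_sub_single_add_one (isConstExt_bcL L N)
    (isGen_jL L N) (isGen_jL ℂ N) (rhoL L N) (rhoL_smul_bcL L N)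
    (fun h hfix => mem_range_bcL_of_fixed L N h hfix) D₀ (by rw [hD₀']; exact hne) R hR
  rw [hD₀'] at h
  exact h

end Tower

/-! ### (T2) generic chains are non-special -/

section Chain

open Fermat.Agent.MW.A.NonSpecial5

variable {g : ℕ} (R : Fin g → Place ℂ (FCx N)) (c : Fin g → ℂ)

/-- The `ℕ`-indexed version of the chain (junk values beyond `g`). -/
def chainNat (P : Place ℂ (FCx N)) : ℕ → Place ℂ (FCx N) :=
  fun j => if h : j < g then R ⟨j, h⟩ else P

theorem chainNat_of_lt (P : Place ℂ (FCx N)) {j : ℕ} (h : j < g) :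
    chainNat N R P j = R ⟨j, h⟩ := dif_pos h

theorem chainDiv_chainNat (P : Place ℂ (FCx N)) :
    chainDiv (chainNat N R P) g = ∑ i : Fin g, Finsupp.single (R i) (1 : ℤ) := by
  rw [chainDiv, Finset.sum_range]
  refine Finset.sum_congr rfl fun i _ => ?_
  rw [chainNat_of_lt N R P i.2]

variable (hres : ∀ i, 0 < (R i).ord (jL ℂ N - algebraMap ℂ (FCx N) (c i)))
  (hindep : AlgebraicIndependent Qb c)

include hres hindep in
/-- The step hypothesis of `NonSpecial5.finrank_L_chainDiv_eq_one` for a generic chain. -/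
theorem chain_step (P : Place ℂ (FCx N)) (i : ℕ) (hi : i < g)
    (hne : riemannRochSpace (canDivCx N - chainDiv (chainNat N R P) i) ≠ ⊥) :
    Module.finrank ℂ (riemannRochSpace
        (canDivCx N - chainDiv (chainNat N R P) i - Finsupp.single (chainNat N R P i) 1)) + 1 =
      Module.finrank ℂ (riemannRochSpace (canDivCx N - chainDiv (chainNat N R P) i)) := by
  classical
  -- the field generated by the residues of the earlier points
  set T : Set (Fin g) := {j | (j : ℕ) < i} with hT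
  set S : Set ℂ := c '' T with hS
  -- the earlier points are rational over `cl S`
  have hrat : ∀ j (hj : j < i), chainNat N R P j ∈ Set.range (extPlaceL ↥(cl S) N) := by
    intro j hj
    have hjg : j < g := lt_trans hj hi
    rw [chainNat_of_lt N R P hjg]
    refine mem_range_extPlace_cl_of_residue S N _ (c := c ⟨j, hjg⟩) ?_ (hres ⟨j, hjg⟩)
    exact subset_cl S ⟨⟨j, hjg⟩, hj, rfl⟩
  -- the divisor is fixed by `Aut(ℂ/cl S)`
  have hfixE : ∀ σ : ℂ ≃ₐ[↥(cl S)] ℂ,
      rhoL ↥(cl S) N σ • (canDivCx N - chainDiv (chainNat N R P) i) =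
        canDivCx N - chainDiv (chainNat N R P) i := by
    intro σ
    rw [smul_sub, rhoL_smul_canonical N ↥(cl S) σ, chainDiv, Finset.smul_sum]
    congr 1
    refine Finset.sum_congr rfl fun j hj => ?_
    rw [SemilinearAut.smul_single,
      rhoL_smul_eq_of_mem_range ↥(cl S) N (hrat j (Finset.mem_range.mp hj)) σ]
  -- the new point is not rational over `cl S`
  have hnot : chainNat N R P i ∉ Set.range (extPlaceL ↥(cl S) N) := by
    rw [chainNat_of_lt N R P hi]
    intro hmem
    obtain ⟨c', hc'S, hc'⟩ := exists_residue_mem_cl S N hmem (ord_jL_nonneg N (hres ⟨i, hi⟩))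
    have hcc : c ⟨i, hi⟩ = c' := const_unique _ (hres ⟨i, hi⟩) hc'
    have hiT : (⟨i, hi⟩ : Fin g) ∉ T := by
      rw [hT, Set.mem_ofPred_eq]
      exact lt_irrefl i
    exact notMem_cl_of_algebraicIndependent hindep hiT (hcc ▸ hc'S)
  exact finrank_L_sub_single_add_one_of_fixed N ↥(cl S) _ hfixE hne _ hnot

include hres hindep in
/-- **(T2)** A generic chain of length `g = genus` is non-special: `dim L(R_1 + ⋯ + R_g) = 1`. -/
theorem finrank_L_chain_eq_one (hg : g = genus ℂ (FCx N)) :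
    Module.finrank ℂ (riemannRochSpace (∑ i : Fin g, Finsupp.single (R i) (1 : ℤ))) = 1 := by
  obtain ⟨P⟩ := (lHyp_of_isGen (isGen_jL ℂ N)).nonempty
  rw [← chainDiv_chainNat N R P]
  subst hg
  exact finrank_L_chainDiv_eq_one (isGen_jL ℂ N) (FF.D_ne_zero (isGen_jL ℂ N))
    (canDivCx_apply N) (chainNat N R P)
    (fun i hi hne => chain_step N R c hres hindep P i hi hne)

include hres hindep in
/-- **(T2')** equivalently `L(W - (R_1 + ⋯ + R_g)) = 0` for the canonical divisor `W = div (dj)`. -/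
theorem finrank_L_canonical_sub_chain_eq_zero (hg : g = genus ℂ (FCx N)) :
    Module.finrank ℂ (riemannRochSpace
      (canDivCx N - ∑ i : Fin g, Finsupp.single (R i) (1 : ℤ))) = 0 := by
  obtain ⟨P⟩ := (lHyp_of_isGen (isGen_jL ℂ N)).nonempty
  rw [← chainDiv_chainNat N R P]
  subst hg
  have h := finrank_L_canonical_sub_chainDiv (isGen_jL ℂ N) (FF.D_ne_zero (isGen_jL ℂ N))
    (canDivCx_apply N) (chainNat N R P)
    (fun i hi hne => chain_step N R c hres hindep P i hi hne) (genus ℂ (FCx N)) le_rfl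
  rw [h, Nat.sub_self]

end Chain

end

end Fermat.Agent.MW.A.NonSpecialCx5
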