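/-
Programme MW (S17), block A (divisibility of `JZero N`), bricks (A6) + (A7) (helper2):
the orbit / transcendence-degree argument and the end of the proof, in ABSTRACT form.

`HasRes v c`    : the place `v` of `F_ℂ` is a zero of `j - c`;
`IsChain R c`   : `R : Fin n → Place ℂ (FCx N)`, `c : Fin n → ℂ`, `R i` is a zero of `j - c i` and the
                  `c i` are algebraically independent over `ℚbar` ("generic chain");
`chainDiv R`    : the divisor `∑ i, R i`;
`chainClass R`  : the class of `∑ i, R i - n • P₀`.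

* `exists_isChain`  : generic chains of any length exist;
* `isChain_of_stab` : **(A6)** if the normal form of `z` is a generic chain of length `g`, every normal
  form has degree `≤ g`, and for every `S ⊆ ℂ` the stabiliser of `z'` in `Aut(ℂ/cl S)` fixes `z` up
  to finite index, then the normal form of `z'` is a generic chain of length `g`.
* `divisibleC_of_chains` : **(A7)** divisibility over `ℂ` of the classes defined over `ℚbar` from
  (CONJ) conjugacy of generic chains of length `g` and (NS) non-speciality of generic chains.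
-/
import Mathlib
import Fermat.Agent.MW.A.Tower2
import Fermat.Agent.MW.A.TrdegCount2
import Fermat.Agent.MW.A.Indep2
import Fermat.Agent.MW.A.RootDescent7
import Fermat.Agent.J.DESC.NormalFormInj10
import Fermat.Agent.RR.LHypGen

set_option autoImplicit false
set_option linter.unusedSectionVars false
set_option linter.style.longLine false
set_option linter.style.haveILetI false

namespace Fermat.Agent.MW.A.Orbit2

open ModularCurve HahnSeries AlgebraicCurve Fermat.Agent.X0
open Fermat.Agent.J.DESC.ConstExt24 Fermat.Agent.J.DESC.LaurentExt24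
open Fermat.Agent.J.DESC.DescentC24 Fermat.Agent.J.DESC.ExtPic22
open Fermat.Agent.J.DESC.DescentFinal24 Fermat.Agent.J.DESC.NormalForm10
open Fermat.Agent.J.DESC.FiniteOrbit22
open Fermat.Agent.ES.KUM.FieldL25
open Fermat.Agent.RR.LSpace Fermat.Agent.RR.LHypGen
open Fermat.Agent.MW.A.Tower2

noncomputable section

attribute [local instance] instAlgebraQbarComplex instTowerQbarComplex

/-! ### Effective divisors as sums of places -/

/-- An effective `ℤ`-valued finitely supported function is a finite sum of `single _ 1`. -/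
theorem exists_fin_sum_single {α : Type*} (E : α →₀ ℤ) (hE : 0 ≤ E) :
    ∃ (n : ℕ) (R : Fin n → α), E = ∑ i, Finsupp.single (R i) (1 : ℤ) := by
  classical
  induction hk : (E.sum fun _ k => k).toNat generalizing E with
  | zero =>
      refine ⟨0, Fin.elim0, ?_⟩
      have hsum : E.sum (fun _ k => k) ≤ 0 := Int.toNat_eq_zero.mp hk
      have h0 : ∀ v ∈ E.support, E v = 0 := by
        have hnn : ∀ v ∈ E.support, 0 ≤ E v := fun v _ => by simpa using hE v
        have : ∑ v ∈ E.support, E v = 0 :=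
          le_antisymm hsum (Finset.sum_nonneg hnn)
        exact (Finset.sum_eq_zero_iff_of_nonneg hnn).mp this
      ext v
      by_cases hv : v ∈ E.support
      · simpa using h0 v hv
      · simpa [Finsupp.mem_support_iff] using hv
  | succ k ih =>
      have hne : E ≠ 0 := by
        rintro rfl
        simp at hk
      obtain ⟨v, hv⟩ := Finsupp.support_nonempty_iff.mpr hne
      have hv0 : E v ≠ 0 := Finsupp.mem_support_iff.mp hv
      have hv1 : 1 ≤ E v := by
        have : 0 ≤ E v := by simpa using hE v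
        omega
      set E' : α →₀ ℤ := E - Finsupp.single v 1 with hE'
      have hE'nn : 0 ≤ E' := by
        intro w
        rw [hE', Finsupp.sub_apply]
        by_cases hw : w = v
        · subst hw
          simp only [Finsupp.single_eq_same, Finsupp.coe_zero, Pi.zero_apply]
          omega
        · rw [Finsupp.single_eq_of_ne (Ne.symm hw |> fun h => by simpa using hw)]
          simpa using hE w
      have hEsum : E = E' + Finsupp.single v 1 := by rw [hE', sub_add_cancel]
      have hk' : (E'.sum fun _ k => k).toNat = k := by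
        have h1 : E.sum (fun _ k => k) = E'.sum (fun _ k => k) + 1 := by
          conv_lhs => rw [hEsum]
          rw [Finsupp.sum_add_index' (fun _ => rfl) (fun _ _ _ => rfl), Finsupp.sum_single_index rfl]
        have h2 : 0 ≤ E'.sum (fun _ k => k) :=
          Finset.sum_nonneg fun w _ => by simpa using hE'nn w
        rw [h1] at hk
        omega
      obtain ⟨n, R, hR⟩ := ih E' hE'nn hk'
      refine ⟨n + 1, Fin.cons v R, ?_⟩
      rw [Fin.sum_univ_succ, Fin.cons_zero]
      simp only [Fin.cons_succ]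
      rw [← hR, hEsum, add_comm]

/-! ### Residues, generic chains -/

section Chain

variable (N : ℕ) [NeZero N]

/-- `LHyp` for `F_ℂ`. -/
theorem lHypC : LHyp ℂ (FCx N) := lHyp_of_isGen (isGen_jL ℂ N)

/-- Riemann's inequality for `F_ℂ`. -/
theorem riemannHypC : RiemannHyp ℂ (FCx N) := riemann_inequality_of_isGen (isGen_jL ℂ N)

/-- The place `v` of `F_ℂ` is a zero of `j - c` ("`v` has `j`-residue `c`"). -/
def HasRes (v : Place ℂ (FCx N)) (c : ℂ) : Prop :=
  0 < v.ord (jL ℂ N - algebraMap ℂ (FCx N) c)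

variable {N}

theorem HasRes.unique {v : Place ℂ (FCx N)} {c c' : ℂ} (h : HasRes N v c) (h' : HasRes N v c') :
    c = c' :=
  const_unique v h h'

theorem HasRes.ord_nonneg {v : Place ℂ (FCx N)} {c : ℂ} (h : HasRes N v c) :
    0 ≤ v.ord (jL ℂ N) :=
  not_lt.mp (FF.GenusHyp.not_pole_of_zero h)

/-- Equivariance of residues under `Aut(ℂ/ℚbar)`. -/
theorem HasRes.smul {v : Place ℂ (FCx N)} {c : ℂ} (h : HasRes N v c) (σ : ℂ ≃ₐ[Qb] ℂ) :
    HasRes N (rhoC N σ • v) (σ c) := by
  have h1 := ord_smul_sub_const (rhoC N σ) v (jL ℂ N) c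
  have h2 : rhoC N σ • jL ℂ N = jL ℂ N := by
    rw [← bcQC_jL, rhoC_smul_bcQC]
  rw [h2, baseAut_rhoC] at h1
  rw [HasRes, h1]
  exact h

variable (N)

/-- Every complex number is the `j`-residue of some place. -/
theorem exists_hasRes (c : ℂ) : ∃ v : Place ℂ (FCx N), HasRes N v c := by
  by_contra hno
  push Not at hno
  have hf0 : jL ℂ N - algebraMap ℂ (FCx N) c ≠ 0 := Tower2.jL_sub_ne_zero ℂ N c
  have hall : ∀ v : Place ℂ (FCx N), 0 ≤ v.ord (jL ℂ N - algebraMap ℂ (FCx N) c)⁻¹ := by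
    intro v
    rw [v.ord_inv]
    have := hno v
    rw [HasRes] at this
    omega
  obtain ⟨d, hd⟩ := eq_algebraMap_of_forall_ord_nonneg (lHypC N) hall
  apply (isGen_jL ℂ N).transcendental
  have hd0 : d ≠ 0 := by
    rintro rfl
    rw [map_zero] at hd
    exact inv_ne_zero hf0 hd
  have : jL ℂ N = algebraMap ℂ (FCx N) (d⁻¹ + c) := by
    rw [map_add, map_inv₀, ← hd, inv_inv, sub_add_cancel]
  rw [this]
  exact isAlgebraic_algebraMap _

/-- A **generic chain**: places `R i` with `j`-residues `c i`, the `c i` algebraically independent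
over `ℚbar`. -/
structure IsChain {n : ℕ} (R : Fin n → Place ℂ (FCx N)) (c : Fin n → ℂ) : Prop where
  res : ∀ i, HasRes N (R i) (c i)
  indep : AlgebraicIndependent Qb c

/-- Generic chains of every length exist. -/
theorem exists_isChain (n : ℕ) :
    ∃ (R : Fin n → Place ℂ (FCx N)) (c : Fin n → ℂ), IsChain N R c := by
  obtain ⟨c, hc⟩ := Indep2.exists_algebraicIndependent_complex (k := Qb) n
  choose R hR using fun i => exists_hasRes N (c i)
  exact ⟨R, c, ⟨hR, hc⟩⟩

variable {N}

/-- Conjugates of generic chains are generic chains. -/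
theorem IsChain.smul {n : ℕ} {R : Fin n → Place ℂ (FCx N)} {c : Fin n → ℂ} (h : IsChain N R c)
    (σ : ℂ ≃ₐ[Qb] ℂ) : IsChain N (fun i => rhoC N σ • R i) (fun i => σ (c i)) :=
  ⟨fun i => (h.res i).smul σ, h.indep.map' (f := σ.toAlgHom) σ.injective⟩

/-- The divisor `∑ i, R i`. -/
def chainDiv {n : ℕ} (R : Fin n → Place ℂ (FCx N)) : Divisor ℂ (FCx N) :=
  ∑ i, Finsupp.single (R i) (1 : ℤ)

theorem degree_chainDiv {n : ℕ} (R : Fin n → Place ℂ (FCx N)) :
    Divisor.degree (chainDiv R) = n := by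
  rw [chainDiv, map_sum]
  simp [degree_single (lHypC N)]

theorem chainDiv_nonneg {n : ℕ} (R : Fin n → Place ℂ (FCx N)) : 0 ≤ chainDiv R := by
  rw [chainDiv]
  exact Finset.sum_nonneg fun i _ => Finsupp.single_nonneg.mpr zero_le_one

theorem smul_chainDiv {n : ℕ} (g : SemilinearAut ℂ (FCx N)) (R : Fin n → Place ℂ (FCx N)) :
    g • chainDiv R = chainDiv (fun i => g • R i) := by
  rw [chainDiv, chainDiv, Finset.smul_sum]
  exact Finset.sum_congr rfl fun i _ => SemilinearAut.smul_single g (R i) 1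

theorem mem_support_chainDiv {n : ℕ} {R : Fin n → Place ℂ (FCx N)} {v : Place ℂ (FCx N)} :
    v ∈ (chainDiv R).support ↔ ∃ i, R i = v := by
  classical
  rw [Finsupp.mem_support_iff, chainDiv, Finsupp.finsetSum_apply]
  constructor
  · intro h
    by_contra hno
    push Not at hno
    apply h
    exact Finset.sum_eq_zero fun i _ => Finsupp.single_eq_of_ne (fun h' => hno i h'.symm)
  · rintro ⟨i, rfl⟩
    have hnn : ∀ k ∈ Finset.univ, 0 ≤ (Finsupp.single (R k) (1 : ℤ)) (R i) := fun k _ => by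
      rw [Finsupp.single_apply]; split_ifs <;> simp
    have hle := Finset.single_le_sum hnn (Finset.mem_univ i)
    rw [Finsupp.single_eq_same] at hle
    omega

end Chain

/-! ### Classes of chains, normal forms -/

section Class

variable (N : ℕ) [NeZero N] (w₀ : Place Qb (FQ N))

/-- The normal form of a class of `Pic⁰(F_ℂ)` with respect to the base place `P₀ = extPlaceC N w₀`. -/
def nf (z : Pic0 ℂ (FCx N)) : Divisor ℂ (FCx N) :=
  normalFormPic (lHypC N) (riemannHypC N) (extPlaceC N w₀) z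

/-- The degree of the normal form. -/
def mp (z : Pic0 ℂ (FCx N)) : ℕ :=
  minPolePic (lHypC N) (riemannHypC N) (extPlaceC N w₀) z

theorem degree_nf (z : Pic0 ℂ (FCx N)) : Divisor.degree (nf N w₀ z) = mp N w₀ z :=
  degree_normalFormPic _ _ _ z

theorem nf_nonneg (z : Pic0 ℂ (FCx N)) : 0 ≤ nf N w₀ z := normalFormPic_nonneg _ _ _ z

theorem rhoC_smul_P0 (σ : ℂ ≃ₐ[Qb] ℂ) : rhoC N σ • extPlaceC N w₀ = extPlaceC N w₀ :=
  smul_extPlace (isConstExt_bcQC N) (isGen_jL Qb N) (isGen_jL ℂ N) (rhoC N σ)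
    (rhoC_smul_bcQC N σ) w₀

theorem nf_smul (g : SemilinearAut ℂ (FCx N)) (hg : g • extPlaceC N w₀ = extPlaceC N w₀)
    (z : Pic0 ℂ (FCx N)) : nf N w₀ (g • z) = g • nf N w₀ z :=
  normalFormPic_smul _ _ _ g hg z

theorem smul_eq_iff_smul_nf_eq (g : SemilinearAut ℂ (FCx N))
    (hg : g • extPlaceC N w₀ = extPlaceC N w₀) (z : Pic0 ℂ (FCx N)) :
    g • z = z ↔ g • nf N w₀ z = nf N w₀ z :=
  Fermat.Agent.J.DESC.NormalFormInj10.smul_eq_iff_smul_normalFormPic_eq _ _ _ g hg z

theorem nf_injective : Function.Injective (nf N w₀) :=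
  Fermat.Agent.J.DESC.NormalFormInj10.normalFormPic_injective _ _ _

theorem chain_sub_mem_degZero {n : ℕ} (R : Fin n → Place ℂ (FCx N)) :
    chainDiv R - Finsupp.single (extPlaceC N w₀) (n : ℤ) ∈
      Divisor.degZero (K := ℂ) (F := FCx N) := by
  rw [Divisor.mem_degZero, map_sub, degree_chainDiv, degree_single (lHypC N), sub_self]

/-- The class of `∑ i, R i - n • P₀`. -/
def chainClass {n : ℕ} (R : Fin n → Place ℂ (FCx N)) : Pic0 ℂ (FCx N) :=
  Pic0.mk ⟨_, chain_sub_mem_degZero N w₀ R⟩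

theorem smul_chainClass {n : ℕ} (g : SemilinearAut ℂ (FCx N))
    (hg : g • extPlaceC N w₀ = extPlaceC N w₀) (R : Fin n → Place ℂ (FCx N)) :
    g • chainClass N w₀ R = chainClass N w₀ (fun i => g • R i) := by
  rw [chainClass, chainClass, SemilinearAut.pic0_smul_mk]
  refine congrArg Pic0.mk (Subtype.ext ?_)
  rw [SemilinearAut.coe_degZeroSMulHom]
  show g • (chainDiv R - Finsupp.single (extPlaceC N w₀) (n : ℤ)) = _
  rw [smul_sub, smul_chainDiv, SemilinearAut.smul_single, hg]

/-- A class whose normal form is `chainDiv R` is the class of the chain `R`. -/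
theorem eq_chainClass_of_nf_eq {n : ℕ} {R : Fin n → Place ℂ (FCx N)} {z : Pic0 ℂ (FCx N)}
    (h : nf N w₀ z = chainDiv R) : z = chainClass N w₀ R := by
  have hn : mp N w₀ z = n := by
    have h1 := degree_nf N w₀ z
    rw [h, degree_chainDiv] at h1
    exact_mod_cast h1.symm
  have h2 := mk_normalFormPic' (lHypC N) (riemannHypC N) (extPlaceC N w₀) z
  rw [← h2, chainClass]
  refine congrArg Pic0.mk (Subtype.ext ?_)
  show normalFormPic (lHypC N) (riemannHypC N) (extPlaceC N w₀) z -
      Finsupp.single (extPlaceC N w₀) ((minPolePic (lHypC N) (riemannHypC N) (extPlaceC N w₀) z : ℕ) : ℤ)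
    = chainDiv R - Finsupp.single (extPlaceC N w₀) (n : ℤ)
  have hn' : minPolePic (lHypC N) (riemannHypC N) (extPlaceC N w₀) z = n := hn
  rw [hn']
  exact congrArg (· - Finsupp.single (extPlaceC N w₀) (n : ℤ)) h

end Class

/-! ### (A6) the orbit argument -/

section Orbit

variable (N : ℕ) [NeZero N] (w₀ : Place Qb (FQ N))

/-- Finite orbit under a subgroup of finite index of `Aut(ℂ/L)` implies rational over `L`. -/
theorem mem_range_extPlaceL_of_finiteIndex (L : Type) [Field L] [Algebra ℚ L] [Algebra L ℂ]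
    [IsAlgClosed L] [CharZero L] (Hs : Subgroup (ℂ ≃ₐ[L] ℂ)) [Hs.FiniteIndex]
    (v : Place ℂ (FCx N))
    (hfin : ((fun σ : ℂ ≃ₐ[L] ℂ => rhoL L N σ • v) '' (Hs : Set (ℂ ≃ₐ[L] ℂ))).Finite) :
    v ∈ Set.range (extPlaceL L N) :=
  mem_range_extPlace_of_finiteIndex (isConstExt_bcL L N) (isGen_jL L N) (isGen_jL ℂ N)
    (rhoL L N) (baseAut_rhoL L N) (rhoL_smul_bcL L N) Hs v hfin

/-- The base place is fixed by `Aut(ℂ/cl S)`. -/
theorem rhoL_smul_P0 (S : Set ℂ) (σ : ℂ ≃ₐ[↥(cl S)] ℂ) :
    rhoL ↥(cl S) N σ • extPlaceC N w₀ = extPlaceC N w₀ :=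
  rhoL_smul_eq_of_mem_range ↥(cl S) N (range_extPlaceC_subset ↥(cl S) N ⟨w₀, rfl⟩) σ

/-- **(A6)** Let the normal form of `z` be a generic chain of length `g`, let the normal form of `z'`
have degree `≤ g`, and assume that for every `S ⊆ ℂ` such that `Aut(ℂ/cl S)` fixes `z'`, a subgroup
of finite index of `Aut(ℂ/cl S)` fixes `z`. Then the normal form of `z'` is a generic chain of
length `g`. -/
theorem isChain_of_stab {g : ℕ} {R : Fin g → Place ℂ (FCx N)} {c : Fin g → ℂ}
    (hRc : IsChain N R c) (z z' : Pic0 ℂ (FCx N)) (hz : nf N w₀ z = chainDiv R)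
    (hdeg : mp N w₀ z' ≤ g)
    (hstab : ∀ S : Set ℂ, (∀ σ : ℂ ≃ₐ[↥(cl S)] ℂ, rhoL ↥(cl S) N σ • z' = z') →
      ∃ Hs : Subgroup (ℂ ≃ₐ[↥(cl S)] ℂ), Hs.FiniteIndex ∧
        ∀ σ ∈ Hs, rhoL ↥(cl S) N σ • z = z) :
    ∃ (R' : Fin g → Place ℂ (FCx N)) (c' : Fin g → ℂ), IsChain N R' c' ∧
      nf N w₀ z' = chainDiv R' := by
  classical
  -- enumerate the normal form of `z'`
  obtain ⟨r, R', hR'⟩ := exists_fin_sum_single (nf N w₀ z') (nf_nonneg N w₀ z')
  have hR'' : nf N w₀ z' = chainDiv R' := hR'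
  have hr : r = mp N w₀ z' := by
    have h1 := degree_nf N w₀ z'
    rw [hR'', degree_chainDiv] at h1
    exact_mod_cast h1
  have hrg : r ≤ g := hr ▸ hdeg
  -- the residues of the `R' j`
  let c' : Fin r → ℂ := fun j => if h : ∃ d, HasRes N (R' j) d then h.choose else 0
  have hc' : ∀ j, (∃ d, HasRes N (R' j) d) → HasRes N (R' j) (c' j) := by
    intro j h
    simp only [c', dif_pos h]
    exact h.choose_spec
  set S : Set ℂ := Set.range c' with hS
  -- each `R' j` is rational over `cl S`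
  have hrat : ∀ j, R' j ∈ Set.range (extPlaceL ↥(cl S) N) := by
    intro j
    rcases pole_or_residue N (R' j) with hp | hd
    · exact mem_range_extPlaceL_of_pole ↥(cl S) N (R' j) hp
    · exact mem_range_extPlace_cl_of_residue S N (R' j) (subset_cl S ⟨j, rfl⟩) (hc' j hd)
  -- `Aut(ℂ/cl S)` fixes `z'`
  have hfix' : ∀ σ : ℂ ≃ₐ[↥(cl S)] ℂ, rhoL ↥(cl S) N σ • z' = z' := by
    intro σ
    rw [smul_eq_iff_smul_nf_eq N w₀ _ (rhoL_smul_P0 N w₀ S σ), hR'', smul_chainDiv]
    exact congrArg chainDiv (funext fun j => rhoL_smul_eq_of_mem_range ↥(cl S) N (hrat j) σ)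
  obtain ⟨Hs, hHs, hHz⟩ := hstab S hfix'
  haveI := hHs
  -- each `R i` is rational over `cl S`
  have hratR : ∀ i, R i ∈ Set.range (extPlaceL ↥(cl S) N) := by
    intro i
    apply mem_range_extPlaceL_of_finiteIndex N ↥(cl S) Hs (R i)
    refine (chainDiv R).support.finite_toSet.subset ?_
    rintro _ ⟨σ, hσ, rfl⟩
    have h1 : rhoL ↥(cl S) N σ • chainDiv R = chainDiv R := by
      rw [← hz, ← smul_eq_iff_smul_nf_eq N w₀ _ (rhoL_smul_P0 N w₀ S σ)]
      exact hHz σ hσ
    show rhoL ↥(cl S) N σ • R i ∈ (chainDiv R).support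
    rw [Finsupp.mem_support_iff]
    have h2 := SemilinearAut.divisor_smul_apply_smul (rhoL ↥(cl S) N σ) (chainDiv R) (R i)
    rw [h1] at h2
    rw [h2, ← Finsupp.mem_support_iff, mem_support_chainDiv]
    exact ⟨i, rfl⟩
  -- so `c i ∈ cl S`
  have hcmem : ∀ i, c i ∈ cl S := by
    intro i
    obtain ⟨d, hd, hd'⟩ := exists_residue_mem_cl S N (hratR i) (hRc.res i).ord_nonneg
    rwa [(hRc.res i).unique hd']
  have halg : ∀ i, IsAlgebraic (IntermediateField.adjoin Qb (Set.range c')) (c i) := fun i =>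
    mem_cl_iff.mp (hcmem i)
  obtain ⟨hrg', hind⟩ := TrdegCount2.trdeg_count c c' hRc.indep halg hrg
  subst hrg'
  refine ⟨R', c', ⟨fun j => ?_, hind⟩, hR''⟩
  apply hc' j
  by_contra hno
  have h0 : c' j = 0 := by simp only [c', dif_neg hno]
  have htr : Transcendental Qb (c' j) := hind.transcendental j
  apply htr
  rw [h0]
  exact isAlgebraic_zero

end Orbit

/-! ### (A7) the end of the proof -/

section Final

variable (N : ℕ) [NeZero N] (w₀ : Place Qb (FQ N))

/-- A class of `Pic⁰(F_ℂ)` whose `m`-th multiple is fixed by a group acting through semilinear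
automorphisms is fixed by a subgroup of finite index (finiteness of the `m`-torsion). -/
theorem exists_finiteIndex_of_nsmul_fixed_gen {Γ : Type*} [Group Γ]
    (ρ : Γ →* SemilinearAut ℂ (FCx N)) (m : ℕ) (hm : 0 < m) (z : Pic0 ℂ (FCx N))
    (hz : ∀ σ : Γ, ρ σ • (m • z) = m • z) :
    ∃ H : Subgroup Γ, H.FiniteIndex ∧ ∀ σ ∈ H, ρ σ • z = z := by
  classical
  haveI : NeZero m := ⟨hm.ne'⟩
  haveI := RootDescent7.finite_torsionCx N m
  let _ : MulAction Γ (Pic0 ℂ (FCx N)) := MulAction.compHom _ ρ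
  have hmem : ∀ σ : Γ, ρ σ • z - z ∈ Pic0.torsion ℂ (FCx N) m := by
    intro σ
    rw [Pic0.mem_torsion, natCast_zsmul, nsmul_sub, ← RootDescent7.smul_nsmul_pic0, hz σ, sub_self]
  let f : MulAction.orbit Γ z → ↥(Pic0.torsion ℂ (FCx N) m) := fun w =>
    ⟨(w : Pic0 ℂ (FCx N)) - z, by
      obtain ⟨σ, hσ⟩ := w.2
      rw [← hσ]
      exact hmem σ⟩
  have hf : Function.Injective f := by
    intro w w' h
    have h1 := congrArg (Subtype.val : ↥(Pic0.torsion ℂ (FCx N) m) → Pic0 ℂ (FCx N)) h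
    exact Subtype.ext (sub_left_injective h1)
  haveI : Finite (MulAction.orbit Γ z) := Finite.of_injective f hf
  refine ⟨MulAction.stabilizer Γ z, ?_, ?_⟩
  · have : Finite (Γ ⧸ MulAction.stabilizer Γ z) :=
      Finite.of_equiv _ (MulAction.orbitEquivQuotientStabilizer Γ z)
    exact Subgroup.finiteIndex_of_finite_quotient
  · intro σ hσ
    exact MulAction.mem_stabilizer_iff.mp hσ

/-- **(A7)** Divisibility over `ℂ` of the classes defined over `ℚbar`, from:
(BOUND) every normal form has degree `≤ g`; (CONJ) any two generic chains of length `g` are conjugate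
under `Aut(ℂ/ℚbar)`; (NS) a generic chain of length `g` is the normal form of its class. -/
theorem divisibleC_of_chains (g : ℕ) (hbound : ∀ z : Pic0 ℂ (FCx N), mp N w₀ z ≤ g)
    (hconj : ∀ (R R' : Fin g → Place ℂ (FCx N)) (c c' : Fin g → ℂ), IsChain N R c →
      IsChain N R' c' → ∃ σ : ℂ ≃ₐ[Qb] ℂ, ∀ i, rhoC N σ • R i = R' i)
    (hNS : ∀ (R : Fin g → Place ℂ (FCx N)) (c : Fin g → ℂ), IsChain N R c →
      nf N w₀ (chainClass N w₀ R) = chainDiv R)
    (m : ℕ) (hm : 0 < m) (x : Pic0 Qb (FQ N)) :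
    ∃ z : Pic0 ℂ (FCx N), m • z = extPic0C N x := by
  obtain ⟨R0, c0, h0⟩ := exists_isChain N g
  set z0 : Pic0 ℂ (FCx N) := chainClass N w₀ R0 with hz0def
  have hz0 : nf N w₀ z0 = chainDiv R0 := hNS R0 c0 h0
  -- Step 1: `z0` is divisible by `m`
  have step1 : ∃ y0 : Pic0 ℂ (FCx N), m • y0 = z0 := by
    obtain ⟨R', c', hch', hnf'⟩ := isChain_of_stab N w₀ h0 z0 (m • z0) hz0 (hbound _)
      (fun S hfix => exists_finiteIndex_of_nsmul_fixed_gen N (rhoL ↥(cl S) N) m hm z0 hfix)
    have h1 : m • z0 = chainClass N w₀ R' := eq_chainClass_of_nf_eq N w₀ hnf'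
    obtain ⟨σ, hσ⟩ := hconj R0 R' c0 c' h0 hch'
    have h2 : rhoC N σ • z0 = m • z0 := by
      rw [h1, hz0def, smul_chainClass N w₀ _ (rhoC_smul_P0 N w₀ σ)]
      exact congrArg (chainClass N w₀) (funext hσ)
    refine ⟨rhoC N σ⁻¹ • z0, ?_⟩
    rw [← RootDescent7.smul_nsmul_pic0, ← h2, ← mul_smul, ← map_mul, inv_mul_cancel, map_one,
      one_smul]
  obtain ⟨y0, hy0⟩ := step1
  -- Step 2: `ext x + z0` is conjugate to `z0`
  obtain ⟨R'', c'', hch'', hnf''⟩ := isChain_of_stab N w₀ h0 z0 (extPic0C N x + z0) hz0 (hbound _)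
    (fun S hfix => ⟨⊤, inferInstance, fun σ _ => by
      have hx : rhoL ↥(cl S) N σ • extPic0C N x = extPic0C N x := by
        rw [rhoL_eq]
        exact rhoC_smul_extPic0C N _ x
      have h := hfix σ
      rw [smul_add, hx] at h
      exact add_left_cancel h⟩)
  have h3 : extPic0C N x + z0 = chainClass N w₀ R'' := eq_chainClass_of_nf_eq N w₀ hnf''
  obtain ⟨τ, hτ⟩ := hconj R0 R'' c0 c'' h0 hch''
  have h4 : rhoC N τ • z0 = extPic0C N x + z0 := by
    rw [h3, hz0def, smul_chainClass N w₀ _ (rhoC_smul_P0 N w₀ τ)]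
    exact congrArg (chainClass N w₀) (funext hτ)
  refine ⟨rhoC N τ • y0 - y0, ?_⟩
  rw [nsmul_sub, ← RootDescent7.smul_nsmul_pic0, hy0, h4, add_sub_cancel_right]

/-- **Divisibility of `JZero N`** from (BOUND), (CONJ), (NS). -/
theorem jzero_divisible_of_chains (g : ℕ) (hbound : ∀ z : Pic0 ℂ (FCx N), mp N w₀ z ≤ g)
    (hconj : ∀ (R R' : Fin g → Place ℂ (FCx N)) (c c' : Fin g → ℂ), IsChain N R c →
      IsChain N R' c' → ∃ σ : ℂ ≃ₐ[Qb] ℂ, ∀ i, rhoC N σ • R i = R' i)
    (hNS : ∀ (R : Fin g → Place ℂ (FCx N)) (c : Fin g → ℂ), IsChain N R c →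
      nf N w₀ (chainClass N w₀ R) = chainDiv R)
    (m : ℕ) (hm : 0 < m) (x : JZero N) : ∃ y : JZero N, m • y = x :=
  RootDescent7.jzero_divisible_of_divisibleC N m hm
    (divisibleC_of_chains N w₀ g hbound hconj hNS m hm) x

end Final

end

end Fermat.Agent.MW.A.Orbit2
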